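/-
S26lib / Prod / Points (helper6, Project K).

**The `T`-point calculus for a relative group law and the products `A ×_S A`, `A ×_S A ×_S A`.**

For `G : RelativeGroupLaw R f` (`f : A ⟶ S = Spec R`):

* `pullP ψ hψ x` (= `schemeHomOverComp`): base change of points along `ψ : T' ⟶ T`; it is a group
  homomorphism (`pull_mul`, `pull_one`, `pull_inv`, `pull_nsmul`), functorial (`pull_pull`,
  `pull_id`), and `ψ ≫ x.1 = (pullP ψ hψ x).1` by definition;
* `A2 f = A ×_S A` with structure map `f2 f`, coordinate points `pt1 f`, `pt2 f`, and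
  `pair x y : T ⟶ A2 f` for two `T`-points `x y`; `A3 f = (A ×_S A) ×_S A` with `f3 f`,
  coordinate points `q1 f`, `q2 f`, `q3 f` and `triple x z y : T ⟶ A3 f`;
* ext lemmas `A2_hom_ext`, `A3_hom_ext`, and `pair_eta`, `triple_eta`.

Every identity between the morphisms built from these data becomes a one-line group identity in
`SchemeHomOver t f`.
-/
import Mathlib
import Fermat.Agent.S26lib.NMul.Yoneda

set_option autoImplicit false

noncomputable section

universe u

namespace Fermat.Agent.S26lib.Prod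

open CategoryTheory CategoryTheory.Limits AlgebraicGeometry NeronModelInfra GoodReductionJacobian

variable {R : Type u} [CommRing R] {A : Scheme.{u}} {f : A ⟶ Spec (CommRingCat.of R)}

/-! ### base change of points -/

section Pull

variable {T T' T'' : Scheme.{u}} {t : T ⟶ Spec (CommRingCat.of R)} {t' : T' ⟶ Spec (CommRingCat.of R)} {t'' : T'' ⟶ Spec (CommRingCat.of R)}

/-- base change of a `T`-point along `ψ : T' ⟶ T` -/
abbrev pullP (ψ : T' ⟶ T) (hψ : ψ ≫ t = t') (x : SchemeHomOver t f) : SchemeHomOver t' f :=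
  schemeHomOverComp ψ hψ x

theorem comp_coe (ψ : T' ⟶ T) (hψ : ψ ≫ t = t') (x : SchemeHomOver t f) :
    ψ ≫ x.1 = (pullP ψ hψ x).1 := rfl

theorem pull_pull (ψ : T' ⟶ T) (hψ : ψ ≫ t = t') (ψ' : T'' ⟶ T') (hψ' : ψ' ≫ t' = t'')
    (x : SchemeHomOver t f) :
    pullP ψ' hψ' (pullP ψ hψ x) =
      pullP (ψ' ≫ ψ) (by rw [Category.assoc, hψ, hψ']) x :=
  Subtype.ext (Category.assoc _ _ _).symm

theorem pull_id (x : SchemeHomOver t f) : pullP (𝟙 T) (Category.id_comp t) x = x :=
  Subtype.ext (Category.id_comp _)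

theorem pull_congr {ψ ψ' : T' ⟶ T} (h : ψ = ψ') (hψ : ψ ≫ t = t') (x : SchemeHomOver t f) :
    pullP ψ hψ x = pullP ψ' (h ▸ hψ) x := by
  subst h; rfl

/-- a point is the pull-back of the universal point along itself -/
theorem pull_idPt (x : SchemeHomOver t f) : pullP x.1 x.2 (NMul.idPt f) = x :=
  NMul.pullPt_idPt x

variable (G : RelativeGroupLaw R f)

theorem pull_mul (ψ : T' ⟶ T) (hψ : ψ ≫ t = t') (x y : SchemeHomOver t f) :
    pullP ψ hψ (G.mul t x y) = G.mul t' (pullP ψ hψ x) (pullP ψ hψ y) :=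
  G.mul_natural t t' ψ hψ x y

theorem pull_one (ψ : T' ⟶ T) (hψ : ψ ≫ t = t') :
    pullP ψ hψ (G.one t) = G.one t' :=
  G.one_natural t t' ψ hψ

theorem pull_inv (ψ : T' ⟶ T) (hψ : ψ ≫ t = t') (x : SchemeHomOver t f) :
    pullP ψ hψ (G.inv t x) = G.inv t' (pullP ψ hψ x) :=
  NMul.inv_natural G t t' ψ hψ x

theorem pull_nsmul (ψ : T' ⟶ T) (hψ : ψ ≫ t = t') (n : ℕ) (x : SchemeHomOver t f) :
    pullP ψ hψ (G.nsmul t n x) = G.nsmul t' n (pullP ψ hψ x) :=
  G.nsmul_natural t t' ψ hψ n x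

/-- the constant point attached to an `S`-point is stable under base change -/
theorem pull_basePt (ψ : T' ⟶ T) (hψ : ψ ≫ t = t') (a : SchemeHomOver (𝟙 (Spec (CommRingCat.of R))) f) :
    pullP ψ hψ (NMul.basePt t a) = NMul.basePt t' a :=
  NMul.comp_basePt t t' ψ hψ a

end Pull

/-! ### the products -/

variable (f)

/-- `A ×_S A` -/
abbrev A2 : Scheme.{u} := pullback f f

/-- the structure map of `A ×_S A` -/
def f2 : A2 f ⟶ Spec (CommRingCat.of R) := pullback.fst f f ≫ f

/-- `(A ×_S A) ×_S A` -/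
abbrev A3 : Scheme.{u} := pullback (f2 f) f

/-- the structure map of `A ×_S A ×_S A` -/
def f3 : A3 f ⟶ Spec (CommRingCat.of R) := pullback.fst (f2 f) f ≫ f2 f

/-- the first coordinate of `A ×_S A` -/
def pt1 : SchemeHomOver (f2 f) f := ⟨pullback.fst f f, rfl⟩

/-- the second coordinate of `A ×_S A` -/
def pt2 : SchemeHomOver (f2 f) f := ⟨pullback.snd f f, pullback.condition.symm⟩

/-- the projection `A ×_S A ×_S A → A ×_S A` on the first two coordinates -/
def p12 : A3 f ⟶ A2 f := pullback.fst (f2 f) f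

theorem p12_f2 : p12 f ≫ f2 f = f3 f := rfl

/-- the first coordinate of `A ×_S A ×_S A` -/
def q1 : SchemeHomOver (f3 f) f := pullP (p12 f) (p12_f2 f) (pt1 f)

/-- the second coordinate of `A ×_S A ×_S A` -/
def q2 : SchemeHomOver (f3 f) f := pullP (p12 f) (p12_f2 f) (pt2 f)

/-- the third coordinate of `A ×_S A ×_S A` -/
def q3 : SchemeHomOver (f3 f) f := ⟨pullback.snd (f2 f) f, pullback.condition.symm⟩

variable {f}

section Pair

variable {T T' : Scheme.{u}} {t : T ⟶ Spec (CommRingCat.of R)} {t' : T' ⟶ Spec (CommRingCat.of R)}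

/-- the morphism `T ⟶ A ×_S A` with coordinates `x`, `y` -/
def pair (x y : SchemeHomOver t f) : T ⟶ A2 f :=
  pullback.lift x.1 y.1 (x.2.trans y.2.symm)

theorem pair_fst (x y : SchemeHomOver t f) : pair x y ≫ pullback.fst f f = x.1 :=
  pullback.lift_fst _ _ _

theorem pair_snd (x y : SchemeHomOver t f) : pair x y ≫ pullback.snd f f = y.1 :=
  pullback.lift_snd _ _ _

theorem pair_f2 (x y : SchemeHomOver t f) : pair x y ≫ f2 f = t := by
  rw [f2, ← Category.assoc, pair_fst, x.2]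

@[simp]
theorem pull_pair_pt1 (x y : SchemeHomOver t f) : pullP (pair x y) (pair_f2 x y) (pt1 f) = x :=
  Subtype.ext (pair_fst x y)

@[simp]
theorem pull_pair_pt2 (x y : SchemeHomOver t f) : pullP (pair x y) (pair_f2 x y) (pt2 f) = y :=
  Subtype.ext (pair_snd x y)

theorem A2_hom_ext {ψ ψ' : T ⟶ A2 f} (h1 : ψ ≫ (pt1 f).1 = ψ' ≫ (pt1 f).1)
    (h2 : ψ ≫ (pt2 f).1 = ψ' ≫ (pt2 f).1) : ψ = ψ' :=
  pullback.hom_ext h1 h2

/-- every morphism to `A ×_S A` is the pair of its coordinates -/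
theorem pair_eta (ψ : T ⟶ A2 f) (hψ : ψ ≫ f2 f = t) :
    pair (pullP ψ hψ (pt1 f)) (pullP ψ hψ (pt2 f)) = ψ := by
  apply A2_hom_ext
  · exact pair_fst _ _
  · exact pair_snd _ _

/-- composition with a pair -/
theorem comp_pair (ψ : T' ⟶ T) (hψ : ψ ≫ t = t') (x y : SchemeHomOver t f) :
    ψ ≫ pair x y = pair (pullP ψ hψ x) (pullP ψ hψ y) := by
  apply A2_hom_ext
  · rw [Category.assoc]
    erw [pair_fst, pair_fst]
    rfl
  · rw [Category.assoc]
    erw [pair_snd, pair_snd]
    rfl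

/-- the morphism `T ⟶ A ×_S A ×_S A` with coordinates `x`, `z`, `y` -/
def triple (x z y : SchemeHomOver t f) : T ⟶ A3 f :=
  pullback.lift (pair x z) y.1 ((pair_f2 x z).trans y.2.symm)

theorem triple_p12 (x z y : SchemeHomOver t f) : triple x z y ≫ p12 f = pair x z :=
  pullback.lift_fst _ _ _

theorem triple_snd (x z y : SchemeHomOver t f) :
    triple x z y ≫ pullback.snd (f2 f) f = y.1 :=
  pullback.lift_snd _ _ _

theorem triple_f3 (x z y : SchemeHomOver t f) : triple x z y ≫ f3 f = t := by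
  rw [← p12_f2, ← Category.assoc, triple_p12, pair_f2]

@[simp]
theorem pull_triple_q1 (x z y : SchemeHomOver t f) :
    pullP (triple x z y) (triple_f3 x z y) (q1 f) = x := by
  apply Subtype.ext
  show triple x z y ≫ p12 f ≫ pullback.fst f f = x.1
  rw [← Category.assoc, triple_p12, pair_fst]

@[simp]
theorem pull_triple_q2 (x z y : SchemeHomOver t f) :
    pullP (triple x z y) (triple_f3 x z y) (q2 f) = z := by
  apply Subtype.ext
  show triple x z y ≫ p12 f ≫ pullback.snd f f = z.1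
  rw [← Category.assoc, triple_p12, pair_snd]

@[simp]
theorem pull_triple_q3 (x z y : SchemeHomOver t f) :
    pullP (triple x z y) (triple_f3 x z y) (q3 f) = y :=
  Subtype.ext (triple_snd x z y)

theorem A3_hom_ext {ψ ψ' : T ⟶ A3 f} (h1 : ψ ≫ (q1 f).1 = ψ' ≫ (q1 f).1)
    (h2 : ψ ≫ (q2 f).1 = ψ' ≫ (q2 f).1) (h3 : ψ ≫ (q3 f).1 = ψ' ≫ (q3 f).1) : ψ = ψ' := by
  apply pullback.hom_ext
  · apply A2_hom_ext
    · rw [Category.assoc, Category.assoc]
      exact h1
    · rw [Category.assoc, Category.assoc]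
      exact h2
  · exact h3

/-- every morphism to `A ×_S A ×_S A` is the triple of its coordinates -/
theorem triple_eta (ψ : T ⟶ A3 f) (hψ : ψ ≫ f3 f = t) :
    triple (pullP ψ hψ (q1 f)) (pullP ψ hψ (q2 f)) (pullP ψ hψ (q3 f)) = ψ := by
  apply A3_hom_ext
  · exact congrArg Subtype.val (pull_triple_q1 _ _ _)
  · exact congrArg Subtype.val (pull_triple_q2 _ _ _)
  · exact congrArg Subtype.val (pull_triple_q3 _ _ _)

/-- composition with a triple -/
theorem comp_triple (ψ : T' ⟶ T) (hψ : ψ ≫ t = t') (x z y : SchemeHomOver t f) :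
    ψ ≫ triple x z y = triple (pullP ψ hψ x) (pullP ψ hψ z) (pullP ψ hψ y) := by
  apply A3_hom_ext
  · rw [Category.assoc, comp_coe (triple x z y) (triple_f3 x z y), pull_triple_q1,
      comp_coe (triple _ _ _) (triple_f3 _ _ _), pull_triple_q1]
    rfl
  · rw [Category.assoc, comp_coe (triple x z y) (triple_f3 x z y), pull_triple_q2,
      comp_coe (triple _ _ _) (triple_f3 _ _ _), pull_triple_q2]
    rfl
  · rw [Category.assoc, comp_coe (triple x z y) (triple_f3 x z y), pull_triple_q3,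
      comp_coe (triple _ _ _) (triple_f3 _ _ _), pull_triple_q3]
    rfl

end Pair

end Fermat.Agent.S26lib.Prod
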