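/-
S26lib / Prod / KPoints (helper6, Project K).

**Rational points of a `K`-scheme and evaluation of functions.**

For `s : X ⟶ Spec K` (`K` a field):
* `KPt s := SchemeHomOver (𝟙 (Spec K)) s` : the `K`-points (sections of `s`);
* `KPt.pt a : X` : the underlying point; it is closed (`KPt.isClosed_pt`);
* `KPt.eval a : O_{X, a} →+* K` : evaluation at `a` (a local homomorphism, `eval_const`,
  `eval_eq_zero_iff : eval a h = 0 ↔ h ∈ 𝔪`, `eval_surjective`);
* `KPt.constStalk s x : K →+* O_{X,x}` : the constants;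
* `KPt.map φ hφ a` : the image of a `K`-point under a `K`-morphism `φ`, with
  `pt_map : (a.map φ hφ).pt = φ a.pt` (by `rfl`) and
  `eval_map : eval (a.map φ hφ) h = eval a (φ.stalkMap a.pt h)`;
* for `K` algebraically closed and `s` locally of finite type: `KPt.ofClosedPoint`,
  `KPt.equivClosedPoints : KPt s ≃ closedPoints X`, `KPt.ext_pt` (a `K`-point is determined by its
  underlying point) and the density statements `exists_kPt_mem_of_isLocallyClosed`,
  `exists_kPt_mem_opens`, `dense_range_pt`.
-/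
import Mathlib
import Fermat.Agent.S26lib.Prod.Points

set_option autoImplicit false

noncomputable section

universe u

namespace Fermat.Agent.S26lib.Prod

open CategoryTheory CategoryTheory.Limits AlgebraicGeometry NeronModelInfra GoodReductionJacobian
  TopologicalSpace

variable {K : Type u} [Field K] {X Y : Scheme.{u}}

/-- the `K`-points of a `K`-scheme -/
abbrev KPt (s : X ⟶ Spec (CommRingCat.of K)) : Type u :=
  SchemeHomOver (𝟙 (Spec (CommRingCat.of K))) s

namespace KPt

variable {s : X ⟶ Spec (CommRingCat.of K)} {r : Y ⟶ Spec (CommRingCat.of K)}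

/-- the closed point of `Spec K` -/
abbrev o (K : Type u) [Field K] : Spec (CommRingCat.of K) := IsLocalRing.closedPoint K

/-- the underlying point of a `K`-point -/
def pt (a : KPt s) : X := a.1 (o K)

theorem isClosedImmersion (a : KPt s) : IsClosedImmersion a.1 :=
  isClosedImmersion_of_comp_eq_id s a.1 a.2

theorem range_eq (a : KPt s) : Set.range a.1 = {a.pt} := by
  rw [Set.range_eq_singleton]
  intro x
  exact congrArg a.1 (Subsingleton.elim _ _)

/-- a rational point is a closed point -/
theorem isClosed_pt (a : KPt s) : IsClosed ({a.pt} : Set X) := by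
  have := a.isClosedImmersion
  have h := a.1.isClosedEmbedding.isClosed_range
  rwa [range_eq] at h

/-- the image of a `K`-point under a `K`-morphism -/
def map (φ : X ⟶ Y) (hφ : φ ≫ r = s) (a : KPt s) : KPt r :=
  ⟨a.1 ≫ φ, by rw [Category.assoc, hφ, a.2]⟩

@[simp]
theorem map_coe (φ : X ⟶ Y) (hφ : φ ≫ r = s) (a : KPt s) : (a.map φ hφ).1 = a.1 ≫ φ := rfl

theorem pt_map (φ : X ⟶ Y) (hφ : φ ≫ r = s) (a : KPt s) : (a.map φ hφ).pt = φ a.pt := rfl

/-! ### evaluation -/

/-- **evaluation at a `K`-point** -/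
def eval (a : KPt s) : X.presheaf.stalk a.pt →+* K :=
  (Scheme.stalkClosedPointTo a.1).hom

instance isLocalHom_eval (a : KPt s) : IsLocalHom a.eval :=
  Scheme.isLocalHom_stalkClosedPointTo' a.1

/-- evaluation is compatible with `K`-morphisms: `(φ^* h)(a) = h(φ a)` -/
theorem eval_map (φ : X ⟶ Y) (hφ : φ ≫ r = s) (a : KPt s)
    (h : Y.presheaf.stalk (φ a.pt)) :
    (a.map φ hφ).eval h = a.eval (φ.stalkMap a.pt h) := by
  have := Scheme.stalkClosedPointTo_comp a.1 φ
  exact congrArg (fun ψ => ψ.hom h) this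

/-- the constants in the local ring at `x` -/
def constStalk (s : X ⟶ Spec (CommRingCat.of K)) (x : X) : K →+* X.presheaf.stalk x :=
  ((Scheme.ΓSpecIso (CommRingCat.of K)).inv ≫ s.appTop ≫ X.presheaf.germ ⊤ x trivial).hom

/-- the constants are preserved by `K`-morphisms -/
theorem stalkMap_constStalk (φ : X ⟶ Y) (hφ : φ ≫ r = s) (x : X) (c : K) :
    φ.stalkMap x (constStalk r (φ x) c) = constStalk s x c := by
  have h1 : Y.presheaf.germ ⊤ (φ x) trivial ≫ φ.stalkMap x =
      φ.app ⊤ ≫ X.presheaf.germ (φ ⁻¹ᵁ ⊤) x trivial := Scheme.Hom.germ_stalkMap φ ⊤ x trivial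
  have h2 : r.appTop ≫ φ.appTop = s.appTop := by
    rw [← Scheme.Hom.comp_appTop, hφ]
  have : ((Scheme.ΓSpecIso (CommRingCat.of K)).inv ≫ r.appTop ≫
      Y.presheaf.germ ⊤ (φ x) trivial) ≫ φ.stalkMap x =
      (Scheme.ΓSpecIso (CommRingCat.of K)).inv ≫ s.appTop ≫ X.presheaf.germ ⊤ x trivial := by
    simp only [Category.assoc]
    rw [h1]
    show _ ≫ r.appTop ≫ φ.appTop ≫ X.presheaf.germ ⊤ x trivial = _
    rw [reassoc_of% h2]
  exact congrArg (fun ψ => ψ.hom c) this

/-- evaluation at the closed point of `Spec K` itself -/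
theorem eval_gen_const (ψ : Spec (CommRingCat.of K) ⟶ Spec (CommRingCat.of K))
    (hψ : ψ = 𝟙 _) (c : K) :
    (Scheme.stalkClosedPointTo ψ).hom
      (constStalk (𝟙 (Spec (CommRingCat.of K))) (ψ (o K)) c) = c := by
  subst hψ
  have h := Scheme.germ_stalkClosedPointTo (𝟙 (Spec (CommRingCat.of K))) ⊤ trivial
  have h' := congrArg (fun ψ => ψ.hom ((Scheme.ΓSpecIso (CommRingCat.of K)).inv c)) h
  simp only [CommRingCat.comp_apply] at h'
  unfold constStalk
  simp only [Scheme.Hom.id_appTop, Category.id_comp, CommRingCat.hom_comp, RingHom.comp_apply]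
  erw [h']
  simp only [RingHom.comp_apply, Iso.trans_hom, Functor.mapIso_hom,
    Iso.op_hom, eqToIso.hom, eqToHom_op, Scheme.Hom.id_app]
  erw [eqToHom_refl]
  simp

/-- **the value of the constant `c` is `c`** -/
theorem eval_const (a : KPt s) (c : K) : a.eval (constStalk s a.pt c) = c := by
  have h1 : constStalk s a.pt c =
      s.stalkMap a.pt (constStalk (𝟙 (Spec (CommRingCat.of K))) (s a.pt) c) :=
    (stalkMap_constStalk (r := 𝟙 (Spec (CommRingCat.of K))) s (Category.comp_id s) a.pt c).symm
  have h2 := Scheme.stalkClosedPointTo_comp a.1 s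
  have h3 : (Scheme.stalkClosedPointTo (a.1 ≫ s)).hom
      (constStalk (𝟙 (Spec (CommRingCat.of K))) ((a.1 ≫ s) (o K)) c) =
      a.eval (s.stalkMap a.pt (constStalk (𝟙 (Spec (CommRingCat.of K))) (s a.pt) c)) :=
    congrArg (fun ψ => ψ.hom (constStalk (𝟙 (Spec (CommRingCat.of K))) (s a.pt) c)) h2
  rw [h1, ← h3]
  exact eval_gen_const (a.1 ≫ s) a.2 c

theorem eval_surjective (a : KPt s) : Function.Surjective a.eval := fun c =>
  ⟨_, a.eval_const c⟩

/-- **a function vanishes at `a` iff it lies in the maximal ideal** -/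
theorem eval_eq_zero_iff (a : KPt s) (h : X.presheaf.stalk a.pt) :
    a.eval h = 0 ↔ h ∈ IsLocalRing.maximalIdeal (X.presheaf.stalk a.pt) := by
  rw [IsLocalRing.mem_maximalIdeal, mem_nonunits_iff]
  constructor
  · intro h0 hu
    have := hu.map a.eval
    rw [h0] at this
    exact not_isUnit_zero this
  · intro hnu
    by_contra h0
    exact hnu (isUnit_of_map_unit a.eval h (isUnit_iff_ne_zero.mpr h0))

theorem eval_ne_zero_iff (a : KPt s) (h : X.presheaf.stalk a.pt) :
    a.eval h ≠ 0 ↔ IsUnit h := by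
  rw [Ne, eval_eq_zero_iff, IsLocalRing.mem_maximalIdeal, mem_nonunits_iff, not_not]

/-- a function is the constant `a.eval h` modulo the maximal ideal -/
theorem sub_const_mem_maximalIdeal (a : KPt s) (h : X.presheaf.stalk a.pt) :
    h - constStalk s a.pt (a.eval h) ∈ IsLocalRing.maximalIdeal (X.presheaf.stalk a.pt) := by
  rw [← eval_eq_zero_iff, map_sub, eval_const, sub_self]

/-! ### algebraically closed base field -/

section AlgClosed

variable [IsAlgClosed K] (s) [LocallyOfFiniteType s]

/-- the `K`-point attached to a closed point -/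
def ofClosedPoint (x : X) (hx : IsClosed ({x} : Set X)) : KPt s :=
  ⟨pointOfClosedPoint s x hx, pointOfClosedPoint_comp s x hx⟩

@[simp]
theorem pt_ofClosedPoint (x : X) (hx : IsClosed ({x} : Set X)) :
    (ofClosedPoint s x hx).pt = x :=
  pointOfClosedPoint_apply s x hx _

/-- `K`-points ≃ closed points -/
def equivClosedPoints : KPt s ≃ closedPoints X := pointEquivClosedPoint s

theorem equivClosedPoints_apply (a : KPt s) : (equivClosedPoints s a : X) = a.pt := rfl

variable {s}

/-- a `K`-point is determined by its underlying point -/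
theorem ext_pt {a b : KPt s} (h : a.pt = b.pt) : a = b :=
  (equivClosedPoints s).injective (Subtype.ext h)

variable (s)

/-- every non-empty locally closed subset contains a `K`-point -/
theorem exists_kPt_mem_of_isLocallyClosed {Z : Set X} (hZ : IsLocallyClosed Z)
    (hne : Z.Nonempty) : ∃ a : KPt s, a.pt ∈ Z := by
  haveI : JacobsonSpace X := LocallyOfFiniteType.jacobsonSpace s
  obtain ⟨x, hxZ, hx⟩ := nonempty_inter_closedPoints hne hZ
  exact ⟨ofClosedPoint s x hx, by rwa [pt_ofClosedPoint]⟩

/-- every non-empty open subset contains a `K`-point -/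
theorem exists_kPt_mem_opens (U : X.Opens) (hU : (U : Set X).Nonempty) :
    ∃ a : KPt s, a.pt ∈ U :=
  exists_kPt_mem_of_isLocallyClosed s U.2.isLocallyClosed hU

/-- the `K`-points are dense -/
theorem dense_range_pt : Dense (Set.range (pt : KPt s → X)) := by
  rw [dense_iff_inter_open]
  intro U hU hne
  obtain ⟨a, ha⟩ := exists_kPt_mem_of_isLocallyClosed s hU.isLocallyClosed hne
  exact ⟨a.pt, ha, a, rfl⟩

/-- the `K`-points of a closed subset are dense in it (Jacobson) -/
theorem closure_kPt_inter {Z : Set X} (hZ : IsLocallyClosed Z) :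
    closure {x | x ∈ Z ∧ ∃ a : KPt s, a.pt = x} = closure Z := by
  haveI : JacobsonSpace X := LocallyOfFiniteType.jacobsonSpace s
  have : {x | x ∈ Z ∧ ∃ a : KPt s, a.pt = x} = Z ∩ closedPoints X := by
    ext x
    constructor
    · rintro ⟨hx, a, rfl⟩
      exact ⟨hx, a.isClosed_pt⟩
    · rintro ⟨hx, hc⟩
      exact ⟨hx, ofClosedPoint s x hc, pt_ofClosedPoint s x hc⟩
  rw [this, JacobsonSpace.closure_inter_closedPoints_eq_closure hZ]

end AlgClosed

end KPt

end Fermat.Agent.S26lib.Prod
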