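/-
S26lib / Prod / Connected (helper6, Project K).
The product of two connected schemes locally of finite type over an algebraically closed field is
connected.
-/
import Mathlib

set_option autoImplicit false

noncomputable section

universe u

open CategoryTheory CategoryTheory.Limits AlgebraicGeometry

namespace Fermat.Agent.S26lib

variable {K : Type u} [Field K] [IsAlgClosed K] {X Y : Scheme.{u}}
  (sX : X ⟶ Spec (CommRingCat.of K)) (sY : Y ⟶ Spec (CommRingCat.of K))

/-- the slice `Y → X × Y`, `y ↦ (a, y)` through a rational point `a` of `X` -/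
def sliceSnd (a : Spec (CommRingCat.of K) ⟶ X) (ha : a ≫ sX = 𝟙 _) : Y ⟶ pullback sX sY :=
  pullback.lift (sY ≫ a) (𝟙 Y) (by rw [Category.assoc, ha, Category.comp_id, Category.id_comp])

/-- the slice `X → X × Y`, `x ↦ (x, b)` through a rational point `b` of `Y` -/
def sliceFst (b : Spec (CommRingCat.of K) ⟶ Y) (hb : b ≫ sY = 𝟙 _) : X ⟶ pullback sX sY :=
  pullback.lift (𝟙 X) (sX ≫ b) (by rw [Category.assoc, hb, Category.comp_id, Category.id_comp])

variable [LocallyOfFiniteType sX] [LocallyOfFiniteType sY]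

theorem connectedSpace_pullback_of_isAlgClosed [ConnectedSpace X] [ConnectedSpace Y] :
    ConnectedSpace ↥(pullback sX sY) := by
  let P := pullback sX sY
  let sP : P ⟶ Spec (CommRingCat.of K) := pullback.fst sX sY ≫ sX
  haveI : LocallyOfFiniteType sP := by dsimp [sP]; infer_instance
  haveI : JacobsonSpace X := LocallyOfFiniteType.jacobsonSpace sX
  haveI : JacobsonSpace Y := LocallyOfFiniteType.jacobsonSpace sY
  haveI : JacobsonSpace P := LocallyOfFiniteType.jacobsonSpace sP
  let pt : Spec (CommRingCat.of K) := IsLocalRing.closedPoint K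
  -- base points
  obtain ⟨x₀, -, hx₀⟩ := nonempty_inter_closedPoints (X := X) Set.univ_nonempty
    isOpen_univ.isLocallyClosed
  let a₀ := pointOfClosedPoint sX x₀ hx₀
  have ha₀ : a₀ ≫ sX = 𝟙 _ := pointOfClosedPoint_comp sX x₀ hx₀
  -- the connected set
  let T : Set P := ⋃ b : {b : Spec (CommRingCat.of K) ⟶ Y // b ≫ sY = 𝟙 _},
    (Set.range (sliceSnd sX sY a₀ ha₀)) ∪ Set.range (sliceFst sX sY b.1 b.2)
  have hrange1 : _root_.IsPreconnected (Set.range (sliceSnd sX sY a₀ ha₀)) :=
    (isPreconnected_range (sliceSnd sX sY a₀ ha₀).continuous)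
  have hrange2 : ∀ b : {b : Spec (CommRingCat.of K) ⟶ Y // b ≫ sY = 𝟙 _},
      _root_.IsPreconnected (Set.range (sliceFst sX sY b.1 b.2)) := fun b =>
    (isPreconnected_range (sliceFst sX sY b.1 b.2).continuous)
  -- the common point of the two slices
  have hcommon : ∀ b : {b : Spec (CommRingCat.of K) ⟶ Y // b ≫ sY = 𝟙 _},
      sliceSnd sX sY a₀ ha₀ (b.1 pt) = sliceFst sX sY b.1 b.2 (a₀ pt) := by
    intro b
    have hmor : b.1 ≫ sliceSnd sX sY a₀ ha₀ = a₀ ≫ sliceFst sX sY b.1 b.2 := by
      apply pullback.hom_ext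
      · simp only [sliceSnd, sliceFst, Category.assoc]
        rw [pullback.lift_fst, pullback.lift_fst, reassoc_of% b.2, Category.comp_id]
      · simp only [sliceSnd, sliceFst, Category.assoc]
        rw [pullback.lift_snd, pullback.lift_snd, reassoc_of% ha₀, Category.comp_id]
    rw [← Scheme.Hom.comp_apply, ← Scheme.Hom.comp_apply, hmor]
  obtain ⟨y₀, -, hy₀⟩ := nonempty_inter_closedPoints (X := Y) Set.univ_nonempty
    isOpen_univ.isLocallyClosed
  have hT : _root_.IsPreconnected T := by
    apply isPreconnected_iUnion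
    · refine ⟨sliceSnd sX sY a₀ ha₀ y₀, ?_⟩
      simp only [Set.mem_iInter]
      exact fun b => Or.inl ⟨y₀, rfl⟩
    · intro b
      exact IsPreconnected.union' ⟨_, ⟨b.1 pt, rfl⟩, ⟨a₀ pt, (hcommon b).symm⟩⟩ hrange1 (hrange2 b)
  -- every closed point lies in `T`
  have hclosed : closedPoints P ⊆ T := by
    intro z hz
    let pz := pointOfClosedPoint sP z hz
    have hpz : pz ≫ sP = 𝟙 _ := pointOfClosedPoint_comp sP z hz
    let b : {b : Spec (CommRingCat.of K) ⟶ Y // b ≫ sY = 𝟙 _} :=
      ⟨pz ≫ pullback.snd sX sY, by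
        rw [Category.assoc, ← pullback.condition, ← Category.assoc]
        simpa [sP] using hpz⟩
    have hz' : z = sliceFst sX sY b.1 b.2 ((pz ≫ pullback.fst sX sY) pt) := by
      rw [← Scheme.Hom.comp_apply]
      have : (pz ≫ pullback.fst sX sY) ≫ sliceFst sX sY b.1 b.2 = pz := by
        have h1 : pz ≫ pullback.fst sX sY ≫ sX = 𝟙 _ := by simpa [sP] using hpz
        apply pullback.hom_ext
        · simp only [sliceFst, Category.assoc]
          rw [pullback.lift_fst, Category.comp_id]
        · simp only [sliceFst, Category.assoc]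
          rw [pullback.lift_snd, reassoc_of% h1]
      rw [this]
      exact (pointOfClosedPoint_apply sP z hz pt).symm
    simp only [T, Set.mem_iUnion]
    exact ⟨b, Or.inr ⟨_, hz'.symm⟩⟩
  have huniv : closure T = Set.univ := by
    rw [← Set.univ_subset_iff, ← closure_closedPoints (X := P)]
    exact closure_mono hclosed
  have : _root_.IsPreconnected (Set.univ : Set P) := huniv ▸ hT.closure
  haveI : PreconnectedSpace P := ⟨this⟩
  exact { toNonempty := ⟨sliceSnd sX sY a₀ ha₀ y₀⟩ }

end Fermat.Agent.S26lib
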