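/-
S26lib / Prod / Basic (helper6, Project K).

**Structural properties of `A2 f = A ×_K A` and `A3 f = A ×_K A ×_K A`** for `f : A ⟶ Spec K`:
smooth (of relative dimension `g + g`, `g + g + g`), proper, locally of finite type, connected
(`K` algebraically closed), integral (given that the stalks of smooth `K`-schemes are domains:
helper8's `UFD/Stalk`), and the same for the projections.
-/
import Mathlib
import Fermat.Agent.S26lib.Prod.Points
import Fermat.Agent.S26lib.Prod.Connected
import Fermat.Agent.S26lib.Grp.Integral

set_option autoImplicit false

noncomputable section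

universe u

namespace Fermat.Agent.S26lib.Prod

open CategoryTheory CategoryTheory.Limits AlgebraicGeometry NeronModelInfra GoodReductionJacobian

section Ring

variable {R : Type u} [CommRing R] {A : Scheme.{u}} (f : A ⟶ Spec (CommRingCat.of R))

instance smooth_f2 [Smooth f] : Smooth (f2 f) := by
  unfold f2; infer_instance

instance smooth_f3 [Smooth f] : Smooth (f3 f) := by
  unfold f3; infer_instance

instance smooth_p12 [Smooth f] : Smooth (p12 f) := by
  unfold p12; infer_instance

instance isProper_f2 [IsProper f] : IsProper (f2 f) := by
  unfold f2; infer_instance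

instance isProper_f3 [IsProper f] : IsProper (f3 f) := by
  unfold f3; infer_instance

instance locallyOfFiniteType_f2 [LocallyOfFiniteType f] : LocallyOfFiniteType (f2 f) := by
  unfold f2; infer_instance

instance locallyOfFiniteType_f3 [LocallyOfFiniteType f] : LocallyOfFiniteType (f3 f) := by
  unfold f3; infer_instance

theorem smoothOfRelativeDimension_f2 (g : ℕ) [SmoothOfRelativeDimension g f] :
    SmoothOfRelativeDimension (g + g) (f2 f) := by
  haveI : SmoothOfRelativeDimension g (pullback.fst f f) :=
    haveI := smoothOfRelativeDimension_isStableUnderBaseChange g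
    MorphismProperty.pullback_fst (P := @SmoothOfRelativeDimension g) f f inferInstance
  unfold f2
  infer_instance

theorem smoothOfRelativeDimension_f3 (g : ℕ) [SmoothOfRelativeDimension g f] :
    SmoothOfRelativeDimension (g + (g + g)) (f3 f) := by
  haveI := smoothOfRelativeDimension_f2 f g
  haveI : SmoothOfRelativeDimension g (pullback.fst (f2 f) f) :=
    haveI := smoothOfRelativeDimension_isStableUnderBaseChange g
    MorphismProperty.pullback_fst (P := @SmoothOfRelativeDimension g) (f2 f) f inferInstance
  unfold f3
  infer_instance

end Ring

section Field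

variable {K : Type u} [Field K] {A : Scheme.{u}} (f : A ⟶ Spec (CommRingCat.of K))

theorem connectedSpace_A2 [IsAlgClosed K] [LocallyOfFiniteType f] [ConnectedSpace A] :
    ConnectedSpace ↥(A2 f) :=
  connectedSpace_pullback_of_isAlgClosed f f

theorem connectedSpace_A3 [IsAlgClosed K] [LocallyOfFiniteType f] [ConnectedSpace A] :
    ConnectedSpace ↥(A3 f) :=
  haveI := connectedSpace_A2 f
  connectedSpace_pullback_of_isAlgClosed (f2 f) f

/-- the hypothesis provided by helper8's `UFD/Stalk`: the local rings of a smooth `K`-scheme are
domains -/
def SmoothStalkDomain (K : Type u) [Field K] : Prop :=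
  ∀ (X : Scheme.{u}) (s : X ⟶ Spec (CommRingCat.of K)) [Smooth s] (x : X),
    IsDomain (X.presheaf.stalk x)

/-- a connected smooth scheme over a field is integral, if stalks of smooth schemes are domains -/
theorem isIntegral_of_smooth_of_connected (hdom : SmoothStalkDomain K) {X : Scheme.{u}}
    (s : X ⟶ Spec (CommRingCat.of K)) [Smooth s] [ConnectedSpace X] : IsIntegral X := by
  haveI : LocallyOfFiniteType s := inferInstance
  haveI : IsLocallyNoetherian X := LocallyOfFiniteType.isLocallyNoetherian s
  exact isIntegral_of_connected_of_isDomain_stalk X (fun x => hdom X s x)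

theorem isIntegral_A2 [IsAlgClosed K] (hdom : SmoothStalkDomain K) [Smooth f]
    [ConnectedSpace A] : IsIntegral (A2 f) :=
  haveI := connectedSpace_A2 f
  isIntegral_of_smooth_of_connected hdom (f2 f)

theorem isIntegral_A3 [IsAlgClosed K] (hdom : SmoothStalkDomain K) [Smooth f]
    [ConnectedSpace A] : IsIntegral (A3 f) :=
  haveI := connectedSpace_A3 f
  isIntegral_of_smooth_of_connected hdom (f3 f)

end Field

end Fermat.Agent.S26lib.Prod
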