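/-
S26lib / Prod / Integral (helper6, Project K).

**`A`, `A ×_K A`, `A ×_K A ×_K A` are integral** for an abelian variety `A` over an algebraically
closed field `K` (hypothesis-free: uses helper8's `UFD/Corollaries.isDomain_stalk_of_smooth`).
Also: they are noetherian, and the package of instances needed by the divisor calculus.
-/
import Mathlib
import Fermat.Agent.S26lib.Prod.Basic
import Fermat.Agent.S26lib.UFD.Corollaries

set_option autoImplicit false

noncomputable section

universe u

namespace Fermat.Agent.S26lib.Prod

open CategoryTheory CategoryTheory.Limits AlgebraicGeometry NeronModelInfra GoodReductionJacobian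

variable {K : Type u} [Field K] [IsAlgClosed K] {A : Scheme.{u}}
  (f : A ⟶ Spec (CommRingCat.of K))

/-- helper8's theorem in the form used by `Prod/Basic` -/
theorem smoothStalkDomain : SmoothStalkDomain K := fun _ s _ x =>
  UFD.isDomain_stalk_of_smooth s x

/-- a connected smooth scheme over an algebraically closed field is integral -/
theorem isIntegral_of_smooth_of_connectedSpace {X : Scheme.{u}}
    (s : X ⟶ Spec (CommRingCat.of K)) [Smooth s] [ConnectedSpace X] : IsIntegral X :=
  isIntegral_of_smooth_of_connected smoothStalkDomain s

variable (hA : AbelianSchemePropertyBundle K f)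

include hA

/-- an abelian variety is connected -/
theorem connectedSpace_of_abelianScheme : ConnectedSpace A :=
  connectedSpace_of_connectedFibres hA.connectedFibres

/-- **an abelian variety over an algebraically closed field is integral** -/
theorem isIntegral_A : IsIntegral A := by
  haveI := hA.smooth
  haveI := connectedSpace_of_abelianScheme f hA
  exact isIntegral_of_smooth_of_connectedSpace f

/-- **`A ×_K A` is integral** -/
theorem isIntegral_A2' : IsIntegral (A2 f) := by
  haveI := hA.smooth
  haveI := connectedSpace_of_abelianScheme f hA
  exact isIntegral_A2 f smoothStalkDomain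

/-- **`A ×_K A ×_K A` is integral** -/
theorem isIntegral_A3' : IsIntegral (A3 f) := by
  haveI := hA.smooth
  haveI := connectedSpace_of_abelianScheme f hA
  exact isIntegral_A3 f smoothStalkDomain

/-- an abelian variety is a noetherian scheme -/
theorem isNoetherian_A : IsNoetherian A := by
  haveI := hA.smooth
  haveI := hA.proper
  haveI : LocallyOfFiniteType f := inferInstance
  haveI : IsLocallyNoetherian A := LocallyOfFiniteType.isLocallyNoetherian f
  haveI : CompactSpace A := by
    have := QuasiCompact.compactSpace_of_compactSpace f
    exact this
  exact {}

theorem isNoetherian_A2 : IsNoetherian (A2 f) := by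
  haveI := hA.smooth
  haveI := hA.proper
  haveI : LocallyOfFiniteType (f2 f) := inferInstance
  haveI : IsLocallyNoetherian (A2 f) := LocallyOfFiniteType.isLocallyNoetherian (f2 f)
  haveI : CompactSpace (A2 f) := by
    have := QuasiCompact.compactSpace_of_compactSpace (f2 f)
    exact this
  exact {}

theorem isNoetherian_A3 : IsNoetherian (A3 f) := by
  haveI := hA.smooth
  haveI := hA.proper
  haveI : LocallyOfFiniteType (f3 f) := inferInstance
  haveI : IsLocallyNoetherian (A3 f) := LocallyOfFiniteType.isLocallyNoetherian (f3 f)
  haveI : CompactSpace (A3 f) := by
    have := QuasiCompact.compactSpace_of_compactSpace (f3 f)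
    exact this
  exact {}

end Fermat.Agent.S26lib.Prod
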