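/-
S26lib / Prod / Gen (helper6, Project K).

**Generisations of a point and primes of its local ring.**

For a scheme `X` and `x : X`:
* `genPt x 𝔮 : X` : the generisation of `x` attached to the prime `𝔮` of `O_{X,x}`
  (Mathlib's `Scheme.fromSpecStalk`); `genPt_specializes`, `genPt_closedPoint`,
  `exists_genPt_eq` (every generisation arises), `genPt_injective`,
  `genPt_specializes_iff : genPt x 𝔮 ⤳ genPt x 𝔮' ↔ 𝔮 ≤ 𝔮'`;
* `primeOf h` for `h : y ⤳ x` : the prime of `O_{X,x}` of the generisation `y`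
  (`= comap stalkSpecializes 𝔪_y`), `genPt_primeOf`;
* `map_genPt` : compatibility with morphisms;
* `exists_stalkSpecializes_eq` : for `y ⤳ x`, every element of `O_{X,y}` is a fraction of elements
  of `O_{X,x}` with denominator invertible in `O_{X,y}` (`O_{X,y}` is a localisation of `O_{X,x}`).
-/
import Mathlib

set_option autoImplicit false

noncomputable section

universe u

open CategoryTheory CategoryTheory.Limits AlgebraicGeometry TopologicalSpace

namespace Fermat.Agent.S26lib.Prod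

variable {X Y : Scheme.{u}}

/-- the generisation of `x` attached to a prime of the local ring at `x` -/
def genPt (x : X) (𝔮 : PrimeSpectrum (X.presheaf.stalk x)) : X := X.fromSpecStalk x 𝔮

theorem genPt_specializes (x : X) (𝔮 : PrimeSpectrum (X.presheaf.stalk x)) : genPt x 𝔮 ⤳ x := by
  have : genPt x 𝔮 ∈ Set.range (X.fromSpecStalk x) := ⟨𝔮, rfl⟩
  rw [Scheme.range_fromSpecStalk] at this
  exact this

@[simp]
theorem genPt_closedPoint (x : X) :
    genPt x (IsLocalRing.closedPoint (X.presheaf.stalk x)) = x :=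
  Scheme.fromSpecStalk_closedPoint

theorem exists_genPt_eq {x y : X} (h : y ⤳ x) : ∃ 𝔮, genPt x 𝔮 = y := by
  have : y ∈ Set.range (X.fromSpecStalk x) := by
    rw [Scheme.range_fromSpecStalk]; exact h
  exact this

theorem genPt_injective (x : X) : Function.Injective (genPt x) :=
  (X.fromSpecStalk x).isEmbedding.injective

theorem genPt_specializes_iff (x : X) (𝔮 𝔮' : PrimeSpectrum (X.presheaf.stalk x)) :
    genPt x 𝔮 ⤳ genPt x 𝔮' ↔ 𝔮 ≤ 𝔮' := by
  rw [PrimeSpectrum.le_iff_specializes]
  exact (X.fromSpecStalk x).isEmbedding.specializes_iff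

/-- the prime of `O_{X,x}` attached to a generisation `y` of `x` -/
def primeOf {x y : X} (h : y ⤳ x) : PrimeSpectrum (X.presheaf.stalk x) :=
  PrimeSpectrum.comap (X.presheaf.stalkSpecializes h).hom
    (IsLocalRing.closedPoint (X.presheaf.stalk y))

theorem genPt_primeOf {x y : X} (h : y ⤳ x) : genPt x (primeOf h) = y := by
  have h1 := Scheme.SpecMap_stalkSpecializes_fromSpecStalk h
  have h2 : (Spec.map (X.presheaf.stalkSpecializes h) ≫ X.fromSpecStalk x)
      (IsLocalRing.closedPoint (X.presheaf.stalk y)) = y := by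
    rw [h1]; exact Scheme.fromSpecStalk_closedPoint
  exact h2

theorem mem_primeOf_iff {x y : X} (h : y ⤳ x) (a : X.presheaf.stalk x) :
    a ∈ (primeOf h).asIdeal ↔
      (X.presheaf.stalkSpecializes h).hom a ∈ IsLocalRing.maximalIdeal (X.presheaf.stalk y) :=
  Iff.rfl

theorem eq_primeOf {x y : X} (h : y ⤳ x) {𝔮 : PrimeSpectrum (X.presheaf.stalk x)}
    (h𝔮 : genPt x 𝔮 = y) : 𝔮 = primeOf h :=
  genPt_injective x (h𝔮.trans (genPt_primeOf h).symm)

/-- compatibility with morphisms -/
theorem map_genPt (f : X ⟶ Y) (x : X) (𝔮 : PrimeSpectrum (X.presheaf.stalk x)) :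
    f (genPt x 𝔮) = genPt (f x) (PrimeSpectrum.comap (f.stalkMap x).hom 𝔮) := by
  have h := Scheme.SpecMap_stalkMap_fromSpecStalk (f := f) (x := x)
  have h' := congrArg (fun ψ : Spec (X.presheaf.stalk x) ⟶ Y => ψ 𝔮) h
  exact h'.symm

/-- **`O_{X,y}` is a localisation of `O_{X,x}`** for `y ⤳ x` (surjectivity part) -/
theorem exists_stalkSpecializes_eq {x y : X} (h : y ⤳ x) (b : X.presheaf.stalk y) :
    ∃ a s : X.presheaf.stalk x, IsUnit ((X.presheaf.stalkSpecializes h).hom s) ∧
      b * (X.presheaf.stalkSpecializes h).hom s = (X.presheaf.stalkSpecializes h).hom a := by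
  obtain ⟨_, ⟨U, hU, rfl⟩, hxU, -⟩ :=
    X.isBasis_affineOpens.exists_subset_of_mem_open (Set.mem_univ x) isOpen_univ
  have hyU : y ∈ U := h.mem_open U.2 hxU
  letI : Algebra Γ(X, U) (X.presheaf.stalk y) :=
    TopCat.Presheaf.algebra_section_stalk X.presheaf ⟨y, hyU⟩
  haveI : IsLocalization.AtPrime (X.presheaf.stalk y) (hU.primeIdealOf ⟨y, hyU⟩).asIdeal :=
    hU.isLocalization_stalk ⟨y, hyU⟩
  obtain ⟨⟨r, m⟩, hrm⟩ := IsLocalization.surj (hU.primeIdealOf ⟨y, hyU⟩).asIdeal.primeCompl b
  have hspec : ∀ r : Γ(X, U), (X.presheaf.stalkSpecializes h).hom (X.presheaf.germ U x hxU r) =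
      X.presheaf.germ U y hyU r := fun r =>
    congrArg (fun ψ => ψ.hom r) (X.presheaf.germ_stalkSpecializes hxU h)
  refine ⟨X.presheaf.germ U x hxU r, X.presheaf.germ U x hxU m.1, ?_, ?_⟩
  · rw [hspec]
    exact IsLocalization.map_units (X.presheaf.stalk y) m
  · rw [hspec, hspec]
    exact hrm

end Fermat.Agent.S26lib.Prod
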