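/-
S26lib / Prod / GoodMap (helper6, Project K).

**Morphisms along which prime divisors pull back to prime divisors with multiplicity one**
(the scheme side of helper2's `MapModel`).

`GoodMap σ` for `σ : X ⟶ Y` (integral schemes): `σ` is flat, surjective, the preimage of the closure
of a point is irreducible, and over every point `z` with `O_{Y,z}` a DVR the generic point `ξ` of
`σ⁻¹ (closure {z})` has a DVR local ring, with uniformisers of `O_{Y,σ ξ}` mapping to uniformisers.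

* `GoodMap.of_isIso`, `GoodMap.comp` : isomorphisms are good, good maps compose;
* `GoodMap.gen z`, `GoodMap.map_gen : σ (gen z) = z`, `GoodMap.pull : PrimeDiv Y → PrimeDiv X`,
  `map_pull`, `pull_injective`, `pull_specializes_iff : (pull Z).1 ⤳ x ↔ Z.1 ⤳ σ x`;
* **`GoodMap.ordAt_pull : ordAt (pull Z) (FinMap.ffMap σ y) = ordAt Z y`**;
* **`GoodMap.exists_pull_eq`** : a prime divisor `W` of `X` which does not dominate `Y` is a
  pull-back (`Y` normal); **`GoodMap.ordAt_eq_zero_of_dominant`** : if `W` dominates `Y` then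
  `ordAt W (FinMap.ffMap σ y) = 0` for `y ≠ 0`.
-/
import Mathlib
import Fermat.Agent.S26lib.Prod.Gen
import Fermat.Agent.S26lib.Weil.Model
import Fermat.Agent.S26lib.FinMap.OrdComp

set_option autoImplicit false
set_option linter.unusedSectionVars false

noncomputable section

universe u

open CategoryTheory CategoryTheory.Limits AlgebraicGeometry TopologicalSpace IsLocalRing
  Fermat.Agent.S26lib.Quad Fermat.Agent.S26lib.Weil Fermat.Agent.S26lib.FinMap

namespace Fermat.Agent.S26lib.Prod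

variable {X Y Z : Scheme.{u}} [IsIntegral X] [IsIntegral Y] [IsIntegral Z]

/-- morphisms along which prime divisors pull back to prime divisors with multiplicity one -/
structure GoodMap (σ : X ⟶ Y) : Prop where
  flat : Flat σ
  surj : Function.Surjective σ
  irr : ∀ z : Y, IsIrreducible (σ ⁻¹' closure {z})
  dvr : ∀ z : Y, IsDiscreteValuationRing (Y.presheaf.stalk z) →
    ∀ ξ : X, IsGenericPoint ξ (σ ⁻¹' closure {z}) →
      IsDiscreteValuationRing (X.presheaf.stalk ξ) ∧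
        ∀ t : Y.presheaf.stalk (σ ξ), Irreducible t → Irreducible (σ.stalkMap ξ t)

/-- a generic point of `σ⁻¹ (closure {z})` lies over `z` (`σ` surjective) -/
theorem map_eq_of_isGenericPoint {σ : X ⟶ Y} (hs : Function.Surjective σ) {z : Y} {ξ : X}
    (hξ : IsGenericPoint ξ (σ ⁻¹' closure {z})) : σ ξ = z := by
  obtain ⟨p, hp⟩ := hs z
  have h1 : ξ ⤳ p := hξ.specializes (by
    show σ p ∈ closure {z}
    rw [hp]; exact subset_closure rfl)
  have h2 : σ ξ ⤳ z := hp ▸ h1.map σ.continuous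
  have h3 : z ⤳ σ ξ := by
    rw [specializes_iff_mem_closure]
    exact hξ.mem
  exact (h2.antisymm h3).eq

namespace GoodMap

variable {σ : X ⟶ Y} (h : GoodMap σ)

include h

theorem isClosed_pre (z : Y) : IsClosed (σ ⁻¹' closure {z}) :=
  isClosed_closure.preimage σ.continuous

theorem isDominant : IsDominant σ := ⟨h.surj.denseRange⟩

/-- a generic point of `σ⁻¹ (closure {z})` lies over `z` -/
theorem map_of_isGenericPoint {z : Y} {ξ : X} (hξ : IsGenericPoint ξ (σ ⁻¹' closure {z})) :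
    σ ξ = z := map_eq_of_isGenericPoint h.surj hξ

/-- the generic point of `σ⁻¹ (closure {z})` -/
def gen (z : Y) : X := (h.irr z).genericPoint

theorem isGenericPoint_gen (z : Y) : IsGenericPoint (h.gen z) (σ ⁻¹' closure {z}) :=
  (h.irr z).isGenericPoint_genericPoint (h.isClosed_pre z)

theorem map_gen (z : Y) : σ (h.gen z) = z := h.map_of_isGenericPoint (h.isGenericPoint_gen z)

theorem gen_specializes_iff (z : Y) (x : X) : h.gen z ⤳ x ↔ z ⤳ σ x := by
  rw [specializes_iff_mem_closure, (h.isGenericPoint_gen z).def, Set.mem_preimage,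
    ← specializes_iff_mem_closure]

/-- the pull-back of a prime divisor -/
def pull (P : PrimeDiv Y) : PrimeDiv X :=
  ⟨h.gen P.1, (h.dvr P.1 P.2 _ (h.isGenericPoint_gen P.1)).1⟩

theorem pull_val (P : PrimeDiv Y) : (h.pull P).1 = h.gen P.1 := rfl

theorem map_pull (P : PrimeDiv Y) : σ (h.pull P).1 = P.1 := h.map_gen P.1

theorem pull_injective : Function.Injective h.pull := by
  intro P Q hPQ
  apply Subtype.ext
  rw [← h.map_pull P, ← h.map_pull Q, hPQ]

theorem pull_specializes_iff (P : PrimeDiv Y) (x : X) : (h.pull P).1 ⤳ x ↔ P.1 ⤳ σ x :=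
  h.gen_specializes_iff P.1 x

end GoodMap

/-! ### orders -/

section Ord

variable [IsLocallyNoetherian X] [IsLocallyNoetherian Y]

/-- (after helper1's `FinMap.ordAt_ffMap`) if `σ^#` maps uniformisers to uniformisers at the prime
divisor `P`, then `ord_P (σ^* y) = ord_{σ P} y` -/
theorem ordAt_ffMap_of_irreducible (σ : X ⟶ Y) [IsDominant σ] (P : PrimeDiv X)
    (hQ : IsDiscreteValuationRing (Y.presheaf.stalk (σ P.1)))
    (hirr : ∀ t : Y.presheaf.stalk (σ P.1), Irreducible t → Irreducible (σ.stalkMap P.1 t))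
    (y : Y.functionField) :
    ordAt P (FinMap.ffMap σ y) = ordAt (⟨σ P.1, hQ⟩ : PrimeDiv Y) y := by
  have key : ∀ a : Y.presheaf.stalk (σ P.1),
      ordAt P (FinMap.ffMap σ (toFF Y (σ P.1) a)) =
        ordAt (⟨σ P.1, hQ⟩ : PrimeDiv Y) (toFF Y (σ P.1) a) := by
    intro a
    rcases eq_or_ne a 0 with rfl | ha
    · rw [map_zero, map_zero, ordAt_zero, ordAt_zero]
    obtain ⟨t, ht⟩ := IsDiscreteValuationRing.exists_irreducible (Y.presheaf.stalk (σ P.1))
    obtain ⟨n, u, hu⟩ := IsDiscreteValuationRing.eq_unit_mul_pow_irreducible ha ht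
    have ht' : Irreducible (σ.stalkMap P.1 t) := hirr t ht
    rw [← FinMap.toFF_stalkMap_ffMap, hu, map_mul, map_pow]
    have e1 := ordAt_toFF_eq P ht' (Units.map (σ.stalkMap P.1).hom.toMonoidHom u) n
    have e2 := ordAt_toFF_eq (⟨σ P.1, hQ⟩ : PrimeDiv Y) (t := t) ht u n
    exact e1.trans e2.symm
  rcases eq_or_ne y 0 with rfl | hy
  · rw [map_zero, ordAt_zero, ordAt_zero]
  obtain ⟨a, b, hb, rfl⟩ := IsFractionRing.div_surjective (A := Y.presheaf.stalk (σ P.1)) y
  have hb0 : b ≠ 0 := nonZeroDivisors.ne_zero hb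
  have hfb : toFF Y (σ P.1) b ≠ 0 := toFF_ne_zero Y hb0
  have hy' : toFF Y (σ P.1) a / toFF Y (σ P.1) b ≠ 0 := hy
  have hrel : toFF Y (σ P.1) a / toFF Y (σ P.1) b * toFF Y (σ P.1) b = toFF Y (σ P.1) a :=
    div_mul_cancel₀ _ hfb
  have h1 := ordAt_mul (⟨σ P.1, hQ⟩ : PrimeDiv Y) hy' hfb
  rw [hrel] at h1
  have hν : ∀ {w : Y.functionField}, w ≠ 0 → FinMap.ffMap σ w ≠ 0 := fun hw =>
    (map_ne_zero_iff _ (FinMap.ffMap_injective σ)).mpr hw
  have h2 := ordAt_mul P (hν hy') (hν hfb)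
  rw [← map_mul, hrel, key, key] at h2
  change ordAt P (FinMap.ffMap σ (toFF Y (σ P.1) a / toFF Y (σ P.1) b)) =
    ordAt (⟨σ P.1, hQ⟩ : PrimeDiv Y) (toFF Y (σ P.1) a / toFF Y (σ P.1) b)
  omega

namespace GoodMap

variable {σ : X ⟶ Y} (h : GoodMap σ)

include h

/-- **`ord_{σ^* Z} (σ^* y) = ord_Z y`** -/
theorem ordAt_pull (P : PrimeDiv Y) (y : Y.functionField) :
    haveI := h.isDominant
    ordAt (h.pull P) (FinMap.ffMap σ y) = ordAt P y := by
  haveI := h.isDominant
  have hd := h.dvr P.1 P.2 _ (h.isGenericPoint_gen P.1)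
  have hQ : IsDiscreteValuationRing (Y.presheaf.stalk (σ (h.pull P).1)) := by
    rw [h.map_pull P]; exact P.2
  have e := ordAt_ffMap_of_irreducible σ (h.pull P) hQ hd.2 y
  rw [e]
  congr 1
  exact Subtype.ext (h.map_pull P)

/-- a prime divisor of `X` dominating `Y` : `ord_W (σ^* y) = 0` -/
theorem ordAt_eq_zero_of_dominant (W : PrimeDiv X) (hW : σ W.1 = genericPoint Y)
    {y : Y.functionField} (hy : y ≠ 0) :
    haveI := h.isDominant
    ordAt W (FinMap.ffMap σ y) = 0 := by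
  haveI := h.isDominant
  have key : ∀ z : Y, z = genericPoint Y → ∀ y : Y.functionField,
      ∃ a : Y.presheaf.stalk z, toFF Y z a = y := by
    rintro z rfl y
    exact ⟨y, toFF_generic Y y⟩
  obtain ⟨a, rfl⟩ := key (σ W.1) hW y
  obtain ⟨b, hb⟩ := key (σ W.1) hW (toFF Y (σ W.1) a)⁻¹
  have hu : IsUnit a := by
    refine IsUnit.of_mul_eq_one b (toFF_injective Y (σ W.1) ?_)
    rw [map_mul, hb, mul_inv_cancel₀ hy, map_one]
  rw [← FinMap.toFF_stalkMap_ffMap]
  exact ordAt_toFF_unit W (hu.map (σ.stalkMap W.1).hom).unit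

/-- **a prime divisor of `X` which does not dominate `Y` is the pull-back of a prime divisor**
(`Y` normal) -/
theorem exists_pull_eq (hN : ∀ y : Y, IsIntegrallyClosed (Y.presheaf.stalk y)) (W : PrimeDiv X)
    (hW : σ W.1 ≠ genericPoint Y) : ∃ P : PrimeDiv Y, h.pull P = W := by
  haveI := W.2
  haveI := h.flat
  algebraize [(σ.stalkMap W.1).hom]
  haveI : IsLocalHom (algebraMap (Y.presheaf.stalk (σ W.1)) (X.presheaf.stalk W.1)) :=
    inferInstanceAs <| IsLocalHom (σ.stalkMap W.1).hom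
  haveI : Module.Flat (Y.presheaf.stalk (σ W.1)) (X.presheaf.stalk W.1) := Flat.stalkMap σ W.1
  haveI : Module.FaithfullyFlat (Y.presheaf.stalk (σ W.1)) (X.presheaf.stalk W.1) :=
    Module.FaithfullyFlat.of_flat_of_isLocalHom
  have hsurj := PrimeSpectrum.comap_surjective_of_faithfullyFlat
    (A := Y.presheaf.stalk (σ W.1)) (B := X.presheaf.stalk W.1)
  have hinj : Function.Injective
      (algebraMap (Y.presheaf.stalk (σ W.1)) (X.presheaf.stalk W.1)) :=
    FaithfulSMul.algebraMap_injective _ _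
  -- primes of the DVR `O_W`
  have hprimes : ∀ 𝔮 : PrimeSpectrum (X.presheaf.stalk W.1),
      𝔮.asIdeal = ⊥ ∨ 𝔮 = closedPoint _ := by
    intro 𝔮
    by_cases h0 : 𝔮.asIdeal = ⊥
    · exact Or.inl h0
    · exact Or.inr (PrimeSpectrum.ext (IsLocalRing.eq_maximalIdeal (𝔮.2.isMaximal h0)))
  have hcomap_bot : ∀ 𝔮 : PrimeSpectrum (X.presheaf.stalk W.1), 𝔮.asIdeal = ⊥ →
      (PrimeSpectrum.comap (algebraMap (Y.presheaf.stalk (σ W.1)) (X.presheaf.stalk W.1))
        𝔮).asIdeal = ⊥ := by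
    intro 𝔮 h0
    show Ideal.comap _ 𝔮.asIdeal = ⊥
    rw [h0]
    exact (RingHom.injective_iff_ker_eq_bot _).mp hinj
  -- primes of `O_w`
  have hA : ∀ 𝔭 : PrimeSpectrum (Y.presheaf.stalk (σ W.1)),
      𝔭.asIdeal = ⊥ ∨ 𝔭 = closedPoint _ := by
    intro 𝔭
    obtain ⟨𝔮, rfl⟩ := hsurj 𝔭
    rcases hprimes 𝔮 with h0 | h0
    · exact Or.inl (hcomap_bot 𝔮 h0)
    · right
      rw [h0]
      exact IsLocalRing.comap_closedPoint _
  -- `O_w` is not a field
  have hB : maximalIdeal (Y.presheaf.stalk (σ W.1)) ≠ ⊥ := by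
    intro hbot
    obtain ⟨𝔭, h𝔭⟩ := exists_genPt_eq (genericPoint_specializes (σ W.1))
    have : 𝔭 = closedPoint _ := by
      rcases hA 𝔭 with h0 | h0
      · exact PrimeSpectrum.ext (h0.trans hbot.symm)
      · exact h0
    rw [this, genPt_closedPoint] at h𝔭
    exact hW h𝔭
  have hnf : ¬ IsField (Y.presheaf.stalk (σ W.1)) := by
    rw [IsLocalRing.isField_iff_maximalIdeal_eq]
    exact hB
  have hdvr : IsDiscreteValuationRing (Y.presheaf.stalk (σ W.1)) := by
    have h3 : IsIntegrallyClosed (Y.presheaf.stalk (σ W.1)) ∧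
        ∃! P : Ideal (Y.presheaf.stalk (σ W.1)), P ≠ ⊥ ∧ P.IsPrime := by
      refine ⟨hN (σ W.1), ⟨maximalIdeal _, ⟨hB, inferInstance⟩, ?_⟩⟩
      rintro P ⟨hP0, hP⟩
      rcases hA ⟨P, hP⟩ with h0 | h0
      · exact absurd h0 hP0
      · exact congrArg PrimeSpectrum.asIdeal h0
    exact ((IsDiscreteValuationRing.TFAE (Y.presheaf.stalk (σ W.1)) hnf).out 3 0).mp h3
  refine ⟨⟨σ W.1, hdvr⟩, Subtype.ext ?_⟩
  show h.gen (σ W.1) = W.1
  have hξW : h.gen (σ W.1) ⤳ W.1 := (h.gen_specializes_iff (σ W.1) W.1).mpr specializes_rfl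
  obtain ⟨𝔮, h𝔮⟩ := exists_genPt_eq hξW
  rcases hprimes 𝔮 with h0 | h0
  · exfalso
    have e1 : σ (genPt W.1 𝔮) = genPt (σ W.1) (closedPoint _) := by
      rw [h𝔮, h.map_gen, genPt_closedPoint]
    rw [map_genPt] at e1
    have e2 := genPt_injective _ e1
    apply hB
    have := hcomap_bot 𝔮 h0
    rw [show (PrimeSpectrum.comap (algebraMap (Y.presheaf.stalk (σ W.1))
      (X.presheaf.stalk W.1)) 𝔮) = closedPoint _ from e2] at this
    exact this
  · rw [h0, genPt_closedPoint] at h𝔮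
    exact h𝔮.symm

end GoodMap

end Ord

/-! ### isomorphisms and composition -/

section Constr

/-- isomorphisms are good -/
theorem GoodMap.of_isIso (σ : X ⟶ Y) [IsIso σ] : GoodMap σ := by
  have hs : Function.Surjective σ := σ.homeomorph.surjective
  refine ⟨inferInstance, hs, fun z => ?_, fun z hz ξ hξ => ?_⟩
  · obtain ⟨x, rfl⟩ := hs z
    have : σ ⁻¹' closure {σ x} = closure {x} := by
      have := σ.homeomorph.preimage_closure {σ x}
      rw [show (σ.homeomorph : X → Y) = σ from rfl] at this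
      rw [this]
      congr 1
      ext y
      simp only [Set.mem_preimage, Set.mem_singleton_iff]
      exact σ.homeomorph.injective.eq_iff
    rw [this]
    exact isIrreducible_singleton.closure
  · have hξz : σ ξ = z := map_eq_of_isGenericPoint hs hξ
    haveI : IsDiscreteValuationRing (Y.presheaf.stalk (σ ξ)) := by rw [hξz]; exact hz
    let e : Y.presheaf.stalk (σ ξ) ≃+* X.presheaf.stalk ξ :=
      (asIso (σ.stalkMap ξ)).commRingCatIsoToRingEquiv
    refine ⟨IsDiscreteValuationRing.RingEquivClass.isDiscreteValuationRing e, fun t ht => ?_⟩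
    exact (MulEquiv.irreducible_iff e.toMulEquiv).mpr ht

/-- good maps compose -/
theorem GoodMap.comp {σ₁ : X ⟶ Y} {σ₂ : Y ⟶ Z} (h₁ : GoodMap σ₁) (h₂ : GoodMap σ₂) :
    GoodMap (σ₁ ≫ σ₂) := by
  have hpre : ∀ z : Z, (σ₁ ≫ σ₂) ⁻¹' closure {z} = σ₁ ⁻¹' closure {h₂.gen z} := by
    intro z
    rw [(h₂.isGenericPoint_gen z).def]
    rfl
  haveI := h₁.flat
  haveI := h₂.flat
  refine ⟨inferInstance, ?_, fun z => ?_, fun z hz ξ hξ => ?_⟩
  · intro z
    obtain ⟨y, rfl⟩ := h₂.surj z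
    obtain ⟨x, rfl⟩ := h₁.surj y
    exact ⟨x, rfl⟩
  · rw [hpre]
    exact h₁.irr _
  · rw [hpre] at hξ
    have hd₂ := h₂.dvr z hz _ (h₂.isGenericPoint_gen z)
    have hd₁ := h₁.dvr (h₂.gen z) hd₂.1 ξ hξ
    refine ⟨hd₁.1, fun t ht => ?_⟩
    have hξ₂ : IsGenericPoint (σ₁ ξ) (σ₂ ⁻¹' closure {z}) := by
      rw [h₁.map_of_isGenericPoint hξ]
      exact h₂.isGenericPoint_gen z
    have i₂ : Irreducible (σ₂.stalkMap (σ₁ ξ) t) := (h₂.dvr z hz (σ₁ ξ) hξ₂).2 t ht
    have i₁ : Irreducible (σ₁.stalkMap ξ (σ₂.stalkMap (σ₁ ξ) t)) := hd₁.2 _ i₂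
    have e : (σ₁ ≫ σ₂).stalkMap ξ t = σ₁.stalkMap ξ (σ₂.stalkMap (σ₁ ξ) t) := by
      rw [Scheme.Hom.stalkMap_comp]
      rfl
    rw [e]
    exact i₁

end Constr

end Fermat.Agent.S26lib.Prod
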