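/-
S26lib / Prod / Irreducible (helper6, Project K).

**Products of irreducible closed subsets over an algebraically closed field are irreducible.**

For `X`, `Y` locally of finite type over an algebraically closed field `K`, `P = X ×_K Y` with
projections `p₁`, `p₂`, and irreducible closed subsets `S ⊆ X`, `T ⊆ Y`:
`isIrreducible_preimage_inter : IsIrreducible (p₁ ⁻¹' S ∩ p₂ ⁻¹' T)`
(Mathlib has no "irreducible over an algebraically closed field ⇒ geometrically irreducible").
Consequences: `irreducibleSpace_pullback`, `isIrreducible_preimage_snd`, `isIrreducible_preimage_fst`.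
Method: slices through rational points + density of closed points (as in `Prod/Connected`).
-/
import Mathlib
import Fermat.Agent.S26lib.Prod.Connected
import Fermat.Agent.S26lib.Prod.KPoints

set_option autoImplicit false

noncomputable section

universe u

open CategoryTheory CategoryTheory.Limits AlgebraicGeometry NeronModelInfra GoodReductionJacobian

namespace Fermat.Agent.S26lib.Prod

variable {K : Type u} [Field K] {X Y : Scheme.{u}}
  (sX : X ⟶ Spec (CommRingCat.of K)) (sY : Y ⟶ Spec (CommRingCat.of K))

/-! ### slices -/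

section Slices

/-- the slice `Y → X × Y`, `y ↦ (a, y)` -/
def sliceR (a : KPt sX) : Y ⟶ pullback sX sY := sliceSnd sX sY a.1 a.2

/-- the slice `X → X × Y`, `x ↦ (x, b)` -/
def sliceL (b : KPt sY) : X ⟶ pullback sX sY := sliceFst sX sY b.1 b.2

theorem sliceR_fst (a : KPt sX) : sliceR sX sY a ≫ pullback.fst sX sY = sY ≫ a.1 :=
  pullback.lift_fst _ _ _

theorem sliceR_snd (a : KPt sX) : sliceR sX sY a ≫ pullback.snd sX sY = 𝟙 Y :=
  pullback.lift_snd _ _ _

theorem sliceL_fst (b : KPt sY) : sliceL sX sY b ≫ pullback.fst sX sY = 𝟙 X :=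
  pullback.lift_fst _ _ _

theorem sliceL_snd (b : KPt sY) : sliceL sX sY b ≫ pullback.snd sX sY = sX ≫ b.1 :=
  pullback.lift_snd _ _ _

theorem fst_sliceR_apply (a : KPt sX) (y : Y) :
    pullback.fst sX sY (sliceR sX sY a y) = a.pt := by
  rw [← Scheme.Hom.comp_apply, sliceR_fst, Scheme.Hom.comp_apply]
  exact congrArg a.1 (Subsingleton.elim _ _)

theorem snd_sliceR_apply (a : KPt sX) (y : Y) :
    pullback.snd sX sY (sliceR sX sY a y) = y := by
  rw [← Scheme.Hom.comp_apply, sliceR_snd]
  rfl

theorem fst_sliceL_apply (b : KPt sY) (x : X) :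
    pullback.fst sX sY (sliceL sX sY b x) = x := by
  rw [← Scheme.Hom.comp_apply, sliceL_fst]
  rfl

theorem snd_sliceL_apply (b : KPt sY) (x : X) :
    pullback.snd sX sY (sliceL sX sY b x) = b.pt := by
  rw [← Scheme.Hom.comp_apply, sliceL_snd, Scheme.Hom.comp_apply]
  exact congrArg b.1 (Subsingleton.elim _ _)

/-- the structure morphism of the product -/
def sProd : pullback sX sY ⟶ Spec (CommRingCat.of K) := pullback.fst sX sY ≫ sX

/-- the `K`-point `(a, b)` of the product -/
def pairK (a : KPt sX) (b : KPt sY) : KPt (sProd sX sY) :=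
  ⟨pullback.lift a.1 b.1 (a.2.trans b.2.symm), by
    rw [sProd, ← Category.assoc, pullback.lift_fst, a.2]⟩

theorem pairK_fst (a : KPt sX) (b : KPt sY) :
    (pairK sX sY a b).1 ≫ pullback.fst sX sY = a.1 := pullback.lift_fst _ _ _

theorem pairK_snd (a : KPt sX) (b : KPt sY) :
    (pairK sX sY a b).1 ≫ pullback.snd sX sY = b.1 := pullback.lift_snd _ _ _

theorem comp_sliceR (a : KPt sX) (b : KPt sY) :
    b.1 ≫ sliceR sX sY a = (pairK sX sY a b).1 := by
  apply pullback.hom_ext
  · rw [Category.assoc, sliceR_fst, pairK_fst, ← Category.assoc, b.2, Category.id_comp]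
  · rw [Category.assoc, sliceR_snd, pairK_snd, Category.comp_id]

theorem comp_sliceL (a : KPt sX) (b : KPt sY) :
    a.1 ≫ sliceL sX sY b = (pairK sX sY a b).1 := by
  apply pullback.hom_ext
  · rw [Category.assoc, sliceL_fst, pairK_fst, Category.comp_id]
  · rw [Category.assoc, sliceL_snd, pairK_snd, ← Category.assoc, a.2, Category.id_comp]

theorem sliceR_apply_pt (a : KPt sX) (b : KPt sY) :
    sliceR sX sY a b.pt = (pairK sX sY a b).pt := by
  show (b.1 ≫ sliceR sX sY a) (KPt.o K) = _
  rw [comp_sliceR]
  rfl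

theorem sliceL_apply_pt (a : KPt sX) (b : KPt sY) :
    sliceL sX sY b a.pt = (pairK sX sY a b).pt := by
  show (a.1 ≫ sliceL sX sY b) (KPt.o K) = _
  rw [comp_sliceL]
  rfl

theorem fst_pairK_pt (a : KPt sX) (b : KPt sY) :
    pullback.fst sX sY (pairK sX sY a b).pt = a.pt := by
  rw [← sliceL_apply_pt, fst_sliceL_apply]

theorem snd_pairK_pt (a : KPt sX) (b : KPt sY) :
    pullback.snd sX sY (pairK sX sY a b).pt = b.pt := by
  rw [← sliceR_apply_pt, snd_sliceR_apply]

/-- the first coordinate of a `K`-point of the product -/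
def KPt.fstK (c : KPt (sProd sX sY)) : KPt sX := c.map (pullback.fst sX sY) rfl

/-- the second coordinate of a `K`-point of the product -/
def KPt.sndK (c : KPt (sProd sX sY)) : KPt sY :=
  c.map (pullback.snd sX sY) (by rw [sProd, pullback.condition])

theorem pairK_eta (c : KPt (sProd sX sY)) :
    pairK sX sY (KPt.fstK sX sY c) (KPt.sndK sX sY c) = c := by
  apply Subtype.ext
  apply pullback.hom_ext
  · rw [pairK_fst]; rfl
  · rw [pairK_snd]; rfl

/-- `(X × Y)(K) ≃ X(K) × Y(K)` -/
def kPtProdEquiv : KPt (sProd sX sY) ≃ KPt sX × KPt sY where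
  toFun c := (KPt.fstK sX sY c, KPt.sndK sX sY c)
  invFun ab := pairK sX sY ab.1 ab.2
  left_inv c := pairK_eta sX sY c
  right_inv ab := by
    ext
    · exact pairK_fst sX sY ab.1 ab.2
    · exact pairK_snd sX sY ab.1 ab.2

end Slices

/-! ### irreducibility -/

section Irred

variable [IsAlgClosed K] [LocallyOfFiniteType sX] [LocallyOfFiniteType sY]

instance locallyOfFiniteType_sProd : LocallyOfFiniteType (sProd sX sY) := by
  unfold sProd; infer_instance

/-- a closed point of the product is the `K`-point attached to a pair of `K`-points -/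
theorem exists_pairK_of_isClosed (e : ↥(pullback sX sY)) (he : IsClosed ({e} : Set ↥(pullback sX sY))) :
    ∃ (a : KPt sX) (b : KPt sY), (pairK sX sY a b).pt = e := by
  let c := KPt.ofClosedPoint (sProd sX sY) e he
  refine ⟨KPt.fstK sX sY c, KPt.sndK sX sY c, ?_⟩
  rw [pairK_eta]
  exact KPt.pt_ofClosedPoint _ e he

/-- **the product of two irreducible closed subsets is irreducible** -/
theorem isIrreducible_preimage_inter {S : Set X} {T : Set Y} (hS : IsIrreducible S)
    (hSc : IsClosed S) (hT : IsIrreducible T) (hTc : IsClosed T) :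
    IsIrreducible ((pullback.fst sX sY) ⁻¹' S ∩ (pullback.snd sX sY) ⁻¹' T) := by
  haveI : JacobsonSpace X := LocallyOfFiniteType.jacobsonSpace sX
  haveI : JacobsonSpace Y := LocallyOfFiniteType.jacobsonSpace sY
  haveI : JacobsonSpace ↥(pullback sX sY) := LocallyOfFiniteType.jacobsonSpace (sProd sX sY)
  set E : Set ↥(pullback sX sY) := (pullback.fst sX sY) ⁻¹' S ∩ (pullback.snd sX sY) ⁻¹' T
    with hE
  have hEc : IsClosed E :=
    (hSc.preimage (pullback.fst sX sY).continuous).inter
      (hTc.preimage (pullback.snd sX sY).continuous)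
  have hmemE : ∀ (a : KPt sX) (b : KPt sY), a.pt ∈ S → b.pt ∈ T → (pairK sX sY a b).pt ∈ E := by
    intro a b ha hb
    refine ⟨?_, ?_⟩
    · show pullback.fst sX sY (pairK sX sY a b).pt ∈ S
      rwa [fst_pairK_pt]
    · show pullback.snd sX sY (pairK sX sY a b).pt ∈ T
      rwa [snd_pairK_pt]
  constructor
  · -- nonempty
    obtain ⟨x, hxS, hx⟩ := nonempty_inter_closedPoints hS.nonempty hSc.isLocallyClosed
    obtain ⟨y, hyT, hy⟩ := nonempty_inter_closedPoints hT.nonempty hTc.isLocallyClosed
    refine ⟨(pairK sX sY (KPt.ofClosedPoint sX x hx) (KPt.ofClosedPoint sY y hy)).pt,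
      hmemE _ _ ?_ ?_⟩
    · rwa [KPt.pt_ofClosedPoint]
    · rwa [KPt.pt_ofClosedPoint]
  · -- preirreducible
    rw [isPreirreducible_iff_isClosed_union_isClosed]
    intro Z1 Z2 hZ1 hZ2 hEZ
    -- for a rational point `a` of `S`, the slice `{a} × T` lies in `Z1` or in `Z2`
    have hslice : ∀ a : KPt sX, a.pt ∈ S →
        (T ⊆ (sliceR sX sY a) ⁻¹' Z1) ∨ (T ⊆ (sliceR sX sY a) ⁻¹' Z2) := by
      intro a ha
      have hsub : T ⊆ (sliceR sX sY a) ⁻¹' Z1 ∪ (sliceR sX sY a) ⁻¹' Z2 := by
        intro y hy
        have : sliceR sX sY a y ∈ E := by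
          refine ⟨?_, ?_⟩
          · show pullback.fst sX sY (sliceR sX sY a y) ∈ S
            rwa [fst_sliceR_apply]
          · show pullback.snd sX sY (sliceR sX sY a y) ∈ T
            rwa [snd_sliceR_apply]
        exact hEZ this
      exact (isPreirreducible_iff_isClosed_union_isClosed.mp hT.isPreirreducible) _ _
        (hZ1.preimage (sliceR sX sY a).continuous) (hZ2.preimage (sliceR sX sY a).continuous)
        hsub
    -- the closed sets `C i`
    let C : Set ↥(pullback sX sY) → Set X := fun Z =>
      ⋂ b : {b : KPt sY // b.pt ∈ T}, (sliceL sX sY b.1) ⁻¹' Z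
    have hCc : ∀ Z, IsClosed Z → IsClosed (C Z) := fun Z hZ =>
      isClosed_iInter fun b => hZ.preimage (sliceL sX sY b.1).continuous
    have hCmem : ∀ Z (a : KPt sX), T ⊆ (sliceR sX sY a) ⁻¹' Z → a.pt ∈ C Z := by
      intro Z a hTZ
      simp only [C, Set.mem_iInter, Set.mem_preimage]
      intro b
      rw [sliceL_apply_pt, ← sliceR_apply_pt]
      exact hTZ b.2
    have hScover : S ⊆ C Z1 ∪ C Z2 := by
      have h1 : S ∩ closedPoints X ⊆ C Z1 ∪ C Z2 := by
        rintro x ⟨hxS, hx⟩
        have hpt : (KPt.ofClosedPoint sX x hx).pt = x := KPt.pt_ofClosedPoint sX x hx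
        rcases hslice (KPt.ofClosedPoint sX x hx) (by rwa [hpt]) with h | h
        · exact Or.inl (hpt ▸ hCmem Z1 _ h)
        · exact Or.inr (hpt ▸ hCmem Z2 _ h)
      have h2 : closure (S ∩ closedPoints X) ⊆ C Z1 ∪ C Z2 :=
        closure_minimal h1 ((hCc Z1 hZ1).union (hCc Z2 hZ2))
      rw [JacobsonSpace.closure_inter_closedPoints_eq_closure hSc.isLocallyClosed,
        hSc.closure_eq] at h2
      exact h2
    have hfinal : ∀ Z, IsClosed Z → S ⊆ C Z → E ⊆ Z := by
      intro Z hZ hSZ
      have h1 : E ∩ closedPoints ↥(pullback sX sY) ⊆ Z := by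
        rintro e ⟨heE, he⟩
        obtain ⟨a, b, rfl⟩ := exists_pairK_of_isClosed sX sY e he
        have haS : a.pt ∈ S := by
          have := heE.1
          rwa [Set.mem_preimage, fst_pairK_pt] at this
        have hbT : b.pt ∈ T := by
          have := heE.2
          rwa [Set.mem_preimage, snd_pairK_pt] at this
        have := hSZ haS
        simp only [C, Set.mem_iInter, Set.mem_preimage] at this
        have h' := this ⟨b, hbT⟩
        rwa [sliceL_apply_pt] at h'
      have h2 : closure (E ∩ closedPoints ↥(pullback sX sY)) ⊆ Z := closure_minimal h1 hZ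
      rw [JacobsonSpace.closure_inter_closedPoints_eq_closure hEc.isLocallyClosed,
        hEc.closure_eq] at h2
      exact h2
    rcases (isPreirreducible_iff_isClosed_union_isClosed.mp hS.isPreirreducible) _ _
      (hCc Z1 hZ1) (hCc Z2 hZ2) hScover with h | h
    · exact Or.inl (hfinal Z1 hZ1 h)
    · exact Or.inr (hfinal Z2 hZ2 h)

/-- the product of two irreducible schemes over an algebraically closed field is irreducible -/
theorem irreducibleSpace_pullback [IrreducibleSpace X] [IrreducibleSpace Y] :
    IrreducibleSpace ↥(pullback sX sY) := by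
  have h := isIrreducible_preimage_inter sX sY (IrreducibleSpace.isIrreducible_univ X)
    isClosed_univ (IrreducibleSpace.isIrreducible_univ Y) isClosed_univ
  simp only [Set.preimage_univ, Set.inter_univ] at h
  haveI : Nonempty ↥(pullback sX sY) := h.nonempty.to_subtype.map Subtype.val
  haveI : PreirreducibleSpace ↥(pullback sX sY) := ⟨h.isPreirreducible⟩
  exact { toNonempty := inferInstance }

/-- the preimage under the second projection of an irreducible closed subset is irreducible -/
theorem isIrreducible_preimage_snd [IrreducibleSpace X] {T : Set Y} (hT : IsIrreducible T)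
    (hTc : IsClosed T) : IsIrreducible ((pullback.snd sX sY) ⁻¹' T) := by
  have h := isIrreducible_preimage_inter sX sY (IrreducibleSpace.isIrreducible_univ X)
    isClosed_univ hT hTc
  simpa only [Set.preimage_univ, Set.univ_inter] using h

/-- the preimage under the first projection of an irreducible closed subset is irreducible -/
theorem isIrreducible_preimage_fst [IrreducibleSpace Y] {S : Set X} (hS : IsIrreducible S)
    (hSc : IsClosed S) : IsIrreducible ((pullback.fst sX sY) ⁻¹' S) := by
  have h := isIrreducible_preimage_inter sX sY hS hSc (IrreducibleSpace.isIrreducible_univ Y)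
    isClosed_univ
  simpa only [Set.preimage_univ, Set.inter_univ] using h

end Irred

end Fermat.Agent.S26lib.Prod
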