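/-
S26lib / Prod / ProjDiv (helper6, Project K).

**Pull-back of prime divisors along the projection `pr : X ×_K Y ⟶ Y`** (`K` algebraically closed,
`X` irreducible, `X ×_K Y` integral, locally noetherian with factorial local rings).

For a point `z : Y` let `genPre z` be the generic point of the irreducible closed set
`pr⁻¹ (closure {z})`.  Then `pr (genPre z) = z` (`snd_genPre`) and, if `O_{Y,z}` is a discrete
valuation ring, then (`genPre_dvr`):
* `O_{X×Y, genPre z}` is a discrete valuation ring;
* `pr^#` maps uniformisers of `O_{Y,z}` to uniformisers of `O_{X×Y, genPre z}` (ramification index 1).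

The proof uses no geometric reducedness: for a section `σ : Y ⟶ X ×_K Y` through a rational point
of `X` and `p = σ z`, the retraction `σ^#` of `pr^#` is a local homomorphism, so `pr^# t` is
irreducible, hence PRIME, in the factorial ring `O_p`; the generisation of `p` it cuts out lies over
`z`, hence is `genPre z`.
-/
import Mathlib
import Fermat.Agent.S26lib.Prod.Irreducible
import Fermat.Agent.S26lib.Prod.Gen

set_option autoImplicit false

noncomputable section

universe u

open CategoryTheory CategoryTheory.Limits AlgebraicGeometry TopologicalSpace IsLocalRing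

namespace Fermat.Agent.S26lib.Prod

section Alg

/-- a noetherian local domain whose maximal ideal is generated by a non-zero element is a DVR -/
theorem isDVR_of_maximalIdeal_eq_span {R : Type*} [CommRing R] [IsDomain R] [IsLocalRing R]
    [IsNoetherianRing R] {π : R} (hπ : π ≠ 0) (h : maximalIdeal R = Ideal.span {π}) :
    IsDiscreteValuationRing R := by
  have hnf : ¬ IsField R := by
    rw [IsLocalRing.isField_iff_maximalIdeal_eq, h, Ideal.span_singleton_eq_bot]
    exact hπ
  have hp : (maximalIdeal R).IsPrincipal := ⟨⟨π, h⟩⟩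
  exact ((IsDiscreteValuationRing.TFAE R hnf).out 4 0).mp hp

end Alg

variable {K : Type u} [Field K] [IsAlgClosed K] {X Y : Scheme.{u}}
  (sX : X ⟶ Spec (CommRingCat.of K)) (sY : Y ⟶ Spec (CommRingCat.of K))
  [LocallyOfFiniteType sX] [LocallyOfFiniteType sY] [IrreducibleSpace X]

/-- the generic point of `pr⁻¹ (closure {z})` -/
def genPre (z : Y) : ↥(pullback sX sY) :=
  (isIrreducible_preimage_snd sX sY (isIrreducible_singleton (x := z)).closure
    isClosed_closure).genericPoint

theorem isGenericPoint_genPre (z : Y) :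
    IsGenericPoint (genPre sX sY z) ((pullback.snd sX sY) ⁻¹' closure {z}) :=
  IsIrreducible.isGenericPoint_genericPoint _
    (isClosed_closure.preimage (pullback.snd sX sY).continuous)

theorem genPre_specializes {z : Y} {p : ↥(pullback sX sY)}
    (hp : pullback.snd sX sY p ∈ closure {z}) : genPre sX sY z ⤳ p :=
  (isGenericPoint_genPre sX sY z).specializes hp

/-- an irreducible scheme locally of finite type over `K` has a rational point -/
theorem nonempty_kPt : Nonempty (KPt sX) := by
  obtain ⟨a, -⟩ := KPt.exists_kPt_mem_of_isLocallyClosed sX isOpen_univ.isLocallyClosed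
    (Set.univ_nonempty (α := X))
  exact ⟨a⟩

theorem snd_genPre (z : Y) : pullback.snd sX sY (genPre sX sY z) = z := by
  obtain ⟨a₀⟩ := nonempty_kPt sX
  have h1 : genPre sX sY z ⤳ sliceR sX sY a₀ z :=
    genPre_specializes sX sY (by rw [snd_sliceR_apply]; exact subset_closure rfl)
  have h2 : pullback.snd sX sY (genPre sX sY z) ⤳ z := by
    have := h1.map (pullback.snd sX sY).continuous
    rwa [snd_sliceR_apply] at this
  have h3 : z ⤳ pullback.snd sX sY (genPre sX sY z) := by
    rw [specializes_iff_mem_closure]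
    exact (isGenericPoint_genPre sX sY z).mem
  exact (h2.antisymm h3).eq

/-- stalk specialisation maps of an integral scheme are injective -/
theorem stalkSpecializes_injective {Z : Scheme.{u}} [IsIntegral Z] {x y : Z} (h : y ⤳ x) :
    Function.Injective (Z.presheaf.stalkSpecializes h).hom := by
  intro a b hab
  have hgen : genericPoint Z ⤳ y := genericPoint_specializes y
  have h1 : (Z.presheaf.stalkSpecializes (hgen.trans h)).hom a =
      (Z.presheaf.stalkSpecializes (hgen.trans h)).hom b := by
    have hc := Z.presheaf.stalkSpecializes_comp hgen h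
    have ha := congrArg (fun φ => φ.hom a) hc
    have hb := congrArg (fun φ => φ.hom b) hc
    simp only [CommRingCat.hom_comp, RingHom.comp_apply] at ha hb
    rw [← ha, ← hb, hab]
  exact IsFractionRing.injective (Z.presheaf.stalk x) Z.functionField h1

set_option maxHeartbeats 400000 in
/-- **the pull-back of a prime divisor along a projection is a prime divisor, with ramification
index one** -/
theorem genPre_dvr [IsIntegral Y] [IsIntegral (pullback sX sY)]
    [IsLocallyNoetherian (pullback sX sY)]
    (hufd : ∀ p : ↥(pullback sX sY),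
      UniqueFactorizationMonoid ((pullback sX sY).presheaf.stalk p))
    (z : Y) (hz : IsDiscreteValuationRing (Y.presheaf.stalk z)) :
    IsDiscreteValuationRing ((pullback sX sY).presheaf.stalk (genPre sX sY z)) ∧
    ∀ t : Y.presheaf.stalk (pullback.snd sX sY (genPre sX sY z)), Irreducible t →
      Irreducible ((pullback.snd sX sY).stalkMap (genPre sX sY z) t) := by
  classical
  obtain ⟨a₀⟩ := nonempty_kPt sX
  have hσ : sliceR sX sY a₀ ≫ pullback.snd sX sY = 𝟙 Y := sliceR_snd sX sY a₀
  have hpz : pullback.snd sX sY (sliceR sX sY a₀ z) = z := snd_sliceR_apply sX sY a₀ z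
  have hξz : pullback.snd sX sY (genPre sX sY z) = z := snd_genPre sX sY z
  have hξp : genPre sX sY z ⤳ sliceR sX sY a₀ z :=
    genPre_specializes sX sY (by rw [hpz]; exact subset_closure rfl)
  -- the local ring at `pr p` is a DVR
  haveI hdvr : IsDiscreteValuationRing
      (Y.presheaf.stalk (pullback.snd sX sY (sliceR sX sY a₀ z))) := by
    rw [hpz]; exact hz
  obtain ⟨t₀, ht₀⟩ := IsDiscreteValuationRing.exists_irreducible
    (Y.presheaf.stalk (pullback.snd sX sY (sliceR sX sY a₀ z)))
  -- the retraction
  haveI : IsIso (sliceR sX sY a₀ ≫ pullback.snd sX sY) := by rw [hσ]; infer_instance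
  have hcomp : (sliceR sX sY a₀ ≫ pullback.snd sX sY).stalkMap z =
      (pullback.snd sX sY).stalkMap (sliceR sX sY a₀ z) ≫ (sliceR sX sY a₀).stalkMap z :=
    Scheme.Hom.stalkMap_comp (sliceR sX sY a₀) (pullback.snd sX sY) z
  have hirrθ : Irreducible ((sliceR sX sY a₀ ≫ pullback.snd sX sY).stalkMap z t₀) :=
    (MulEquiv.irreducible_iff (asIso ((sliceR sX sY a₀ ≫
      pullback.snd sX sY).stalkMap z)).commRingCatIsoToRingEquiv.toMulEquiv).mpr ht₀
  have hirrα : Irreducible ((pullback.snd sX sY).stalkMap (sliceR sX sY a₀ z) t₀) := by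
    have e : (sliceR sX sY a₀).stalkMap z
        ((pullback.snd sX sY).stalkMap (sliceR sX sY a₀ z) t₀) =
        (sliceR sX sY a₀ ≫ pullback.snd sX sY).stalkMap z t₀ := by
      rw [hcomp]; rfl
    haveI : IsLocalHom ((sliceR sX sY a₀).stalkMap z).hom := inferInstance
    refine Irreducible.of_map (f := ((sliceR sX sY a₀).stalkMap z).hom) ?_
    exact e ▸ hirrθ
  haveI := hufd (sliceR sX sY a₀ z)
  have hprime : Prime ((pullback.snd sX sY).stalkMap (sliceR sX sY a₀ z) t₀) :=
    UniqueFactorizationMonoid.irreducible_iff_prime.mp hirrα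
  -- the prime ideal and its generisation
  let 𝔮₀ : PrimeSpectrum ((pullback sX sY).presheaf.stalk (sliceR sX sY a₀ z)) :=
    ⟨Ideal.span {(pullback.snd sX sY).stalkMap (sliceR sX sY a₀ z) t₀},
      (Ideal.span_singleton_prime hprime.ne_zero).mpr hprime⟩
  -- a prime of the DVR containing `t₀` is the closed point
  have hclosed : ∀ 𝔭 : PrimeSpectrum (Y.presheaf.stalk (pullback.snd sX sY (sliceR sX sY a₀ z))),
      t₀ ∈ 𝔭.asIdeal → 𝔭 = closedPoint _ := by
    intro 𝔭 ht
    have hne : 𝔭.asIdeal ≠ ⊥ := fun h0 => ht₀.ne_zero (by rw [h0] at ht; exact ht)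
    have hmax : 𝔭.asIdeal.IsMaximal := 𝔭.2.isMaximal hne
    exact PrimeSpectrum.ext (IsLocalRing.eq_maximalIdeal hmax)
  -- `ξ' = genPt p 𝔮₀` lies over `z`
  have hξ'z : pullback.snd sX sY (genPt (sliceR sX sY a₀ z) 𝔮₀) =
      pullback.snd sX sY (sliceR sX sY a₀ z) := by
    have hc := hclosed
      (PrimeSpectrum.comap ((pullback.snd sX sY).stalkMap (sliceR sX sY a₀ z)).hom 𝔮₀)
      (show (pullback.snd sX sY).stalkMap (sliceR sX sY a₀ z) t₀ ∈ 𝔮₀.asIdeal from
        Ideal.mem_span_singleton_self _)
    rw [map_genPt, hc, genPt_closedPoint]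
  have h1 : genPre sX sY z ⤳ genPt (sliceR sX sY a₀ z) 𝔮₀ :=
    genPre_specializes sX sY (by rw [hξ'z, hpz]; exact subset_closure rfl)
  -- the prime of `ξ`
  have h𝔮 : genPt (sliceR sX sY a₀ z) (primeOf hξp) = genPre sX sY z := genPt_primeOf hξp
  have hmem : (pullback.snd sX sY).stalkMap (sliceR sX sY a₀ z) t₀ ∈ (primeOf hξp).asIdeal := by
    have e1 : pullback.snd sX sY (genPt (sliceR sX sY a₀ z) (primeOf hξp)) =
        genPt (pullback.snd sX sY (sliceR sX sY a₀ z)) (closedPoint _) := by
      rw [h𝔮, hξz, genPt_closedPoint, hpz]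
    rw [map_genPt] at e1
    have e2 := genPt_injective _ e1
    have : t₀ ∈ (closedPoint (Y.presheaf.stalk
        (pullback.snd sX sY (sliceR sX sY a₀ z)))).asIdeal :=
      ht₀.not_isUnit
    rw [← e2] at this
    exact this
  have h2 : genPt (sliceR sX sY a₀ z) 𝔮₀ ⤳ genPre sX sY z := by
    rw [← h𝔮, genPt_specializes_iff]
    show 𝔮₀.asIdeal ≤ (primeOf hξp).asIdeal
    rw [Ideal.span_singleton_le_iff_mem]
    exact hmem
  have hξξ' : genPt (sliceR sX sY a₀ z) 𝔮₀ = genPre sX sY z := (h2.antisymm h1).eq
  have h𝔮eq : primeOf hξp = 𝔮₀ := (eq_primeOf hξp hξξ').symm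
  -- the maximal ideal of `O_ξ`
  set spec := ((pullback sX sY).presheaf.stalkSpecializes hξp).hom with hspec
  set π := spec ((pullback.snd sX sY).stalkMap (sliceR sX sY a₀ z) t₀) with hπ
  have hπ0 : π ≠ 0 := by
    intro h0
    exact hprime.ne_zero (stalkSpecializes_injective hξp (by rw [← hspec, ← hπ, h0, map_zero]))
  have hπm : π ∈ maximalIdeal ((pullback sX sY).presheaf.stalk (genPre sX sY z)) :=
    (mem_primeOf_iff hξp _).mp hmem
  have hmax : maximalIdeal ((pullback sX sY).presheaf.stalk (genPre sX sY z)) =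
      Ideal.span {π} := by
    apply le_antisymm
    · intro b hb
      obtain ⟨a, s, hs, hbs⟩ := exists_stalkSpecializes_eq hξp b
      have ha : a ∈ (primeOf hξp).asIdeal := by
        rw [mem_primeOf_iff, ← hbs]
        exact Ideal.mul_mem_right _ _ hb
      rw [h𝔮eq] at ha
      obtain ⟨c, rfl⟩ := Ideal.mem_span_singleton'.mp ha
      rw [Ideal.mem_span_singleton']
      refine ⟨spec c * ↑hs.unit⁻¹, ?_⟩
      have : b = spec (c * (pullback.snd sX sY).stalkMap (sliceR sX sY a₀ z) t₀) *
          ↑hs.unit⁻¹ := by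
        rw [← hbs, mul_assoc, IsUnit.mul_val_inv, mul_one]
      rw [this, map_mul]
      ring
    · rw [Ideal.span_singleton_le_iff_mem]
      exact hπm
  haveI hdvrξ : IsDiscreteValuationRing ((pullback sX sY).presheaf.stalk (genPre sX sY z)) :=
    isDVR_of_maximalIdeal_eq_span hπ0 hmax
  refine ⟨hdvrξ, ?_⟩
  -- uniformisers
  have hnat := Scheme.Hom.stalkSpecializes_stalkMap (pullback.snd sX sY) (genPre sX sY z)
    (sliceR sX sY a₀ z) hξp
  -- `π = pr^#_ξ (t₁)`
  have hπ' : π = (pullback.snd sX sY).stalkMap (genPre sX sY z)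
      ((Y.presheaf.stalkSpecializes ((pullback.snd sX sY).base.hom.map_specializes hξp)).hom t₀) := by
    have := congrArg (fun φ => φ.hom t₀) hnat
    simp only [CommRingCat.hom_comp, RingHom.comp_apply] at this
    exact this.symm
  haveI hdvrz : IsDiscreteValuationRing
      (Y.presheaf.stalk (pullback.snd sX sY (genPre sX sY z))) := by
    rw [hξz]; exact hz
  intro t ht
  rw [IsDiscreteValuationRing.irreducible_iff_uniformizer]
  have htm : maximalIdeal (Y.presheaf.stalk (pullback.snd sX sY (genPre sX sY z))) =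
      Ideal.span {t} := (IsDiscreteValuationRing.irreducible_iff_uniformizer t).mp ht
  set t₁ := (Y.presheaf.stalkSpecializes
    ((pullback.snd sX sY).base.hom.map_specializes hξp)).hom t₀ with ht₁
  have ht₁m : t₁ ∈ maximalIdeal (Y.presheaf.stalk (pullback.snd sX sY (genPre sX sY z))) := by
    rw [mem_maximalIdeal, mem_nonunits_iff]
    intro hu
    have hu' := hu.map ((pullback.snd sX sY).stalkMap (genPre sX sY z)).hom
    have : IsUnit π := by rw [hπ']; exact hu'
    exact (mem_maximalIdeal _).mp hπm this
  rw [htm] at ht₁m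
  obtain ⟨c, hc⟩ := Ideal.mem_span_singleton'.mp ht₁m
  apply le_antisymm
  · rw [hmax, Ideal.span_singleton_le_iff_mem, Ideal.mem_span_singleton']
    refine ⟨(pullback.snd sX sY).stalkMap (genPre sX sY z) c, ?_⟩
    rw [hπ', ← hc, map_mul]
  · rw [Ideal.span_singleton_le_iff_mem, mem_maximalIdeal, mem_nonunits_iff]
    intro hu
    exact ht.not_isUnit (isUnit_of_map_unit ((pullback.snd sX sY).stalkMap
      (genPre sX sY z)).hom t hu)

end Fermat.Agent.S26lib.Prod
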