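/-
S26lib / Prod / GoodProj (helper6, Project K).

**The projections of a product of integral varieties over an algebraically closed field are good
maps** (`GoodMap`, i.e. prime divisors pull back to prime divisors with multiplicity one), as soon
as the product is integral, locally noetherian and locally factorial.

* `goodMap_snd sX sY hufd : GoodMap (pullback.snd sX sY)`;
* `goodMap_fst sX sY hufd : GoodMap (pullback.fst sX sY)`.
-/
import Mathlib
import Fermat.Agent.S26lib.Prod.ProjDiv
import Fermat.Agent.S26lib.Prod.GoodMap

set_option autoImplicit false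
set_option linter.unusedSectionVars false

noncomputable section

universe u

open CategoryTheory CategoryTheory.Limits AlgebraicGeometry TopologicalSpace IsLocalRing

namespace Fermat.Agent.S26lib.Prod

variable {K : Type u} [Field K] [IsAlgClosed K] {X Y : Scheme.{u}}
  (sX : X ⟶ Spec (CommRingCat.of K)) (sY : Y ⟶ Spec (CommRingCat.of K))
  [LocallyOfFiniteType sX] [LocallyOfFiniteType sY]

/-- the second projection of a product is a good map -/
theorem goodMap_snd [IsIntegral X] [IsIntegral Y] [IsIntegral (pullback sX sY)]
    [IsLocallyNoetherian (pullback sX sY)]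
    (hufd : ∀ p : ↥(pullback sX sY),
      UniqueFactorizationMonoid ((pullback sX sY).presheaf.stalk p)) :
    GoodMap (pullback.snd sX sY) := by
  refine ⟨inferInstance, fun z => ?_, fun z => ?_, fun z hz ξ hξ => ?_⟩
  · obtain ⟨a₀⟩ := nonempty_kPt sX
    exact ⟨sliceR sX sY a₀ z, snd_sliceR_apply sX sY a₀ z⟩
  · exact isIrreducible_preimage_snd sX sY isIrreducible_singleton.closure isClosed_closure
  · have e : ξ = genPre sX sY z := hξ.eq (isGenericPoint_genPre sX sY z)
    subst e
    exact genPre_dvr sX sY hufd z hz

/-- the first projection of a product is a good map -/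
theorem goodMap_fst [IsIntegral X] [IsIntegral Y] [IsIntegral (pullback sX sY)]
    [IsLocallyNoetherian (pullback sX sY)]
    (hufd : ∀ p : ↥(pullback sX sY),
      UniqueFactorizationMonoid ((pullback sX sY).presheaf.stalk p)) :
    GoodMap (pullback.fst sX sY) := by
  -- transport along the symmetry `X × Y ≅ Y × X`
  let e : pullback sY sX ≅ pullback sX sY := pullbackSymmetry sY sX
  haveI : IsIntegral (pullback sY sX) := isIntegral_of_isOpenImmersion e.hom
  haveI : IsLocallyNoetherian (pullback sY sX) := isLocallyNoetherian_of_isOpenImmersion e.hom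
  have hufd' : ∀ p : ↥(pullback sY sX),
      UniqueFactorizationMonoid ((pullback sY sX).presheaf.stalk p) := by
    intro p
    haveI := hufd (e.hom p)
    let ε : (pullback sX sY).presheaf.stalk (e.hom p) ≃+* (pullback sY sX).presheaf.stalk p :=
      (asIso (e.hom.stalkMap p)).commRingCatIsoToRingEquiv
    exact ε.toMulEquiv.uniqueFactorizationMonoid inferInstance
  have h1 : GoodMap (pullback.snd sY sX) := goodMap_snd sY sX hufd'
  have h2 : GoodMap e.inv := GoodMap.of_isIso e.inv
  have h3 := h2.comp h1
  have e3 : e.inv ≫ pullback.snd sY sX = pullback.fst sX sY := by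
    show (pullbackSymmetry sY sX).inv ≫ pullback.snd sY sX = pullback.fst sX sY
    simp
  rwa [e3] at h3

end Fermat.Agent.S26lib.Prod
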