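/-
S26lib / Prod / Maps (helper6, Project K).

**The morphisms between `A`, `A ×_S A`, `A ×_S A ×_S A` used by the quadratic law (Q), with their
`T`-point specifications and all the identities between them.**

`G : RelativeGroupLaw R f`, written multiplicatively as in the Prelude (`mul`, `one`, `inv`,
`nsmul n x = x ^ n`); in the comments we write the group additively.

On `A2 f = A ×_S A` (coordinates `(x, y)`):
* `addHom G : (x, y) ↦ x + y`, `subHom G : (x, y) ↦ x - y`, the projections `pullback.fst f f`,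
  `pullback.snd f f`, `psi G n : A ⟶ A2 f`, `y ↦ (n y, y)`;
* **helper1's `QuadData` identities**: `psi_addHom`, `psi_subHom`, `psi_fst`, `psi_snd`,
  `nsmulHom_one`.

On `A3 f = A ×_S A ×_S A` (coordinates `(x, z, y)`, helper2's #h2-226):
* `sig13 : x + y`, `sig23 : z + y`, `sigM : y - (x + z)`, `m12 : x + z`, `pr1`, `pr2`, `pr3`,
  `p12 f : A3 f ⟶ A2 f`, `iota0 G : A2 f ⟶ A3 f`, `(x, z) ↦ (x, z, 0)`,
  `psi3 G a : A ⟶ A3 f`, `y ↦ (a y, - a y, y)`;
* the seven composites `psi3_sig13 … psi3_m12` (commutative law).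
-/
import Mathlib
import Fermat.Agent.S26lib.Prod.Points

set_option autoImplicit false

noncomputable section

universe u

namespace Fermat.Agent.S26lib.Prod

open CategoryTheory CategoryTheory.Limits AlgebraicGeometry NeronModelInfra GoodReductionJacobian

variable {R : Type u} [CommRing R] {A : Scheme.{u}} {f : A ⟶ Spec (CommRingCat.of R)}

variable (G : RelativeGroupLaw R f)

/-! ### the group of points -/

section Group

variable {T : Scheme.{u}} (t : T ⟶ Spec (CommRingCat.of R))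

/-- `nsmul` is the power of the group of points -/
theorem nsmul_eq_pow (n : ℕ) (x : SchemeHomOver t f) :
    letI := G.pointGroup t
    G.nsmul t n x = x ^ n := by
  letI := G.pointGroup t
  induction n with
  | zero => rw [pow_zero]; rfl
  | succ n ih => rw [RelativeGroupLaw.nsmul_succ, pow_succ, ← ih]; rfl

/-- the commutative group of points of a commutative law -/
@[reducible]
def ptCommGroup (hc : G.IsCommutative) : CommGroup (SchemeHomOver t f) :=
  { G.pointGroup t with mul_comm := hc t }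

end Group

/-! ### maps on `A ×_S A` -/

/-- the sum `(x, y) ↦ x + y` -/
def addHom : A2 f ⟶ A := (G.mul (f2 f) (pt1 f) (pt2 f)).1

/-- the difference `(x, y) ↦ x - y` -/
def subHom : A2 f ⟶ A := (G.mul (f2 f) (pt1 f) (G.inv (f2 f) (pt2 f))).1

theorem addHom_eq_mulHom : addHom G = NMul.mulHom G := rfl

theorem addHom_comp : addHom G ≫ f = f2 f := (G.mul (f2 f) (pt1 f) (pt2 f)).2

theorem subHom_comp : subHom G ≫ f = f2 f := (G.mul (f2 f) (pt1 f) (G.inv (f2 f) (pt2 f))).2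

section A2

variable {T : Scheme.{u}} {t : T ⟶ Spec (CommRingCat.of R)}

/-- the sum on `T`-points -/
theorem pair_addHom (x y : SchemeHomOver t f) : pair x y ≫ addHom G = (G.mul t x y).1 := by
  rw [addHom, comp_coe (pair x y) (pair_f2 x y), pull_mul, pull_pair_pt1, pull_pair_pt2]

/-- the difference on `T`-points -/
theorem pair_subHom (x y : SchemeHomOver t f) :
    pair x y ≫ subHom G = (G.mul t x (G.inv t y)).1 := by
  rw [subHom, comp_coe (pair x y) (pair_f2 x y), pull_mul, pull_inv, pull_pair_pt1,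
    pull_pair_pt2]

end A2

/-- `y ↦ (n y, y)` -/
def psi (n : ℕ) : A ⟶ A2 f := pair (G.nsmul f n (NMul.idPt f)) (NMul.idPt f)

theorem psi_f2 (n : ℕ) : psi G n ≫ f2 f = f := pair_f2 _ _

/-- **`QuadData.hm`** : `(n y) + y = (n + 1) y` -/
theorem psi_addHom (n : ℕ) : psi G n ≫ addHom G = NMul.nsmulHom G (n + 1) := by
  rw [psi, pair_addHom, ← RelativeGroupLaw.nsmul_succ]
  rfl

/-- **`QuadData.hs`** : `(n + 1) y - y = n y` -/
theorem psi_subHom (n : ℕ) : psi G (n + 1) ≫ subHom G = NMul.nsmulHom G n := by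
  rw [psi, pair_subHom, RelativeGroupLaw.nsmul_succ, G.mul_assoc,
    RelativeGroupLaw.mul_inv_cancel, G.mul_one]
  rfl

/-- **`QuadData.hp1`** -/
theorem psi_fst (n : ℕ) : psi G n ≫ pullback.fst f f = NMul.nsmulHom G n := pair_fst _ _

/-- **`QuadData.hp2`** -/
theorem psi_snd (n : ℕ) : psi G n ≫ pullback.snd f f = 𝟙 A := pair_snd _ _

/-- **`QuadData.h1`** -/
theorem nsmulHom_one : NMul.nsmulHom G 1 = 𝟙 A := by
  rw [NMul.nsmulHom, RelativeGroupLaw.nsmul_one_apply]
  rfl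

/-- `[0]` is the constant map to the unit section -/
theorem nsmulHom_zero : NMul.nsmulHom G 0 = f ≫ NMul.oneHom G := by
  rw [NMul.nsmulHom, RelativeGroupLaw.nsmul_zero, NMul.one_eq]

/-- `[m] ∘ [n] = [n m]` -/
theorem nsmulHom_comp_nsmulHom (m n : ℕ) :
    NMul.nsmulHom G m ≫ NMul.nsmulHom G n = NMul.nsmulHom G (m * n) := by
  have h := NMul.comp_nsmulHom G n (G.nsmul f m (NMul.idPt f))
  letI := G.pointGroup f
  have e : G.nsmul f n (G.nsmul f m (NMul.idPt f)) = G.nsmul f (m * n) (NMul.idPt f) := by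
    rw [nsmul_eq_pow, nsmul_eq_pow, nsmul_eq_pow, pow_mul]
  rw [e] at h
  exact h

/-! ### maps on `A ×_S A ×_S A` -/

/-- `(x, z, y) ↦ x + y` -/
def sig13 : A3 f ⟶ A := (G.mul (f3 f) (q1 f) (q3 f)).1

/-- `(x, z, y) ↦ z + y` -/
def sig23 : A3 f ⟶ A := (G.mul (f3 f) (q2 f) (q3 f)).1

/-- `(x, z, y) ↦ y - (x + z)` -/
def sigM : A3 f ⟶ A := (G.mul (f3 f) (q3 f) (G.inv (f3 f) (G.mul (f3 f) (q1 f) (q2 f)))).1

/-- `(x, z, y) ↦ x + z` -/
def m12 : A3 f ⟶ A := (G.mul (f3 f) (q1 f) (q2 f)).1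

/-- `(x, z, y) ↦ x` -/
def pr1 : A3 f ⟶ A := (q1 f).1

/-- `(x, z, y) ↦ z` -/
def pr2 : A3 f ⟶ A := (q2 f).1

/-- `(x, z, y) ↦ y` -/
def pr3 : A3 f ⟶ A := (q3 f).1

variable (f) in
theorem pr1_eq : (pr1 : A3 f ⟶ A) = p12 f ≫ pullback.fst f f := rfl

variable (f) in
theorem pr2_eq : (pr2 : A3 f ⟶ A) = p12 f ≫ pullback.snd f f := rfl

variable (f) in
theorem pr3_eq : (pr3 : A3 f ⟶ A) = pullback.snd (f2 f) f := rfl

theorem m12_eq : m12 G = p12 f ≫ addHom G := by
  rw [addHom, comp_coe (p12 f) (p12_f2 f), pull_mul]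
  rfl

section A3

variable {T : Scheme.{u}} {t : T ⟶ Spec (CommRingCat.of R)}

theorem triple_sig13 (x z y : SchemeHomOver t f) :
    triple x z y ≫ sig13 G = (G.mul t x y).1 := by
  rw [sig13, comp_coe (triple x z y) (triple_f3 x z y), pull_mul, pull_triple_q1,
    pull_triple_q3]

theorem triple_sig23 (x z y : SchemeHomOver t f) :
    triple x z y ≫ sig23 G = (G.mul t z y).1 := by
  rw [sig23, comp_coe (triple x z y) (triple_f3 x z y), pull_mul, pull_triple_q2,
    pull_triple_q3]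

theorem triple_sigM (x z y : SchemeHomOver t f) :
    triple x z y ≫ sigM G = (G.mul t y (G.inv t (G.mul t x z))).1 := by
  rw [sigM, comp_coe (triple x z y) (triple_f3 x z y), pull_mul, pull_inv, pull_mul,
    pull_triple_q1, pull_triple_q2, pull_triple_q3]

theorem triple_m12 (x z y : SchemeHomOver t f) :
    triple x z y ≫ m12 G = (G.mul t x z).1 := by
  rw [m12, comp_coe (triple x z y) (triple_f3 x z y), pull_mul, pull_triple_q1,
    pull_triple_q2]

theorem triple_pr1 (x z y : SchemeHomOver t f) : triple x z y ≫ pr1 = x.1 := by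
  rw [pr1, comp_coe (triple x z y) (triple_f3 x z y), pull_triple_q1]

theorem triple_pr2 (x z y : SchemeHomOver t f) : triple x z y ≫ pr2 = z.1 := by
  rw [pr2, comp_coe (triple x z y) (triple_f3 x z y), pull_triple_q2]

theorem triple_pr3 (x z y : SchemeHomOver t f) : triple x z y ≫ pr3 = y.1 := by
  rw [pr3, comp_coe (triple x z y) (triple_f3 x z y), pull_triple_q3]

end A3

/-- the section `(x, z) ↦ (x, z, 0)` of `p12` -/
def iota0 : A2 f ⟶ A3 f := triple (pt1 f) (pt2 f) (G.one (f2 f))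

theorem iota0_f3 : iota0 G ≫ f3 f = f2 f := triple_f3 _ _ _

theorem iota0_p12 : iota0 G ≫ p12 f = 𝟙 (A2 f) := by
  rw [iota0, triple_p12]
  apply A2_hom_ext
  · erw [pair_fst]; exact (Category.id_comp _).symm
  · erw [pair_snd]; exact (Category.id_comp _).symm

theorem iota0_pr3 : iota0 G ≫ pr3 = f2 f ≫ NMul.oneHom G := by
  rw [iota0, triple_pr3, NMul.one_eq]

/-- `y ↦ (a y, - a y, y)` -/
def psi3 (a : ℕ) : A ⟶ A3 f :=
  triple (G.nsmul f a (NMul.idPt f)) (G.inv f (G.nsmul f a (NMul.idPt f))) (NMul.idPt f)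

theorem psi3_f3 (a : ℕ) : psi3 G a ≫ f3 f = f := triple_f3 _ _ _

/-- `a y + y = (a + 1) y` -/
theorem psi3_sig13 (a : ℕ) : psi3 G a ≫ sig13 G = NMul.nsmulHom G (a + 1) := by
  rw [psi3, triple_sig13, ← RelativeGroupLaw.nsmul_succ]
  rfl

/-- `- (a + 1) y + y = - a y` -/
theorem psi3_sig23 (a : ℕ) :
    psi3 G (a + 1) ≫ sig23 G = NMul.nsmulHom G a ≫ NMul.invHom G := by
  rw [psi3, triple_sig23]
  show _ = (G.nsmul f a (NMul.idPt f)).1 ≫ NMul.invHom G
  rw [NMul.comp_invHom]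
  congr 1
  letI := G.pointGroup f
  show (G.nsmul f (a + 1) (NMul.idPt f))⁻¹ * NMul.idPt f = (G.nsmul f a (NMul.idPt f))⁻¹
  rw [nsmul_eq_pow, nsmul_eq_pow, pow_succ', mul_inv_rev, inv_mul_cancel_right]

/-- `y - (a y - a y) = y` -/
theorem psi3_sigM (a : ℕ) : psi3 G a ≫ sigM G = 𝟙 A := by
  rw [psi3, triple_sigM, RelativeGroupLaw.mul_inv_cancel]
  letI := G.pointGroup f
  show ((NMul.idPt f) * (1 : SchemeHomOver f f)⁻¹).1 = 𝟙 A
  rw [inv_one, mul_one]
  rfl

theorem psi3_pr1 (a : ℕ) : psi3 G a ≫ pr1 = NMul.nsmulHom G a := triple_pr1 _ _ _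

theorem psi3_pr2 (a : ℕ) : psi3 G a ≫ pr2 = NMul.nsmulHom G a ≫ NMul.invHom G := by
  rw [psi3, triple_pr2]
  show _ = (G.nsmul f a (NMul.idPt f)).1 ≫ NMul.invHom G
  rw [NMul.comp_invHom]

theorem psi3_pr3 (a : ℕ) : psi3 G a ≫ pr3 = 𝟙 A := triple_pr3 _ _ _

/-- `a y - a y = 0` -/
theorem psi3_m12 (a : ℕ) : psi3 G a ≫ m12 G = NMul.nsmulHom G 0 := by
  rw [psi3, triple_m12, RelativeGroupLaw.mul_inv_cancel]
  rfl

/-- the inverse is an involution -/
theorem invHom_invHom : NMul.invHom G ≫ NMul.invHom G = 𝟙 A := by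
  have h := NMul.comp_invHom G (G.inv f (NMul.idPt f))
  letI := G.pointGroup f
  have e : G.inv f (G.inv f (NMul.idPt f)) = NMul.idPt f := inv_inv (NMul.idPt f)
  rw [e] at h
  exact h

/-- `[-1] ∘ [n] = [n] ∘ [-1]` -/
theorem invHom_nsmulHom (n : ℕ) :
    NMul.invHom G ≫ NMul.nsmulHom G n = NMul.nsmulHom G n ≫ NMul.invHom G := by
  have h1 := NMul.comp_nsmulHom G n (G.inv f (NMul.idPt f))
  have h2 := NMul.comp_invHom G (G.nsmul f n (NMul.idPt f))
  letI := G.pointGroup f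
  have e : G.nsmul f n (G.inv f (NMul.idPt f)) = G.inv f (G.nsmul f n (NMul.idPt f)) := by
    rw [nsmul_eq_pow, nsmul_eq_pow]
    exact inv_pow (NMul.idPt f) n
  rw [e] at h1
  exact h1.trans h2.symm

end Fermat.Agent.S26lib.Prod
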