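/-
S26lib / Prod / Shear (helper6, Project K).

**Shear automorphisms of `X ×_K A`** (`A` a group scheme over `K`, `X` any `K`-scheme): for a
`K`-morphism `w : X ⟶ A` the map `(p, y) ↦ (p, y · w p)`.

* `coordA sX : SchemeHomOver (sProd sX f) f` (the `A`-coordinate), `liftX sX w` (the point `w ∘ pr₁`);
* `shear G sX w`, `shear_fst`, `shear_snd`, `shear_sProd`, `shear_comp : shear w ≫ shear w' =
  shear (w * w')`, `shear_one`, `shearIso G sX w`;
* `goodMap_shear_snd` : `shear w ≫ pr₂ : X ×_K A ⟶ A` is a good map (`GoodMap`).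
-/
import Mathlib
import Fermat.Agent.S26lib.Prod.Maps
import Fermat.Agent.S26lib.Prod.GoodProj

set_option autoImplicit false
set_option linter.unusedSectionVars false

noncomputable section

universe u

open CategoryTheory CategoryTheory.Limits AlgebraicGeometry NeronModelInfra GoodReductionJacobian

namespace Fermat.Agent.S26lib.Prod

variable {K : Type u} [Field K] {A : Scheme.{u}} {f : A ⟶ Spec (CommRingCat.of K)}
  (G : RelativeGroupLaw K f) {X : Scheme.{u}} (sX : X ⟶ Spec (CommRingCat.of K))

/-- the `A`-coordinate of `X ×_K A` -/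
def coordA : SchemeHomOver (sProd sX f) f := ⟨pullback.snd sX f, pullback.condition.symm⟩

/-- the point `w ∘ pr₁` of `A` with values in `X ×_K A` -/
def liftX (w : SchemeHomOver sX f) : SchemeHomOver (sProd sX f) f :=
  pullP (pullback.fst sX f) rfl w

theorem liftX_coe (w : SchemeHomOver sX f) : (liftX sX w).1 = pullback.fst sX f ≫ w.1 := rfl

theorem liftX_mul (w w' : SchemeHomOver sX f) :
    liftX sX (G.mul sX w w') = G.mul (sProd sX f) (liftX sX w) (liftX sX w') :=
  pull_mul G (pullback.fst sX f) rfl w w'

theorem liftX_one : liftX sX (G.one sX) = G.one (sProd sX f) :=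
  pull_one G (pullback.fst sX f) rfl

theorem liftX_inv (w : SchemeHomOver sX f) :
    liftX sX (G.inv sX w) = G.inv (sProd sX f) (liftX sX w) :=
  pull_inv G (pullback.fst sX f) rfl w

/-- the shear `(p, y) ↦ (p, y · w p)` -/
def shear (w : SchemeHomOver sX f) : pullback sX f ⟶ pullback sX f :=
  pullback.lift (pullback.fst sX f) (G.mul (sProd sX f) (coordA sX) (liftX sX w)).1
    (G.mul (sProd sX f) (coordA sX) (liftX sX w)).2.symm

theorem shear_fst (w : SchemeHomOver sX f) :
    shear G sX w ≫ pullback.fst sX f = pullback.fst sX f :=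
  pullback.lift_fst _ _ _

theorem shear_snd (w : SchemeHomOver sX f) :
    shear G sX w ≫ pullback.snd sX f = (G.mul (sProd sX f) (coordA sX) (liftX sX w)).1 :=
  pullback.lift_snd _ _ _

theorem shear_sProd (w : SchemeHomOver sX f) : shear G sX w ≫ sProd sX f = sProd sX f := by
  unfold sProd
  rw [← Category.assoc, shear_fst]

theorem pull_shear_coordA (w : SchemeHomOver sX f) :
    pullP (shear G sX w) (shear_sProd G sX w) (coordA sX) =
      G.mul (sProd sX f) (coordA sX) (liftX sX w) :=
  Subtype.ext (shear_snd G sX w)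

theorem pull_shear_liftX (w w' : SchemeHomOver sX f) :
    pullP (shear G sX w) (shear_sProd G sX w) (liftX sX w') = liftX sX w' := by
  apply Subtype.ext
  show shear G sX w ≫ pullback.fst sX f ≫ w'.1 = pullback.fst sX f ≫ w'.1
  rw [← Category.assoc, shear_fst]

theorem shear_comp (w w' : SchemeHomOver sX f) :
    shear G sX w ≫ shear G sX w' = shear G sX (G.mul sX w w') := by
  apply pullback.hom_ext
  · rw [Category.assoc, shear_fst, shear_fst, shear_fst]
  · rw [Category.assoc, shear_snd, shear_snd,
      comp_coe (shear G sX w) (shear_sProd G sX w), pull_mul, pull_shear_coordA,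
      pull_shear_liftX, liftX_mul, G.mul_assoc]

theorem shear_one : shear G sX (G.one sX) = 𝟙 _ := by
  apply pullback.hom_ext
  · rw [shear_fst, Category.id_comp]
  · rw [shear_snd, liftX_one, G.mul_one, Category.id_comp]
    rfl

/-- the shear as an automorphism -/
def shearIso (w : SchemeHomOver sX f) : pullback sX f ≅ pullback sX f where
  hom := shear G sX w
  inv := shear G sX (G.inv sX w)
  hom_inv_id := by rw [shear_comp, RelativeGroupLaw.mul_inv_cancel, shear_one]
  inv_hom_id := by rw [shear_comp, G.inv_mul_cancel, shear_one]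

instance (w : SchemeHomOver sX f) : IsIso (shear G sX w) :=
  (shearIso G sX w).isIso_hom

/-- the map `(p, y) ↦ y · w p` -/
def shearSnd (w : SchemeHomOver sX f) : SchemeHomOver (sProd sX f) f :=
  G.mul (sProd sX f) (coordA sX) (liftX sX w)

theorem shear_snd' (w : SchemeHomOver sX f) :
    shear G sX w ≫ pullback.snd sX f = (shearSnd G sX w).1 := shear_snd G sX w

section Good

variable [IsAlgClosed K] [LocallyOfFiniteType sX] [LocallyOfFiniteType f]
  [IsIntegral X] [IsIntegral A] [IsIntegral (pullback sX f)]
  [IsLocallyNoetherian (pullback sX f)]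

/-- **`(p, y) ↦ y · w p` is a good map `X ×_K A ⟶ A`** -/
theorem goodMap_shearSnd
    (hufd : ∀ p : ↥(pullback sX f), UniqueFactorizationMonoid ((pullback sX f).presheaf.stalk p))
    (w : SchemeHomOver sX f) : GoodMap (shearSnd G sX w).1 := by
  rw [← shear_snd']
  exact (GoodMap.of_isIso (shear G sX w)).comp (goodMap_snd sX f hufd)

end Good

end Fermat.Agent.S26lib.Prod
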