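/-
S26lib / Prod / ParaMaps (helper6, Project K).

**The eleven maps of helper2's `ParaData` are good maps** (`GoodMap`): each is
`automorphism ≫ projection`.

For a commutative group law `G` on `f : A ⟶ Spec K` (`K` algebraically closed, `A`, `A²`, `A³`
integral, locally noetherian, locally factorial):

* `A² ⟶ A` : `pullback.fst f f` (`x`), `pullback.snd f f` (`z`), `addHom G` (`x + z`),
  `subHom G` (`x - z`), `dblAddHom G` (`2x + z`), `addDblHom G` (`x + 2z`);
* `A³ ⟶ A` : `pr3` (`y`), `sig13 G` (`x + y`), `sig23 G` (`z + y`), `sigM G` (`y - (x + z)`);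
* `A³ ⟶ A²` : `p12 f`.

Rational points: `kPt2Equiv : KPt (f2 f) ≃ KPt f × KPt f`, `kPt3Equiv`, and the formulas
`push_*_symm : (kPt2Equiv.symm (x, z)).push σ hσ = ...` in the group `G.pointGroup (𝟙 _)`.
-/
import Mathlib
import Fermat.Agent.S26lib.Prod.Shear
import Fermat.Agent.S26lib.VarSch.Push

set_option autoImplicit false
set_option linter.unusedSectionVars false

noncomputable section

universe u

open CategoryTheory CategoryTheory.Limits AlgebraicGeometry NeronModelInfra GoodReductionJacobian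

namespace Fermat.Agent.S26lib.Prod

variable {K : Type u} [Field K] {A : Scheme.{u}} {f : A ⟶ Spec (CommRingCat.of K)}
  (G : RelativeGroupLaw K f)

/-! ### the two extra maps -/

/-- `(x, z) ↦ 2x + z` -/
def dblAddHom : A2 f ⟶ A := (G.mul (f2 f) (G.mul (f2 f) (pt1 f) (pt1 f)) (pt2 f)).1

/-- `(x, z) ↦ x + 2z` -/
def addDblHom : A2 f ⟶ A := (G.mul (f2 f) (G.mul (f2 f) (pt1 f) (pt2 f)) (pt2 f)).1

theorem dblAddHom_comp : dblAddHom G ≫ f = f2 f :=
  (G.mul (f2 f) (G.mul (f2 f) (pt1 f) (pt1 f)) (pt2 f)).2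

theorem addDblHom_comp : addDblHom G ≫ f = f2 f :=
  (G.mul (f2 f) (G.mul (f2 f) (pt1 f) (pt2 f)) (pt2 f)).2

theorem sig13_comp : sig13 G ≫ f = f3 f := (G.mul (f3 f) (q1 f) (q3 f)).2

theorem sig23_comp : sig23 G ≫ f = f3 f := (G.mul (f3 f) (q2 f) (q3 f)).2

theorem sigM_comp : sigM G ≫ f = f3 f :=
  (G.mul (f3 f) (q3 f) (G.inv (f3 f) (G.mul (f3 f) (q1 f) (q2 f)))).2

theorem pr3_comp : (pr3 : A3 f ⟶ A) ≫ f = f3 f := (q3 f).2

theorem fst_comp : pullback.fst f f ≫ f = f2 f := rfl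

theorem snd_comp : pullback.snd f f ≫ f = f2 f := (pt2 f).2

section Pts

variable {T : Scheme.{u}} {t : T ⟶ Spec (CommRingCat.of K)}

theorem pair_dblAddHom (x y : SchemeHomOver t f) :
    pair x y ≫ dblAddHom G = (G.mul t (G.mul t x x) y).1 := by
  rw [dblAddHom, comp_coe (pair x y) (pair_f2 x y), pull_mul, pull_mul, pull_pair_pt1,
    pull_pair_pt2]

theorem pair_addDblHom (x y : SchemeHomOver t f) :
    pair x y ≫ addDblHom G = (G.mul t (G.mul t x y) y).1 := by
  rw [addDblHom, comp_coe (pair x y) (pair_f2 x y), pull_mul, pull_mul, pull_pair_pt1,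
    pull_pair_pt2]

end Pts

/-! ### the swap -/

/-- `(x, z) ↦ (z, x)` -/
def swap2 : A2 f ⟶ A2 f := pair (pt2 f) (pt1 f)

theorem swap2_f2 : swap2 (f := f) ≫ f2 f = f2 f := pair_f2 _ _

theorem pull_swap2_pt1 : pullP (swap2 (f := f)) swap2_f2 (pt1 f) = pt2 f := pull_pair_pt1 _ _

theorem pull_swap2_pt2 : pullP (swap2 (f := f)) swap2_f2 (pt2 f) = pt1 f := pull_pair_pt2 _ _

theorem swap2_swap2 : swap2 (f := f) ≫ swap2 = 𝟙 _ := by
  rw [swap2, comp_pair (pair (pt2 f) (pt1 f)) (pair_f2 _ _), pull_pair_pt1, pull_pair_pt2]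
  apply A2_hom_ext
  · erw [pair_fst]; exact (Category.id_comp _).symm
  · erw [pair_snd]; exact (Category.id_comp _).symm

instance : IsIso (swap2 (f := f)) := ⟨swap2, swap2_swap2, swap2_swap2⟩

/-! ### the presentations `automorphism ≫ projection` -/

theorem coordA_eq_pt2 : coordA (f := f) f = pt2 f := rfl

theorem liftX_idPt : liftX f (NMul.idPt f) = pt1 f := Subtype.ext (Category.comp_id _)

theorem coordA_eq_q3 : coordA (f := f) (f2 f) = q3 f := rfl

theorem liftX_pt1 : liftX (f := f) (f2 f) (pt1 f) = q1 f := rfl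

theorem liftX_pt2 : liftX (f := f) (f2 f) (pt2 f) = q2 f := rfl

variable (hc : G.IsCommutative)

include hc

omit hc in
theorem shearSnd_idPt :
    shearSnd G f (NMul.idPt f) = G.mul (f2 f) (pt2 f) (pt1 f) := by
  show G.mul (f2 f) (pt2 f) (liftX f (NMul.idPt f)) = _
  rw [liftX_idPt]

omit hc in
theorem shearSnd_dbl :
    shearSnd G f (G.mul f (NMul.idPt f) (NMul.idPt f)) =
      G.mul (f2 f) (pt2 f) (G.mul (f2 f) (pt1 f) (pt1 f)) := by
  show G.mul (f2 f) (pt2 f) (liftX f (G.mul f (NMul.idPt f) (NMul.idPt f))) = _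
  rw [liftX_mul, liftX_idPt]
  rfl

omit hc in
theorem shearSnd_inv :
    shearSnd G f (G.inv f (NMul.idPt f)) = G.mul (f2 f) (pt2 f) (G.inv (f2 f) (pt1 f)) := by
  show G.mul (f2 f) (pt2 f) (liftX f (G.inv f (NMul.idPt f))) = _
  rw [liftX_inv, liftX_idPt]
  rfl

omit hc in
theorem shearSnd_pt1 : shearSnd G (f2 f) (pt1 f) = G.mul (f3 f) (q3 f) (q1 f) := rfl

omit hc in
theorem shearSnd_pt2 : shearSnd G (f2 f) (pt2 f) = G.mul (f3 f) (q3 f) (q2 f) := rfl

omit hc in
theorem shearSnd_invMul :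
    shearSnd G (f2 f) (G.inv (f2 f) (G.mul (f2 f) (pt1 f) (pt2 f))) =
      G.mul (f3 f) (q3 f) (G.inv (f3 f) (G.mul (f3 f) (q1 f) (q2 f))) := by
  show G.mul (f3 f) (q3 f) (liftX (f2 f) (G.inv (f2 f) (G.mul (f2 f) (pt1 f) (pt2 f)))) = _
  rw [liftX_inv, liftX_mul]
  rfl

theorem addHom_eq_shear : addHom G = (shearSnd G f (NMul.idPt f)).1 := by
  rw [shearSnd_idPt, hc (f2 f) (pt2 f) (pt1 f)]
  rfl

theorem dblAddHom_eq_shear :
    dblAddHom G = (shearSnd G f (G.mul f (NMul.idPt f) (NMul.idPt f))).1 := by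
  rw [shearSnd_dbl, hc (f2 f) (pt2 f)]
  rfl

omit hc in
theorem subHom_eq_shear :
    subHom G = swap2 ≫ (shearSnd G f (G.inv f (NMul.idPt f))).1 := by
  rw [shearSnd_inv, comp_coe swap2 swap2_f2, pull_mul, pull_inv, pull_swap2_pt1, pull_swap2_pt2]
  rfl

omit hc in
theorem addDblHom_eq_shear :
    addDblHom G = swap2 ≫ (shearSnd G f (G.mul f (NMul.idPt f) (NMul.idPt f))).1 := by
  rw [shearSnd_dbl, comp_coe swap2 swap2_f2, pull_mul, pull_mul, pull_swap2_pt1, pull_swap2_pt2,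
    ← G.mul_assoc]
  rfl

theorem sig13_eq_shear : sig13 G = (shearSnd G (f2 f) (pt1 f)).1 := by
  rw [shearSnd_pt1, hc _ (q3 f) (q1 f)]
  rfl

theorem sig23_eq_shear : sig23 G = (shearSnd G (f2 f) (pt2 f)).1 := by
  rw [shearSnd_pt2, hc _ (q3 f) (q2 f)]
  rfl

omit hc in
theorem sigM_eq_shear :
    sigM G = (shearSnd G (f2 f) (G.inv (f2 f) (G.mul (f2 f) (pt1 f) (pt2 f)))).1 := by
  rw [shearSnd_invMul]
  rfl

/-! ### the good maps -/

section Good

variable [IsAlgClosed K] [LocallyOfFiniteType f] [IsIntegral A]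

section A2

variable [IsIntegral (A2 f)] [IsLocallyNoetherian (A2 f)]
  (hufd2 : ∀ p : ↥(A2 f), UniqueFactorizationMonoid ((A2 f).presheaf.stalk p))

include hufd2

omit hc in
theorem goodMap_fstA : GoodMap (pullback.fst f f) := goodMap_fst f f hufd2

omit hc in
theorem goodMap_sndA : GoodMap (pullback.snd f f) := goodMap_snd f f hufd2

theorem goodMap_addHom : GoodMap (addHom G) := by
  rw [addHom_eq_shear G hc]
  exact goodMap_shearSnd G f hufd2 _

theorem goodMap_dblAddHom : GoodMap (dblAddHom G) := by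
  rw [dblAddHom_eq_shear G hc]
  exact goodMap_shearSnd G f hufd2 _

omit hc in
theorem goodMap_subHom : GoodMap (subHom G) := by
  rw [subHom_eq_shear G]
  exact (GoodMap.of_isIso swap2).comp (goodMap_shearSnd G f hufd2 _)

omit hc in
theorem goodMap_addDblHom : GoodMap (addDblHom G) := by
  rw [addDblHom_eq_shear G]
  exact (GoodMap.of_isIso swap2).comp (goodMap_shearSnd G f hufd2 _)

end A2

section A3

variable [IsIntegral (A2 f)] [LocallyOfFiniteType (f2 f)] [IsIntegral (A3 f)]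
  [IsLocallyNoetherian (A3 f)]
  (hufd3 : ∀ p : ↥(A3 f), UniqueFactorizationMonoid ((A3 f).presheaf.stalk p))

include hufd3

omit hc in
theorem goodMap_pr3 : GoodMap (pr3 : A3 f ⟶ A) := goodMap_snd (f2 f) f hufd3

omit hc in
theorem goodMap_p12 : GoodMap (p12 f) := goodMap_fst (f2 f) f hufd3

theorem goodMap_sig13 : GoodMap (sig13 G) := by
  rw [sig13_eq_shear G hc]
  exact goodMap_shearSnd G (f2 f) hufd3 _

theorem goodMap_sig23 : GoodMap (sig23 G) := by
  rw [sig23_eq_shear G hc]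
  exact goodMap_shearSnd G (f2 f) hufd3 _

omit hc in
theorem goodMap_sigM : GoodMap (sigM G) := by
  rw [sigM_eq_shear G]
  exact goodMap_shearSnd G (f2 f) hufd3 _

end A3

end Good

end Fermat.Agent.S26lib.Prod
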