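/-
S26lib / Prod / MapModel (helper6, Project K).

**`MapModel.ofGoodMap`** : helper2's abstract `Para.MapModel` for a good map (`GoodMap`)
`σ : X ⟶ Y` of locally factorial varieties over an algebraically closed field `K`, between
helper4's models `VarSch.ofScheme`.

* the comorphism is helper4's `VarSch.ffAlgHom σ hσ : K(Y) →ₐ[K] K(X)`;
* `mem_nhds_of_isConstructible` : a constructible set containing the generic point of an irreducible
  space is a neighbourhood of it; `exists_open_subset_image` (Chevalley);
* `thin_compl_image_aux` : the rational points of `Y` which are not images of rational points of a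
  closed irreducible subset dominating `Y` lie in a proper closed subset;
* `MapModel.ofGoodMap`.
-/
import Mathlib
import Fermat.Agent.S26lib.Prod.GoodMap
import Fermat.Agent.S26lib.VarSch.Push
import Fermat.Agent.S26lib.VarSch.FFun

set_option autoImplicit false
set_option linter.unusedSectionVars false

noncomputable section

universe u

open CategoryTheory CategoryTheory.Limits AlgebraicGeometry TopologicalSpace IsLocalRing Topology
  Fermat.Agent.S26lib.Quad Fermat.Agent.S26lib.Weil

namespace Fermat.Agent.S26lib.Prod

/-! ### the comorphism (compatibility name) -/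

section Alg

variable {K : Type u} [Field K] {X Y : Scheme.{u}} [IsIntegral X] [IsIntegral Y]
  {fX : X ⟶ Spec (CommRingCat.of K)} {fY : Y ⟶ Spec (CommRingCat.of K)}

/-- (compatibility) the former name of the comorphism of a dominant `K`-morphism: it IS helper4's
`VarSch.ffAlgHom` (reducibly) -/
abbrev ffMapAlg (σ : X ⟶ Y) [IsDominant σ] (hσ : σ ≫ fY = fX) :
    letI := kAlgebraFF fX
    letI := kAlgebraFF fY
    Y.functionField →ₐ[K] X.functionField :=
  VarSch.ffAlgHom σ hσ

end Alg

/-! ### Chevalley -/

section Chev

/-- a constructible subset of a topological space is a neighbourhood of a generic point it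
contains, and its complement is a neighbourhood of a generic point it does not contain -/
theorem mem_nhds_or_of_isConstructible {T : Type*} [TopologicalSpace T] {η : T}
    (hη : IsGenericPoint η (Set.univ : Set T)) {s : Set T} (hs : IsConstructible s) :
    (η ∈ s → s ∈ 𝓝 η) ∧ (η ∉ s → sᶜ ∈ 𝓝 η) := by
  induction hs using IsConstructible.empty_union_induction with
  | open_retrocompact U hU _ =>
    refine ⟨fun h => hU.mem_nhds h, fun h => ?_⟩
    have : U = ∅ := by
      by_contra hne
      have hne' : U.Nonempty := Set.nonempty_iff_ne_empty.mpr hne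
      exact h ((hη.mem_open_set_iff hU).mpr (by simpa using hne'))
    rw [this, Set.compl_empty]
    exact Filter.univ_mem
  | union s hs t ht ihs iht =>
    refine ⟨fun h => ?_, fun h => ?_⟩
    · rcases h with h | h
      · exact Filter.mem_of_superset (ihs.1 h) Set.subset_union_left
      · exact Filter.mem_of_superset (iht.1 h) Set.subset_union_right
    · rw [Set.compl_union]
      exact Filter.inter_mem (ihs.2 fun h' => h (Or.inl h')) (iht.2 fun h' => h (Or.inr h'))
  | compl s hs ih =>
    refine ⟨fun h => ih.2 h, fun h => ?_⟩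
    rw [compl_compl]
    exact ih.1 (not_not.mp h)

variable {X Y : Scheme.{u}} [IsIntegral Y] [IsNoetherian X] [IsNoetherian Y]

/-- **Chevalley**: the image of a closed subset which dominates `Y` contains a non-empty open
subset of `Y` -/
theorem exists_open_subset_image (σ : X ⟶ Y) [LocallyOfFiniteType σ] (W : X)
    (hW : σ W = genericPoint Y) :
    ∃ U : Set Y, IsOpen U ∧ genericPoint Y ∈ U ∧ U ⊆ σ '' closure {W} := by
  have hc : IsConstructible (closure {W} : Set X) := by
    rw [← isConstructible_compl]
    refine IsRetrocompact.isConstructible isClosed_closure.isOpen_compl ?_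
    intro V _ _
    exact NoetherianSpace.isCompact _
  have hi : IsConstructible (σ '' closure {W}) := σ.isConstructible_image hc
  have hmem : genericPoint Y ∈ σ '' closure {W} := ⟨W, subset_closure rfl, hW⟩
  have hn := (mem_nhds_or_of_isConstructible (genericPoint_spec Y) hi).1 hmem
  obtain ⟨U, hUs, hUo, hηU⟩ := mem_nhds_iff.mp hn
  exact ⟨U, hUo, hηU, hUs⟩

end Chev

/-! ### the map model -/

section Model

open VarSch

variable {K : Type u} [Field K] [IsAlgClosed K] {X Y : Scheme.{u}} [IsIntegral X] [IsIntegral Y]
  [IsNoetherian X] [IsNoetherian Y]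
  {fX : X ⟶ Spec (CommRingCat.of K)} {fY : Y ⟶ Spec (CommRingCat.of K)}
  [LocallyOfFiniteType fX] [LocallyOfFiniteType fY]

/-- rational points are determined by their underlying points -/
theorem kPt_ext {f : X ⟶ Spec (CommRingCat.of K)} [LocallyOfFiniteType f] {a b : KPt f}
    (h : a.pt = b.pt) : a = b :=
  (pointEquivClosedPoint f).injective (Subtype.ext h)

/-- the rational points of `Y` which are not images of rational points of a closed irreducible
subset dominating `Y` lie in a proper closed subset -/
theorem thin_compl_image_aux (σ : X ⟶ Y) (hσ : σ ≫ fY = fX) (W : X)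
    (hW : σ W = genericPoint Y) :
    ThinAt (genericPoint Y) {y : KPt fY | ∀ q : KPt fX, W ⤳ q.pt → q.push σ hσ ≠ y} := by
  haveI : LocallyOfFiniteType (σ ≫ fY) := by rw [hσ]; infer_instance
  haveI : LocallyOfFiniteType σ := locallyOfFiniteType_of_comp σ fY
  obtain ⟨U, hUo, hηU, hUs⟩ := exists_open_subset_image σ W hW
  refine ⟨Uᶜ, hUo.isClosed_compl, fun h => h hηU, fun y hy hyU => ?_⟩
  obtain ⟨x, hxW, hxy⟩ := hUs hyU
  -- the fibre over `y` inside `closure {W}` is closed and non-empty
  have hcl : IsClosed (closure {W} ∩ σ ⁻¹' {y.pt}) :=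
    isClosed_closure.inter ((isClosed_singleton_pt y).preimage σ.continuous)
  obtain ⟨q, hq⟩ := exists_kpt_mem_of_isLocallyClosed (f := fX) hcl.isLocallyClosed ⟨x, hxW, hxy⟩
  refine hy q (specializes_iff_mem_closure.mpr hq.1) (kPt_ext ?_)
  exact hq.2

variable (hUX : ∀ x : X, UniqueFactorizationMonoid (X.presheaf.stalk x))
  (hUY : ∀ y : Y, UniqueFactorizationMonoid (Y.presheaf.stalk y))

/-- **the `MapModel` of a good map** -/
def MapModel.ofGoodMap (σ : X ⟶ Y) (hσ : σ ≫ fY = fX) (h : GoodMap σ) :
    letI := kAlgebraFF fX
    letI := kAlgebraFF fY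
    haveI := h.isDominant
    Para.MapModel (ofScheme fX hUX) (ofScheme fY hUY) (ffAlgHom σ hσ) (KPt.push σ hσ) :=
  letI := kAlgebraFF fX
  letI := kAlgebraFF fY
  haveI := h.isDominant
  have hother : ∀ W : PrimeDiv X, W ∉ Set.range h.pull → σ W.1 = genericPoint Y := by
    intro W hW
    by_contra hne
    exact hW (h.exists_pull_eq (isIntegrallyClosed_of_ufm hUY) W hne)
  { pull := h.pull
    pull_injective := h.pull_injective
    ord_pull := fun Z y => h.ordAt_pull Z y
    ord_other := fun W hW y hy => h.ordAt_eq_zero_of_dominant W (hother W hW) hy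
    thr_pull := fun Z q => h.pull_specializes_iff Z q.pt
    ev_map := fun q y hy =>
      ev_ffMap σ hσ q ((ofScheme_reg_iff fY hUY (q.push σ hσ) y).mp hy)
    thin_preimage := by
      rintro T ⟨Z, hZc, hηZ, hTZ⟩
      refine ⟨σ ⁻¹' Z, hZc.preimage σ.continuous, ?_, fun a ha => hTZ _ ha⟩
      show σ (genericPoint X) ∉ Z
      rw [FinMap.map_genericPoint σ]
      exact hηZ
    thinIn_preimage := by
      rintro W hW T ⟨Z, hZc, hηZ, hTZ⟩
      refine ⟨σ ⁻¹' Z, hZc.preimage σ.continuous, ?_, fun a ha => hTZ _ ha.2⟩
      show σ W.1 ∉ Z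
      rw [hother W hW]
      exact hηZ
    thin_compl_image := fun W hW => thin_compl_image_aux σ hσ W.1 (hother W hW) }

end Model

end Fermat.Agent.S26lib.Prod
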