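/-
S26lib / Prod / ParaPts (helper6, Project K).

**Rational points of `A²`, `A³` and the action of the eleven maps of `ParaData` on them.**

* `kPt2Equiv : KPt (f2 f) ≃ KPt f × KPt f`, `kPt3Equiv : KPt (f3 f) ≃ KPt f × KPt f × KPt f`
  (`KPt = VarSch.KPt`, helper4's rational points);
* `push_eq_pullP` : `a.push x.1 x.2 = pullP a.1 a.2 x`;
* `push_*_symm` : the image of `kPt2Equiv.symm (x, z)` / `kPt3Equiv.symm (x, z, y)` under each of
  the eleven maps, in terms of `G.mul (𝟙 _)`, `G.inv (𝟙 _)`.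
-/
import Mathlib
import Fermat.Agent.S26lib.Prod.ParaMaps

set_option autoImplicit false
set_option linter.unusedSectionVars false

noncomputable section

universe u

open CategoryTheory CategoryTheory.Limits AlgebraicGeometry NeronModelInfra GoodReductionJacobian

namespace Fermat.Agent.S26lib.Prod

variable {K : Type u} [Field K] {A : Scheme.{u}} {f : A ⟶ Spec (CommRingCat.of K)}
  (G : RelativeGroupLaw K f)

/-- pushing a rational point along (the morphism underlying) a `T`-point = base change -/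
theorem push_eq_pullP {X : Scheme.{u}} {sX : X ⟶ Spec (CommRingCat.of K)}
    (x : SchemeHomOver sX f) (a : VarSch.KPt sX) :
    VarSch.KPt.push x.1 x.2 a = pullP a.1 a.2 x := rfl

variable (f) in
/-- the rational points of `A²` -/
def kPt2Equiv : VarSch.KPt (f2 f) ≃ VarSch.KPt f × VarSch.KPt f where
  toFun a := (pullP a.1 a.2 (pt1 f), pullP a.1 a.2 (pt2 f))
  invFun p := ⟨pair p.1 p.2, pair_f2 p.1 p.2⟩
  left_inv a := Subtype.ext (pair_eta a.1 a.2)
  right_inv p := Prod.ext (pull_pair_pt1 _ _) (pull_pair_pt2 _ _)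

variable (f) in
/-- the rational points of `A³` -/
def kPt3Equiv : VarSch.KPt (f3 f) ≃ VarSch.KPt f × VarSch.KPt f × VarSch.KPt f where
  toFun a := (pullP a.1 a.2 (q1 f), pullP a.1 a.2 (q2 f), pullP a.1 a.2 (q3 f))
  invFun p := ⟨triple p.1 p.2.1 p.2.2, triple_f3 p.1 p.2.1 p.2.2⟩
  left_inv a := Subtype.ext (triple_eta a.1 a.2)
  right_inv p := Prod.ext (pull_triple_q1 _ _ _)
    (Prod.ext (pull_triple_q2 _ _ _) (pull_triple_q3 _ _ _))

theorem kPt2Equiv_apply (a : VarSch.KPt (f2 f)) :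
    kPt2Equiv f a = (a.push (pullback.fst f f) fst_comp, a.push (pullback.snd f f) snd_comp) :=
  rfl

theorem kPt2Equiv_symm_coe (x z : VarSch.KPt f) : ((kPt2Equiv f).symm (x, z)).1 = pair x z := rfl

theorem kPt3Equiv_symm_coe (x z y : VarSch.KPt f) :
    ((kPt3Equiv f).symm (x, z, y)).1 = triple x z y := rfl

section A2

variable (x z : VarSch.KPt f)

theorem push_fst_symm :
    ((kPt2Equiv f).symm (x, z)).push (pullback.fst f f) fst_comp = x :=
  Subtype.ext (pair_fst x z)

theorem push_snd_symm :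
    ((kPt2Equiv f).symm (x, z)).push (pullback.snd f f) snd_comp = z :=
  Subtype.ext (pair_snd x z)

theorem push_addHom_symm :
    ((kPt2Equiv f).symm (x, z)).push (addHom G) (addHom_comp G) = G.mul (𝟙 _) x z :=
  Subtype.ext (pair_addHom G x z)

theorem push_subHom_symm :
    ((kPt2Equiv f).symm (x, z)).push (subHom G) (subHom_comp G) =
      G.mul (𝟙 _) x (G.inv (𝟙 _) z) :=
  Subtype.ext (pair_subHom G x z)

theorem push_dblAddHom_symm :
    ((kPt2Equiv f).symm (x, z)).push (dblAddHom G) (dblAddHom_comp G) =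
      G.mul (𝟙 _) (G.mul (𝟙 _) x x) z :=
  Subtype.ext (pair_dblAddHom G x z)

theorem push_addDblHom_symm :
    ((kPt2Equiv f).symm (x, z)).push (addDblHom G) (addDblHom_comp G) =
      G.mul (𝟙 _) (G.mul (𝟙 _) x z) z :=
  Subtype.ext (pair_addDblHom G x z)

end A2

section A3

variable (x z y : VarSch.KPt f)

theorem push_pr3_symm :
    ((kPt3Equiv f).symm (x, z, y)).push (pr3 : A3 f ⟶ A) pr3_comp = y :=
  Subtype.ext (triple_pr3 x z y)

theorem push_sig13_symm :
    ((kPt3Equiv f).symm (x, z, y)).push (sig13 G) (sig13_comp G) = G.mul (𝟙 _) x y :=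
  Subtype.ext (triple_sig13 G x z y)

theorem push_sig23_symm :
    ((kPt3Equiv f).symm (x, z, y)).push (sig23 G) (sig23_comp G) = G.mul (𝟙 _) z y :=
  Subtype.ext (triple_sig23 G x z y)

theorem push_sigM_symm :
    ((kPt3Equiv f).symm (x, z, y)).push (sigM G) (sigM_comp G) =
      G.mul (𝟙 _) y (G.inv (𝟙 _) (G.mul (𝟙 _) x z)) :=
  Subtype.ext (triple_sigM G x z y)

theorem push_p12_symm :
    ((kPt3Equiv f).symm (x, z, y)).push (p12 f) (p12_f2 f) = (kPt2Equiv f).symm (x, z) :=
  Subtype.ext (triple_p12 x z y)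

end A3

end Fermat.Agent.S26lib.Prod
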