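/-
S26lib / Prod / ThinProd (helper6, Project K).

* **`thinAt_prod`** (Fubini for thin sets): if `T ⊆ (X × Y)(K)` lies in a proper closed subset, then
  the set of `x ∈ X(K)` whose slice `{y | (x, y) ∈ T}` is NOT contained in a proper closed subset of
  `Y` is contained in a proper closed subset of `X`;  `thinAt_prod_A` : the same for `A²` and
  `kPt2Equiv` (= the field `thin_prod` of helper2's `ParaData`);
* `isPullback_sliceR`, `range_sliceR : range (sliceR a) = pr₁⁻¹ {a}`,
  **`isGenericPoint_sliceR`** : `sliceR a η_Y` is the generic point of `pr₁⁻¹ (closure {a})`,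
  and the same for `sliceL`.
-/
import Mathlib
import Fermat.Agent.S26lib.Prod.ParaPts

set_option autoImplicit false
set_option linter.unusedSectionVars false

noncomputable section

universe u

open CategoryTheory CategoryTheory.Limits AlgebraicGeometry NeronModelInfra GoodReductionJacobian
  TopologicalSpace

namespace Fermat.Agent.S26lib.Prod

variable {K : Type u} [Field K] {X Y : Scheme.{u}}
  (sX : X ⟶ Spec (CommRingCat.of K)) (sY : Y ⟶ Spec (CommRingCat.of K))

/-! ### slices are fibres -/

theorem isPullback_sliceR (a : KPt sX) :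
    IsPullback (sliceR sX sY a) sY (pullback.fst sX sY) a.1 := by
  have t : IsPullback (pullback.snd sX sY) (pullback.fst sX sY) sY sX :=
    (IsPullback.of_hasPullback sX sY).flip
  have h : IsPullback (sliceR sX sY a ≫ pullback.snd sX sY) sY sY (a.1 ≫ sX) := by
    rw [sliceR_snd, a.2]
    exact IsPullback.id_horiz sY
  exact IsPullback.of_right h (sliceR_fst sX sY a) t

theorem isPullback_sliceL (b : KPt sY) :
    IsPullback (sliceL sX sY b) sX (pullback.snd sX sY) b.1 := by
  have t : IsPullback (pullback.fst sX sY) (pullback.snd sX sY) sX sY :=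
    IsPullback.of_hasPullback sX sY
  have h : IsPullback (sliceL sX sY b ≫ pullback.fst sX sY) sX sX (b.1 ≫ sY) := by
    rw [sliceL_fst, b.2]
    exact IsPullback.id_horiz sX
  exact IsPullback.of_right h (sliceL_snd sX sY b) t

theorem range_sliceR (a : KPt sX) :
    Set.range (sliceR sX sY a) = (pullback.fst sX sY) ⁻¹' {a.pt} := by
  have h := Scheme.image_preimage_eq_of_isPullback (isPullback_sliceR sX sY a).flip Set.univ
  rw [Set.preimage_univ, Set.image_univ, Set.image_univ] at h
  rw [← KPt.range_eq a]
  exact h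

theorem range_sliceL (b : KPt sY) :
    Set.range (sliceL sX sY b) = (pullback.snd sX sY) ⁻¹' {b.pt} := by
  have h := Scheme.image_preimage_eq_of_isPullback (isPullback_sliceL sX sY b).flip Set.univ
  rw [Set.preimage_univ, Set.image_univ, Set.image_univ] at h
  rw [← KPt.range_eq b]
  exact h

/-- **`sliceR a η_Y` is the generic point of `pr₁⁻¹ (closure {a})`** -/
theorem isGenericPoint_sliceR [IrreducibleSpace Y] (a : KPt sX) :
    IsGenericPoint (sliceR sX sY a (genericPoint Y))
      ((pullback.fst sX sY) ⁻¹' closure {a.pt}) := by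
  rw [(KPt.isClosed_pt a).closure_eq, ← range_sliceR]
  have hcl : IsClosed (Set.range (sliceR sX sY a)) := by
    rw [range_sliceR]
    exact (KPt.isClosed_pt a).preimage (pullback.fst sX sY).continuous
  apply subset_antisymm
  · exact hcl.closure_subset_iff.mpr (Set.singleton_subset_iff.mpr ⟨_, rfl⟩)
  · rintro _ ⟨y, rfl⟩
    have hy : y ∈ closure ({genericPoint Y} : Set Y) := by
      rw [(genericPoint_spec Y).def]; trivial
    have := image_closure_subset_closure_image (sliceR sX sY a).continuous ⟨y, hy, rfl⟩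
    rwa [Set.image_singleton] at this

/-- **`sliceL b η_X` is the generic point of `pr₂⁻¹ (closure {b})`** -/
theorem isGenericPoint_sliceL [IrreducibleSpace X] (b : KPt sY) :
    IsGenericPoint (sliceL sX sY b (genericPoint X))
      ((pullback.snd sX sY) ⁻¹' closure {b.pt}) := by
  rw [(KPt.isClosed_pt b).closure_eq, ← range_sliceL]
  have hcl : IsClosed (Set.range (sliceL sX sY b)) := by
    rw [range_sliceL]
    exact (KPt.isClosed_pt b).preimage (pullback.snd sX sY).continuous
  apply subset_antisymm
  · exact hcl.closure_subset_iff.mpr (Set.singleton_subset_iff.mpr ⟨_, rfl⟩)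
  · rintro _ ⟨x, rfl⟩
    have hx : x ∈ closure ({genericPoint X} : Set X) := by
      rw [(genericPoint_spec X).def]; trivial
    have := image_closure_subset_closure_image (sliceL sX sY b).continuous ⟨x, hx, rfl⟩
    rwa [Set.image_singleton] at this

/-! ### Fubini for thin sets -/

section Thin

variable [IsAlgClosed K] [LocallyOfFiniteType sX] [LocallyOfFiniteType sY]
  [IrreducibleSpace X] [IrreducibleSpace Y] [IrreducibleSpace ↥(pullback sX sY)]

/-- a closed subset which contains the generic point is everything -/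
theorem eq_univ_of_genericPoint_mem {T : Type*} [TopologicalSpace T] [IrreducibleSpace T]
    [QuasiSober T] {Z : Set T} (hZ : IsClosed Z) (h : genericPoint T ∈ Z) (t : T) : t ∈ Z :=
  hZ.closure_subset_iff.mpr (Set.singleton_subset_iff.mpr h)
    (specializes_iff_mem_closure.mp (genericPoint_specializes t))

/-- **Fubini for thin sets** -/
theorem thinAt_prod (T : Set (VarSch.KPt (sProd sX sY)))
    (hT : VarSch.ThinAt (genericPoint ↥(pullback sX sY)) T) :
    VarSch.ThinAt (genericPoint X) {x : VarSch.KPt sX |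
      ¬ VarSch.ThinAt (genericPoint Y) {y : VarSch.KPt sY | pairK sX sY x y ∈ T}} := by
  obtain ⟨Z, hZc, hηZ, hTZ⟩ := hT
  -- a rational point outside `Z`
  obtain ⟨c, hc⟩ := KPt.exists_kPt_mem_of_isLocallyClosed (sProd sX sY)
    hZc.isOpen_compl.isLocallyClosed ⟨_, hηZ⟩
  obtain ⟨x₀, y₀, rfl⟩ : ∃ x₀ y₀, pairK sX sY x₀ y₀ = c :=
    ⟨_, _, pairK_eta sX sY c⟩
  refine ⟨(sliceL sX sY y₀) ⁻¹' Z, hZc.preimage (sliceL sX sY y₀).continuous, fun hη => ?_,
    fun x hx => ?_⟩
  · apply hc
    have := eq_univ_of_genericPoint_mem (hZc.preimage (sliceL sX sY y₀).continuous) hη x₀.pt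
    rwa [Set.mem_preimage, sliceL_apply_pt] at this
  · by_contra hxZ
    apply hx
    have e1 : sliceL sX sY y₀ (VarSch.KPt.pt x) = (pairK sX sY x y₀).pt :=
      sliceL_apply_pt sX sY x y₀
    have hxy₀ : (pairK sX sY x y₀).pt ∉ Z := by
      rwa [Set.mem_preimage, e1] at hxZ
    refine ⟨(sliceR sX sY x) ⁻¹' Z, hZc.preimage (sliceR sX sY x).continuous, fun hη => ?_,
      fun y hy => ?_⟩
    · apply hxy₀
      have := eq_univ_of_genericPoint_mem (hZc.preimage (sliceR sX sY x).continuous) hη y₀.pt
      rwa [Set.mem_preimage, sliceR_apply_pt] at this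
    · have e2 : sliceR sX sY x (VarSch.KPt.pt y) = (pairK sX sY x y).pt :=
        sliceR_apply_pt sX sY x y
      show sliceR sX sY x (VarSch.KPt.pt y) ∈ Z
      rw [e2]
      exact hTZ _ hy

end Thin

/-! ### the case of `A²` -/

section A2

variable {A : Scheme.{u}} (f : A ⟶ Spec (CommRingCat.of K))

theorem kPt2Equiv_symm_eq_pairK (x z : VarSch.KPt f) :
    (kPt2Equiv f).symm (x, z) = pairK f f x z := rfl

variable [IsAlgClosed K] [LocallyOfFiniteType f] [IrreducibleSpace A] [IrreducibleSpace ↥(A2 f)]

/-- **`ParaData.thin_prod`** -/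
theorem thinAt_prod_A (T : Set (VarSch.KPt (f2 f)))
    (hT : VarSch.ThinAt (genericPoint ↥(A2 f)) T) :
    VarSch.ThinAt (genericPoint A) {x : VarSch.KPt f |
      ¬ VarSch.ThinAt (genericPoint A) {z : VarSch.KPt f | (kPt2Equiv f).symm (x, z) ∈ T}} :=
  thinAt_prod f f T hT

end A2

end Fermat.Agent.S26lib.Prod
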