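/-
S26lib / Prod / MapInputs (helper6, Project K, bridge (P5c)).

**The scheme-side inputs of helper2's assembly `ParaData.ofScheme`**: the `MapModel`s of the eleven
maps between `A`, `A²`, `A³` (`VarSch.ofSmooth` models, comorphisms `VarSch.ffAlgHom`, points
`VarSch.KPt.push`), and Fubini for thin sets.
-/
import Mathlib
import Fermat.Agent.S26lib.Prod.MapModel
import Fermat.Agent.S26lib.Prod.ThinProd
import Fermat.Agent.S26lib.Para.OfScheme

set_option autoImplicit false
set_option linter.unusedSectionVars false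

noncomputable section

universe u

open CategoryTheory CategoryTheory.Limits AlgebraicGeometry NeronModelInfra GoodReductionJacobian

namespace Fermat.Agent.S26lib.Prod

variable {K : Type u} [Field K] [IsAlgClosed K] {A : Scheme.{u}}
  {f : A ⟶ Spec (CommRingCat.of K)}
  [IsIntegral A] [IsNoetherian A] [IsIntegral (A2 f)] [IsNoetherian (A2 f)]
  [IsIntegral (A3 f)] [IsNoetherian (A3 f)] [Smooth f]
  (L : RelativeGroupLaw K f) (hc : L.IsCommutative)

/-- the model of a good map `A² ⟶ A` -/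
def mapModelA2 (σ : A2 f ⟶ A) [IsDominant σ] (hσ : σ ≫ f = f2 f) (h : GoodMap σ) :
    letI := kAlgebraFF f
    letI := kAlgebraFF (f2 f)
    Para.MapModel (VarSch.ofSmooth (f2 f)) (VarSch.ofSmooth f) (VarSch.ffAlgHom σ hσ)
      (VarSch.KPt.push σ hσ) :=
  MapModel.ofGoodMap (fun x => UFD.ufm_stalk_of_smooth (f2 f) x)
    (fun x => UFD.ufm_stalk_of_smooth f x) σ hσ h

/-- the model of a good map `A³ ⟶ A` -/
def mapModelA3 (σ : A3 f ⟶ A) [IsDominant σ] (hσ : σ ≫ f = f3 f) (h : GoodMap σ) :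
    letI := kAlgebraFF f
    letI := kAlgebraFF (f3 f)
    Para.MapModel (VarSch.ofSmooth (f3 f)) (VarSch.ofSmooth f) (VarSch.ffAlgHom σ hσ)
      (VarSch.KPt.push σ hσ) :=
  MapModel.ofGoodMap (fun x => UFD.ufm_stalk_of_smooth (f3 f) x)
    (fun x => UFD.ufm_stalk_of_smooth f x) σ hσ h

/-- the model of a good map `A³ ⟶ A²` -/
def mapModelA32 (σ : A3 f ⟶ A2 f) [IsDominant σ] (hσ : σ ≫ f2 f = f3 f) (h : GoodMap σ) :
    letI := kAlgebraFF (f2 f)
    letI := kAlgebraFF (f3 f)
    Para.MapModel (VarSch.ofSmooth (f3 f)) (VarSch.ofSmooth (f2 f)) (VarSch.ffAlgHom σ hσ)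
      (VarSch.KPt.push σ hσ) :=
  MapModel.ofGoodMap (fun x => UFD.ufm_stalk_of_smooth (f3 f) x)
    (fun x => UFD.ufm_stalk_of_smooth (f2 f) x) σ hσ h

/-- Fubini for thin sets, in the form of `Para.MapInputs.thin_prod` -/
theorem thin_prod_ofSmooth :
    letI := kAlgebraFF f
    letI := kAlgebraFF (f2 f)
    ∀ T : Set (VarSch.KPt (f2 f)), (VarSch.ofSmooth (f2 f)).thin T →
      (VarSch.ofSmooth f).thin {x | ¬ (VarSch.ofSmooth f).thin {z | Para.mk2 x z ∈ T}} :=
  fun T hT => thinAt_prod_A f T hT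

/-- **the scheme-side inputs of `Para.ParaData.ofScheme`** -/
def mapInputs : Para.MapInputs L where
  fstm := mapModelA2 (pullback.fst f f) Para.fst_f
    (goodMap_fstA (fun x => UFD.ufm_stalk_of_smooth (f2 f) x))
  sndm := mapModelA2 (pullback.snd f f) Para.snd_f
    (goodMap_sndA (fun x => UFD.ufm_stalk_of_smooth (f2 f) x))
  addm := mapModelA2 (addHom L) (addHom_comp L)
    (goodMap_addHom L hc (fun x => UFD.ufm_stalk_of_smooth (f2 f) x))
  subm := mapModelA2 (subHom L) (subHom_comp L)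
    (goodMap_subHom L (fun x => UFD.ufm_stalk_of_smooth (f2 f) x))
  sigAm := mapModelA2 (Para.sigA L) (Para.sigA_f L)
    (goodMap_dblAddHom L hc (fun x => UFD.ufm_stalk_of_smooth (f2 f) x))
  sigBm := mapModelA2 (Para.sigB L) (Para.sigB_f L)
    (goodMap_addDblHom L (fun x => UFD.ufm_stalk_of_smooth (f2 f) x))
  pr3m := mapModelA3 (pr3 : A3 f ⟶ A) Para.pr3_f
    (goodMap_pr3 (fun x => UFD.ufm_stalk_of_smooth (f3 f) x))
  sig13m := mapModelA3 (sig13 L) (Para.sig13_f L)
    (goodMap_sig13 L hc (fun x => UFD.ufm_stalk_of_smooth (f3 f) x))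
  sig23m := mapModelA3 (sig23 L) (Para.sig23_f L)
    (goodMap_sig23 L hc (fun x => UFD.ufm_stalk_of_smooth (f3 f) x))
  sigMm := mapModelA3 (sigM L) (Para.sigM_f L)
    (goodMap_sigM L (fun x => UFD.ufm_stalk_of_smooth (f3 f) x))
  p12m :=
    haveI := Para.isDominant_p12 L
    mapModelA32 (p12 f) Para.p12_f2' (goodMap_p12 (fun x => UFD.ufm_stalk_of_smooth (f3 f) x))
  thin_prod := thin_prod_ofSmooth

end Fermat.Agent.S26lib.Prod
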