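/-
S26lib / Prod / ParaSec (helper6, Project K).

**The two families of sections of helper2's `ParaData`** and their composites with the eleven maps.

* `fibHom x z : A ⟶ A³`, `y ↦ (x, z, y)` (`x z` rational points), with
  `fibHom_pr3 = 𝟙`, `fibHom_sig13 = transHom x`, `fibHom_sig23 = transHom z`,
  `fibHom_sigM = transHom (x z)⁻¹`, `fibHom_p12 = f ≫ (x, z)` (constant), `push_fibHom`;
* `iota0 G : A² ⟶ A³`, `(x, z) ↦ (x, z, 0)` (in `Prod/Maps`), with `iota0_p12 = 𝟙`,
  `iota0_pr3 = f2 ≫ 0` (there), and here `iota0_sig13 = pr₁`, `iota0_sig23 = pr₂`,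
  `iota0_sigM = addHom ≫ invHom`, `push_iota0`.
-/
import Mathlib
import Fermat.Agent.S26lib.Prod.ParaPts

set_option autoImplicit false
set_option linter.unusedSectionVars false

noncomputable section

universe u

open CategoryTheory CategoryTheory.Limits AlgebraicGeometry NeronModelInfra GoodReductionJacobian

namespace Fermat.Agent.S26lib.Prod

variable {K : Type u} [Field K] {A : Scheme.{u}} {f : A ⟶ Spec (CommRingCat.of K)}
  (G : RelativeGroupLaw K f)

/-! ### the fibre `{(x, z)} × A ⊆ A³` -/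

/-- `y ↦ (x, z, y)` -/
def fibHom (x z : VarSch.KPt f) : A ⟶ A3 f :=
  triple (NMul.basePt f x) (NMul.basePt f z) (NMul.idPt f)

variable (x z : VarSch.KPt f)

theorem fibHom_f3 : fibHom x z ≫ f3 f = f := triple_f3 _ _ _

theorem fibHom_pr3 : fibHom x z ≫ (pr3 : A3 f ⟶ A) = 𝟙 A := triple_pr3 _ _ _

theorem fibHom_p12 : fibHom x z ≫ p12 f = f ≫ ((kPt2Equiv f).symm (x, z)).1 := by
  rw [fibHom, triple_p12, kPt2Equiv_symm_coe, comp_pair f (Category.comp_id f)]
  rfl

theorem fibHom_sigM :
    fibHom x z ≫ sigM G = NMul.transHom G (G.inv (𝟙 _) (G.mul (𝟙 _) x z)) := by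
  rw [fibHom, triple_sigM, NMul.transHom, NMul.basePt_inv, NMul.basePt_mul]

variable {G} (hc : G.IsCommutative)

include hc in
theorem fibHom_sig13 : fibHom x z ≫ sig13 G = NMul.transHom G x := by
  rw [fibHom, triple_sig13, NMul.transHom, hc f]

include hc in
theorem fibHom_sig23 : fibHom x z ≫ sig23 G = NMul.transHom G z := by
  rw [fibHom, triple_sig23, NMul.transHom, hc f]

/-- on rational points `y ↦ (x, z, y)` -/
theorem push_fibHom (y : VarSch.KPt f) :
    y.push (fibHom x z) (fibHom_f3 x z) = (kPt3Equiv f).symm (x, z, y) := by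
  apply Subtype.ext
  show y.1 ≫ fibHom x z = triple x z y
  rw [fibHom, comp_triple y.1 y.2, pull_basePt, pull_basePt, pull_idPt, NMul.basePt_id,
    NMul.basePt_id]

/-! ### the zero section `A² × {0} ⊆ A³` -/

variable (G)

theorem iota0_sig13 : iota0 G ≫ sig13 G = pullback.fst f f := by
  rw [iota0, triple_sig13, G.mul_one]
  rfl

theorem iota0_sig23 : iota0 G ≫ sig23 G = pullback.snd f f := by
  rw [iota0, triple_sig23, G.mul_one]
  rfl

theorem iota0_sigM : iota0 G ≫ sigM G = addHom G ≫ NMul.invHom G := by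
  rw [iota0, triple_sigM, G.one_mul]
  show _ = (G.mul (f2 f) (pt1 f) (pt2 f)).1 ≫ NMul.invHom G
  rw [NMul.comp_invHom]

/-- on rational points `(x, z) ↦ (x, z, 0)` -/
theorem push_iota0 :
    ((kPt2Equiv f).symm (x, z)).push (iota0 G) (iota0_f3 G) =
      (kPt3Equiv f).symm (x, z, G.one (𝟙 _)) := by
  apply Subtype.ext
  show pair x z ≫ iota0 G = triple x z (G.one (𝟙 _))
  rw [iota0, comp_triple (pair x z) (pair_f2 x z), pull_pair_pt1, pull_pair_pt2, pull_one]

end Fermat.Agent.S26lib.Prod
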