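/-
S26lib / Prod / SqAbelian (helper6, Project K, (SQ-app)).

**The output of the cube for the divisor `D` of S26** (helper9's `Weil.D L`, helper1's Cartier form
`Quad.Dc L hUFD`, helper4's `VarSch.Dint L`): `DcDiv L hUFD : Hub.CDiv A`, `weilOf_DcDiv = Dint L`, and
`sqRel_abelian` : if the cube divisor `tau L γ (DcDiv L hUFD)` on `C × A × A` is principal, then
`D_{x+w} + D - D_x - D_w` is principal (`x = γ c`) — in the form of helper2's `ParaData.SqRel`.
-/
import Mathlib
import Fermat.Agent.S26lib.Prod.SqApp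
import Fermat.Agent.S26lib.Quad.AbelianD
import Fermat.Agent.S26lib.VarSch.AbelianDiv

set_option autoImplicit false
set_option linter.unusedSectionVars false

noncomputable section

universe u

open CategoryTheory CategoryTheory.Limits AlgebraicGeometry NeronModelInfra GoodReductionJacobian
  Fermat.Agent.S26lib.Hub Fermat.Agent.S26lib.Weil Fermat.Agent.S26lib.Quad
  Fermat.Agent.S26lib.FinMap

namespace Fermat.Agent.S26lib.Prod

variable {K : Type u} [Field K] {A : Scheme.{u}} {f : A ⟶ Spec (CommRingCat.of K)}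
  (L : RelativeGroupLaw K f) [IsIntegral A] [IsNoetherian A]
  (hUFD : ∀ x : A, UniqueFactorizationMonoid (A.presheaf.stalk x))

/-- the Cartier divisor `D = A ∖ U₀` of S26 -/
def DcDiv : CDiv A := CDiv.ofEff (Dc L hUFD) (Dc_isCoherent L hUFD) (Dc_ne_zero L hUFD)

theorem weilOf_DcDiv (Y : PrimeDiv A) : weilOf (DcDiv L hUFD) Y = VarSch.Dint L Y :=
  ordAt_Dc L hUFD Y.1 Y specializes_rfl

/-- **the theorem of the square for `D` on the slices of the cube** -/
theorem sqRel_abelian (hc : L.IsCommutative) {C : Scheme.{u}} (γ : C ⟶ A)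
    [IsIntegral (XC (f := f) γ)]
    (hτ : tau L γ (DcDiv L hUFD) ∈ CDiv.principal (XC (f := f) γ))
    (c : KPt (γ ≫ f)) (w : KPt f) :
    ∃ g : A.functionField, g ≠ 0 ∧ ∀ Y : PrimeDiv A,
      ordAt Y g =
        VarSch.Dint L (imgPt (NMul.transIso L (L.mul (𝟙 _) (imgC γ c) w)).hom Y) +
          VarSch.Dint L Y -
          VarSch.Dint L (imgPt (NMul.transIso L (imgC γ c)).hom Y) -
          VarSch.Dint L (imgPt (NMul.transIso L w).hom Y) := by
  obtain ⟨g, hg, h⟩ := sqRel_of_principal L γ hc (DcDiv L hUFD) hτ c w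
  refine ⟨g, hg, fun Y => ?_⟩
  rw [h Y, weilOf_DcDiv, weilOf_DcDiv, weilOf_DcDiv, weilOf_DcDiv]

end Fermat.Agent.S26lib.Prod
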