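/-
S26lib / Prod / SqAll (helper6, Project K, final assembly).

**S26 from (LIFT).**  For the abelian variety `(A, L)` of S26 and `D = A ∖ U₀`:

* `LiftStatement L hUFD` : the only input, (LIFT) for the cube divisor `tau L γ (DcDiv L hUFD)` on
  `C × A × A` of every smooth proper curve `γ : C ⟶ A`;
* `tau_principal` : the theorem of the cube (helper1's `Quad.cube`) for `tau` on `C × A × A`, for a
  curve through the origin;
* `sqRelSch_of_curve` : the theorem of the square `SqRelSch L (γ c) w` for all points of such a curve;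
* `sq_not_thin` : the rational points `x` with `∀ w, SqRelSch L x w` are not contained in a proper
  closed subset (helper8's curves through the origin);
* `paraStatement_of_lift`, `card_torsion_of_lift` : helper7's `ParaStatement` and the statement of
  S26.
-/
import Mathlib
import Fermat.Agent.S26lib.Prod.SqAbelian
import Fermat.Agent.S26lib.Quad.Cube
import Fermat.Agent.S26lib.Para.Final
import Fermat.Agent.S26lib.Curves.KPt
import Fermat.Agent.S26lib.Curves.Product
import Fermat.Agent.S26lib.Hub.Final
import Fermat.Agent.S26lib.Hub.Degenerate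

set_option autoImplicit false
set_option linter.unusedSectionVars false
set_option linter.style.haveILetI false

noncomputable section

universe u

open CategoryTheory CategoryTheory.Limits AlgebraicGeometry NeronModelInfra GoodReductionJacobian
  Fermat.Agent.S26lib.Hub Fermat.Agent.S26lib.Weil Fermat.Agent.S26lib.Quad
  Fermat.Agent.S26lib.FinMap

namespace Fermat.Agent.S26lib.Prod

variable {K : Type u} [Field K] {A : Scheme.{u}} {f : A ⟶ Spec (CommRingCat.of K)}

/-! ### dictionary between the three languages of rational points -/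

section Dict

variable {C : Scheme.{u}} (γ : C ⟶ A)

theorem tW_eq_fstK (t : KPt (f2 f)) : tW t = KPt.fstK f f t := rfl

theorem tY_eq_sndK (t : KPt (f2 f)) : tY t = KPt.sndK f f t := rfl

theorem imgC_eq_push (c : KPt (γ ≫ f)) : imgC γ c = VarSch.KPt.push γ rfl c := rfl

end Dict

/-! ### the input -/

section Statements

variable (L : RelativeGroupLaw K f) [IsIntegral A] [IsNoetherian A]
  (hUFD : ∀ x : A, UniqueFactorizationMonoid (A.presheaf.stalk x))

/-- **(LIFT)** for the cube divisor of the smooth proper curves on `A`: there is a divisor `d₀` on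
the curve such that (LIFT) holds at every rational point `t` of `A × A` over which the cube divisor
is trivial -/
def LiftStatement [IsIntegral (A2 f)] : Prop :=
  ∀ (C : Scheme.{u}) [IsIntegral C] (γ : C ⟶ A) [IsIntegral (XC (f := f) γ)],
    IsFinite γ → IsProper (γ ≫ f) → Smooth (γ ≫ f) →
    (∀ c : C, c = genericPoint C ∨ IsDiscreteValuationRing (C.presheaf.stalk c)) →
    (letI := kAlgebraFF (γ ≫ f); Algebra.trdeg K C.functionField = 1) →
    ∃ d₀ : CDiv C, ∀ t : KPt (f2 f),
      CDiv.pull (jL γ t) (tau L γ (DcDiv L hUFD)) ∈ CDiv.units C →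
      LiftAt (γ ≫ f) (f2 f) (tau L γ (DcDiv L hUFD)) d₀ t

/-- (LIFT) for the cube divisors, from (LIFT) in the general shape in which it is delivered
(helper3's `RelCurve.exists_liftAt`): a proper regular curve `C`, any integral base `T` -/
theorem liftStatement_of_general [IsIntegral (A2 f)]
    (h : ∀ {C T : Scheme.{u}} (sC : C ⟶ Spec (CommRingCat.of K))
      (sT : T ⟶ Spec (CommRingCat.of K)) [IsIntegral C] [IsIntegral T]
      [IsIntegral (pullback sC sT)] [IsLocallyNoetherian C]
      [IsLocallyNoetherian (pullback sC sT)] [CompactSpace C] [LocallyOfFiniteType sC]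
      [IsSeparated sC] [UniversallyClosed sC] [QuasiCompact sC],
      (∀ c : C, c = genericPoint C ∨ IsDiscreteValuationRing (C.presheaf.stalk c)) →
      (letI := kAlgebraFF sC; Algebra.trdeg K C.functionField = 1) →
      ∃ d₀ : CDiv C, ∀ (τ : CDiv (pullback sC sT)) (t : KPt sT),
        CDiv.pull (sliceL sC sT t) τ ∈ CDiv.units C → LiftAt sC sT τ d₀ t)
    [IsProper f] : LiftStatement L hUFD := by
  intro C _ γ _ hfin hprop hsm hreg htr
  haveI := hprop
  haveI := hsm
  haveI : IsLocallyNoetherian C := LocallyOfFiniteType.isLocallyNoetherian (γ ≫ f)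
  haveI : CompactSpace C := QuasiCompact.compactSpace_of_compactSpace (γ ≫ f)
  haveI : IsLocallyNoetherian (pullback (γ ≫ f) (f2 f)) := by
    haveI : IsProper (f2 f) := by unfold f2; infer_instance
    haveI := Curves.isNoetherian_pullback (γ ≫ f) (f2 f)
    infer_instance
  obtain ⟨d₀, hd₀⟩ := h (γ ≫ f) (f2 f) hreg htr
  exact ⟨d₀, fun t ht => hd₀ _ t ht⟩

end Statements

/-! ### the cube on `C × A × A` -/

section Inst

variable {C : Scheme.{u}} (γ : C ⟶ A)

/-- `C × A × A` is integral -/
theorem isIntegral_XC [IsAlgClosed K] [IsIntegral A] [IsIntegral (A2 f)] [Smooth f] [IsIntegral C]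
    [Smooth (γ ≫ f)] : IsIntegral (XC (f := f) γ) :=
  haveI : Smooth (f2 f) := Curves.smooth_sProd f f
  Curves.isIntegral_pullback_of_smooth (γ ≫ f) (f2 f)

/-- `C × A × A` is noetherian -/
theorem isNoetherian_XC [IsProper f] [IsProper (γ ≫ f)] : IsNoetherian (XC (f := f) γ) :=
  haveI : IsProper (f2 f) := by unfold f2; infer_instance
  Curves.isNoetherian_pullback (γ ≫ f) (f2 f)

end Inst

section Cube

variable [IsAlgClosed K] (L : RelativeGroupLaw K f) [IsIntegral A] [IsNoetherian A]
  [IsIntegral (A2 f)] [IsNoetherian (A2 f)] [Smooth f] [IsProper f]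
  (hUFD : ∀ x : A, UniqueFactorizationMonoid (A.presheaf.stalk x))

/-- **the theorem of the cube for the cube divisor** of a smooth proper curve through the origin -/
theorem tau_principal (hLIFT : LiftStatement L hUFD)
    {C : Scheme.{u}} [IsIntegral C] (γ : C ⟶ A) (hfin : IsFinite γ) [IsProper (γ ≫ f)]
    [Smooth (γ ≫ f)]
    (hreg : ∀ c : C, c = genericPoint C ∨ IsDiscreteValuationRing (C.presheaf.stalk c))
    (htr : letI := kAlgebraFF (γ ≫ f); Algebra.trdeg K C.functionField = 1)
    [IsIntegral (XC (f := f) γ)]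
    (c₀ : KPt (γ ≫ f)) (hc₀ : imgC γ c₀ = L.one (𝟙 _)) :
    tau L γ (DcDiv L hUFD) ∈ CDiv.principal (XC (f := f) γ) := by
  haveI hX' : IsIntegral (pullback (γ ≫ f) (sProd f f)) := ‹IsIntegral (XC (f := f) γ)›
  haveI hN' : IsNoetherian (pullback (γ ≫ f) (sProd f f)) := isNoetherian_XC γ
  haveI : IsLocallyNoetherian C := LocallyOfFiniteType.isLocallyNoetherian (γ ≫ f)
  haveI : Smooth (sProd f f) := Curves.smooth_sProd f f
  obtain ⟨d₀, hd₀⟩ := hLIFT C γ hfin inferInstance inferInstance hreg htr
  have hufd : ∀ x : ↥(pullback (γ ≫ f) (sProd f f)),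
      UniqueFactorizationMonoid ((pullback (γ ≫ f) (sProd f f)).presheaf.stalk x) :=
    fun x => Curves.ufm_stalk_pullback (γ ≫ f) (sProd f f) x
  have hnT : ∀ t : ↥(pullback f f), IsIntegrallyClosed ((pullback f f).presheaf.stalk t) :=
    fun t => Curves.isIntegrallyClosed_stalk (sProd f f) t
  refine Quad.cube (γ ≫ f) f f hufd hnT hreg (tau L γ (DcDiv L hUFD)) d₀ c₀
    (L.one (𝟙 _)) (L.one (𝟙 _)) ?_ ?_
  · have h := pull_jR_tau L γ (DcDiv L hUFD) c₀ hc₀
    show CDiv.pull (jR γ c₀) (tau L γ (DcDiv L hUFD)) ∈ CDiv.principal (A2 f)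
    rw [h]
    exact one_mem _
  · intro t ht
    refine hd₀ t ?_
    rcases ht with ht | ht
    · rw [pull_jL_tau_of_tW L γ (DcDiv L hUFD) t ht]
      exact one_mem _
    · rw [pull_jL_tau_of_tY L γ (DcDiv L hUFD) t ht]
      exact one_mem _

end Cube

/-! ### the theorem of the square on a set which is not thin -/

section Square

variable [IsAlgClosed K] (L : RelativeGroupLaw K f) [IsIntegral A] [IsNoetherian A]
  (hUFD : ∀ x : A, UniqueFactorizationMonoid (A.presheaf.stalk x))

omit [IsAlgClosed K] in
/-- the theorem of the square, in helper2's form, from the cube divisor being principal -/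
theorem sqRelSch_of_principal (hc : L.IsCommutative) {C : Scheme.{u}} (γ : C ⟶ A)
    [IsIntegral (XC (f := f) γ)]
    (hτ : tau L γ (DcDiv L hUFD) ∈ CDiv.principal (XC (f := f) γ))
    (c : KPt (γ ≫ f)) (w : KPt f) :
    Para.SqRelSch L (VarSch.KPt.push γ rfl c) w := by
  obtain ⟨g, hg, h⟩ := sqRel_abelian L hUFD hc γ hτ c w
  exact ⟨g, hg, fun Y => h Y⟩

variable [IsIntegral (A2 f)] [IsNoetherian (A2 f)] [Smooth f] [IsProper f]

/-- **the rational points `x` of `A` with `t_{x+w}^* D + D ~ t_x^* D + t_w^* D` for all `w` are not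
contained in a proper closed subset** (if the origin is not the generic point) -/
theorem sq_not_thin (hc : L.IsCommutative) (hLIFT : LiftStatement L hUFD)
    (h0 : zeroPt L ≠ genericPoint A)
    (Z : Set A) (hZ : IsClosed Z)
    (hΓ : ∀ a : VarSch.KPt f, (∀ w, Para.SqRelSch L a w) → VarSch.KPt.pt a ∈ Z) :
    Z = Set.univ := by
  by_contra hne
  have hη : genericPoint A ∉ Z := by
    intro hη
    apply hne
    rw [Set.eq_univ_iff_forall]
    intro x
    exact hZ.closure_subset_iff.mpr (Set.singleton_subset_iff.mpr hη)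
      ((genericPoint_spec A).specializes trivial).mem_closure
  have ho : VarSch.KPt.pt (f := f) (L.one (𝟙 _)) ≠ genericPoint A := by
    have e : VarSch.KPt.pt (f := f) (L.one (𝟙 _)) = zeroPt L :=
      congrArg (fun t => (L.one (𝟙 _)).1 t) (Subsingleton.elim (α := PrimeSpectrum K) _ _)
    rw [e]
    exact h0
  obtain ⟨C, hC, γ, hfin, hprop, hsm, hreg, htr, c₀, c₁, hc₀, hc₁⟩ :=
    Curves.exists_smooth_proper_curve_kpt f (L.one (𝟙 _)) ho Z hZ hη
  haveI := hC
  haveI := hprop
  haveI := hsm
  haveI : IsIntegral (XC (f := f) γ) := isIntegral_XC γ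
  have hτ := tau_principal L hUFD hLIFT γ hfin hreg htr c₀ hc₀
  exact hc₁ (hΓ _ fun w => sqRelSch_of_principal L hUFD hc γ hτ c₁ w)

end Square

/-! ### the parallelogram function and S26 -/

section Final

variable [IsAlgClosed K] (L : RelativeGroupLaw K f) (hA : AbelianSchemePropertyBundle K f)

/-- **helper7's `ParaStatement` from (LIFT)** -/
theorem paraStatement_of_lift (hc : L.IsCommutative) (g : ℕ) [SmoothOfRelativeDimension g f]
    (hLIFT : haveI := Weil.isIntegral_of_bundle hA
      haveI := Weil.isNoetherian_of_bundle hA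
      haveI := isIntegral_A2' f hA
      LiftStatement L (ufd_stalk hA)) :
    ParaStatement L hA := by
  haveI := Weil.isIntegral_of_bundle hA
  haveI := Weil.isNoetherian_of_bundle hA
  haveI := isIntegral_A2' f hA
  haveI := isNoetherian_A2 f hA
  haveI := hA.smooth
  haveI := hA.proper
  by_cases h0 : zeroPt L = genericPoint A
  · exact paraStatement_of_degenerate L hA h0
  · exact Para.paraStatement_of_square L hc hA g {x | ∀ w, Para.SqRelSch L x w}
      (fun Z hZ hΓ => sq_not_thin L (ufd_stalk hA) hc hLIFT h0 Z hZ hΓ)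
      (fun x hx w => hx w)

/-- **the statement of S26 from (LIFT)** -/
theorem card_torsion_of_lift (hc : L.IsCommutative) (g : ℕ) [SmoothOfRelativeDimension g f] (n : ℕ)
    (hn : (n : K) ≠ 0)
    (hLIFT : haveI := Weil.isIntegral_of_bundle hA
      haveI := Weil.isNoetherian_of_bundle hA
      haveI := isIntegral_A2' f hA
      LiftStatement L (ufd_stalk hA)) :
    Nat.card {x : SchemeHomOver (𝟙 (Spec (CommRingCat.of K))) f //
        L.IsTorsionPoint (𝟙 (Spec (CommRingCat.of K))) n x} = n ^ (2 * g) :=
  card_torsion_of_para L hc hA g n hn (paraStatement_of_lift L hA hc g hLIFT)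

end Final

end Fermat.Agent.S26lib.Prod
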