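/-
S26lib / Prod / SqMaps (helper6, Project K, (SQ-app)).

**The seven maps `C × A × A ⟶ A` of the cube** for a curve `γ : C ⟶ A`, and their composites with the
faces and with the slice `y ↦ (c, w, y)`.

`XC γ := pullback (γ ≫ f) (f2 f)` (`= C ×_K (A ×_K A)`), `sXC γ` its structure map;
coordinate points `gC γ` (`γ c`), `gW γ` (`w`), `gY γ` (`y`) `: SchemeHomOver (sXC γ) f`;
`s123 = (γc·w)·y`, `s12 = γc·w`, `s13 = γc·y`, `s23 = w·y`, `s1 = γc`, `s2 = w`, `s3 = y`.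

* faces: for `t : KPt (f2 f)` and `jL t := sliceL (γ ≫ f) (f2 f) t : C ⟶ XC γ`, the composites
  `jL t ≫ (s_ γ).1` (`jL_s123`, ...); for `c₀ : KPt (γ ≫ f)` and `jR c₀ := sliceR .. c₀ : A² ⟶ XC γ`
  the composites `jR c₀ ≫ (s_ γ).1`;
* slice: `kHom γ c w : A ⟶ XC γ`, `y ↦ (c, w, y)`, with `kHom_s123 = transHom (γc·w)`,
  `kHom_s13 = transHom (γ c)`, `kHom_s23 = transHom w`, `kHom_s3 = 𝟙`, the others constant.
-/
import Mathlib
import Fermat.Agent.S26lib.Prod.ParaSec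

set_option autoImplicit false
set_option linter.unusedSectionVars false

noncomputable section

universe u

open CategoryTheory CategoryTheory.Limits AlgebraicGeometry NeronModelInfra GoodReductionJacobian

namespace Fermat.Agent.S26lib.Prod

variable {K : Type u} [Field K] {A : Scheme.{u}} {f : A ⟶ Spec (CommRingCat.of K)}
  (G : RelativeGroupLaw K f) {C : Scheme.{u}} (γ : C ⟶ A)

/-- `C ×_K (A ×_K A)` -/
abbrev XC : Scheme.{u} := pullback (γ ≫ f) (f2 f)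

/-- the structure map of `C ×_K (A ×_K A)` -/
abbrev sXC : XC (f := f) γ ⟶ Spec (CommRingCat.of K) := sProd (γ ≫ f) (f2 f)

/-- the curve as a point of `A` with values in `C` -/
def cPt : SchemeHomOver (γ ≫ f) f := ⟨γ, rfl⟩

/-- the coordinate `γ c` -/
def gC : SchemeHomOver (sXC (f := f) γ) f :=
  pullP (pullback.fst (γ ≫ f) (f2 f)) rfl (cPt γ)

theorem snd_sXC : pullback.snd (γ ≫ f) (f2 f) ≫ f2 f = sXC (f := f) γ :=
  pullback.condition.symm

/-- the coordinate `w` -/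
def gW : SchemeHomOver (sXC (f := f) γ) f :=
  pullP (pullback.snd (γ ≫ f) (f2 f)) (snd_sXC γ) (pt1 f)

/-- the coordinate `y` -/
def gY : SchemeHomOver (sXC (f := f) γ) f :=
  pullP (pullback.snd (γ ≫ f) (f2 f)) (snd_sXC γ) (pt2 f)

/-- `(c, w, y) ↦ γ c + w + y` -/
def s123 : SchemeHomOver (sXC (f := f) γ) f := G.mul _ (G.mul _ (gC γ) (gW γ)) (gY γ)

/-- `(c, w, y) ↦ γ c + w` -/
def s12 : SchemeHomOver (sXC (f := f) γ) f := G.mul _ (gC γ) (gW γ)

/-- `(c, w, y) ↦ γ c + y` -/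
def s13 : SchemeHomOver (sXC (f := f) γ) f := G.mul _ (gC γ) (gY γ)

/-- `(c, w, y) ↦ w + y` -/
def s23 : SchemeHomOver (sXC (f := f) γ) f := G.mul _ (gW γ) (gY γ)

/-! ### a general morphism into `C × A × A` -/

section General

variable {T : Scheme.{u}} {t : T ⟶ Spec (CommRingCat.of K)} (ψ : T ⟶ XC (f := f) γ)
  (hψ : ψ ≫ sXC (f := f) γ = t)

theorem pull_gC (u : SchemeHomOver t f) (hu : ψ ≫ pullback.fst (γ ≫ f) (f2 f) ≫ γ = u.1) :
    pullP ψ hψ (gC γ) = u := Subtype.ext hu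

theorem pull_gW (u : SchemeHomOver t f)
    (hu : ψ ≫ pullback.snd (γ ≫ f) (f2 f) ≫ pullback.fst f f = u.1) :
    pullP ψ hψ (gW γ) = u := Subtype.ext hu

theorem pull_gY (u : SchemeHomOver t f)
    (hu : ψ ≫ pullback.snd (γ ≫ f) (f2 f) ≫ pullback.snd f f = u.1) :
    pullP ψ hψ (gY γ) = u := Subtype.ext hu

variable {ψ} {hψ} {a b c : SchemeHomOver t f} (ha : pullP ψ hψ (gC γ) = a)
  (hb : pullP ψ hψ (gW γ) = b) (hc' : pullP ψ hψ (gY γ) = c)

include ha hb hc' in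
theorem comp_s123 : ψ ≫ (s123 G γ).1 = (G.mul t (G.mul t a b) c).1 := by
  rw [comp_coe ψ hψ, s123, pull_mul, pull_mul, ha, hb, hc']

include ha hb in
theorem comp_s12 : ψ ≫ (s12 G γ).1 = (G.mul t a b).1 := by
  rw [comp_coe ψ hψ, s12, pull_mul, ha, hb]

include ha hc' in
theorem comp_s13 : ψ ≫ (s13 G γ).1 = (G.mul t a c).1 := by
  rw [comp_coe ψ hψ, s13, pull_mul, ha, hc']

include hb hc' in
theorem comp_s23 : ψ ≫ (s23 G γ).1 = (G.mul t b c).1 := by
  rw [comp_coe ψ hψ, s23, pull_mul, hb, hc']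

include ha in
theorem comp_s1 : ψ ≫ (gC γ).1 = a.1 := by
  rw [comp_coe ψ hψ, ha]

include hb in
theorem comp_s2 : ψ ≫ (gW γ).1 = b.1 := by
  rw [comp_coe ψ hψ, hb]

include hc' in
theorem comp_s3 : ψ ≫ (gY γ).1 = c.1 := by
  rw [comp_coe ψ hψ, hc']

end General

/-! ### the faces `c ↦ (c, t)` -/

section FaceL

variable (t : KPt (f2 f))

/-- `c ↦ (c, t)` -/
abbrev jL : C ⟶ XC (f := f) γ := sliceL (γ ≫ f) (f2 f) t

theorem jL_sXC : jL γ t ≫ sXC (f := f) γ = γ ≫ f := by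
  show sliceL (γ ≫ f) (f2 f) t ≫ pullback.fst (γ ≫ f) (f2 f) ≫ (γ ≫ f) = _
  rw [← Category.assoc, sliceL_fst, Category.id_comp]

/-- the first coordinate of `t` -/
abbrev tW : KPt f := pullP t.1 t.2 (pt1 f)

/-- the second coordinate of `t` -/
abbrev tY : KPt f := pullP t.1 t.2 (pt2 f)

theorem pull_jL_gC : pullP (jL γ t) (jL_sXC γ t) (gC γ) = cPt γ := by
  apply pull_gC
  rw [← Category.assoc, sliceL_fst, Category.id_comp]
  rfl

theorem pull_jL_gW : pullP (jL γ t) (jL_sXC γ t) (gW γ) = NMul.basePt (γ ≫ f) (tW t) := by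
  apply pull_gW
  rw [← Category.assoc, sliceL_snd, Category.assoc]
  rfl

theorem pull_jL_gY : pullP (jL γ t) (jL_sXC γ t) (gY γ) = NMul.basePt (γ ≫ f) (tY t) := by
  apply pull_gY
  rw [← Category.assoc, sliceL_snd, Category.assoc]
  rfl

end FaceL

/-! ### the face `(w, y) ↦ (c₀, w, y)` -/

section FaceR

variable (c₀ : KPt (γ ≫ f))

/-- `(w, y) ↦ (c₀, w, y)` -/
abbrev jR : A2 f ⟶ XC (f := f) γ := sliceR (γ ≫ f) (f2 f) c₀

theorem jR_sXC : jR γ c₀ ≫ sXC (f := f) γ = f2 f := by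
  show sliceR (γ ≫ f) (f2 f) c₀ ≫ pullback.fst (γ ≫ f) (f2 f) ≫ (γ ≫ f) = _
  rw [← Category.assoc, sliceR_fst, Category.assoc, c₀.2, Category.comp_id]

/-- the image `γ c₀` of the rational point `c₀` -/
abbrev imgC : KPt f := pullP c₀.1 c₀.2 (cPt γ)

theorem pull_jR_gC : pullP (jR γ c₀) (jR_sXC γ c₀) (gC γ) = NMul.basePt (f2 f) (imgC γ c₀) := by
  apply pull_gC
  rw [← Category.assoc, sliceR_fst, Category.assoc]
  rfl

theorem pull_jR_gW : pullP (jR γ c₀) (jR_sXC γ c₀) (gW γ) = pt1 f := by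
  apply pull_gW
  rw [← Category.assoc, sliceR_snd, Category.id_comp]
  rfl

theorem pull_jR_gY : pullP (jR γ c₀) (jR_sXC γ c₀) (gY γ) = pt2 f := by
  apply pull_gY
  rw [← Category.assoc, sliceR_snd, Category.id_comp]
  rfl

end FaceR

/-! ### the slice `y ↦ (c, w, y)` -/

section Slice

variable (c : KPt (γ ≫ f)) (w : KPt f)

/-- `y ↦ (w, y)` -/
def wHom : A ⟶ A2 f := pair (NMul.basePt f w) (NMul.idPt f)

theorem wHom_f2 : wHom w ≫ f2 f = f := pair_f2 _ _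

/-- `y ↦ (c, w, y)` -/
def kHom : A ⟶ XC (f := f) γ := wHom w ≫ jR γ c

theorem kHom_sXC : kHom γ c w ≫ sXC (f := f) γ = f := by
  rw [kHom, Category.assoc, jR_sXC, wHom_f2]

theorem pull_kHom_gC : pullP (kHom γ c w) (kHom_sXC γ c w) (gC γ) = NMul.basePt f (imgC γ c) := by
  apply pull_gC
  rw [kHom, Category.assoc, ← Category.assoc (jR γ c), sliceR_fst, Category.assoc,
    ← Category.assoc (wHom w), wHom_f2]
  rfl

theorem pull_kHom_gW : pullP (kHom γ c w) (kHom_sXC γ c w) (gW γ) = NMul.basePt f w := by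
  apply pull_gW
  rw [kHom, Category.assoc, ← Category.assoc (jR γ c), sliceR_snd, Category.id_comp]
  exact pair_fst _ _

theorem pull_kHom_gY : pullP (kHom γ c w) (kHom_sXC γ c w) (gY γ) = NMul.idPt f := by
  apply pull_gY
  rw [kHom, Category.assoc, ← Category.assoc (jR γ c), sliceR_snd, Category.id_comp]
  exact pair_snd _ _

end Slice

end Fermat.Agent.S26lib.Prod
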