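/-
S26lib / Prod / SqApp (helper6, Project K, (SQ-app)).

**The cube divisor on `C × A × A` and the theorem of the square.**

For a Cartier divisor `D : Hub.CDiv A` (helper7's `Hub/CaCl`) and `γ : C ⟶ A`:
`tau G γ D := s123^*D · s1^*D · s2^*D · s3^*D / (s12^*D · s13^*D · s23^*D) : CDiv (C × A × A)`.

* `pull_tau` : the pull-back of `tau` along any morphism, in terms of the seven composites;
* faces: `pull_jL_tau_of_tY`, `pull_jL_tau_of_tW`, `pull_jR_tau` : the pull-back of `tau` to a face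
  through the origin is TRIVIAL (equal to `1`);
* slice: `pull_kHom_tau` : the pull-back to `{c} × {w} × A` is
  `t_{x+w}^*D · D / (t_x^*D · t_w^*D)` (`x = γ c`), in the normalised form `CDiv.pull`;
* **`sqRel_of_principal`** : if `tau` is principal, then for all rational `c`, `w` there is a function
  `g` with `div g = D_{x+w} + D - D_x - D_w` (helper2's `SqRel`, in scheme terms).
-/
import Mathlib
import Fermat.Agent.S26lib.Prod.SqMaps
import Fermat.Agent.S26lib.Hub.CaClFun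
import Fermat.Agent.S26lib.FinMap.OrdComp
import Fermat.Agent.S26lib.Quad.RatWeil

set_option autoImplicit false
set_option linter.unusedSectionVars false

noncomputable section

universe u

open CategoryTheory CategoryTheory.Limits AlgebraicGeometry NeronModelInfra GoodReductionJacobian
  Fermat.Agent.S26lib.Hub

namespace Fermat.Agent.S26lib.Prod

variable {K : Type u} [Field K] {A : Scheme.{u}} {f : A ⟶ Spec (CommRingCat.of K)}
  (G : RelativeGroupLaw K f) {C : Scheme.{u}} (γ : C ⟶ A)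
  [IsIntegral A]

/-- constant maps pull every Cartier divisor back to the trivial divisor -/
theorem cdivPull_basePt {T : Scheme.{u}} [IsIntegral T] (t : T ⟶ Spec (CommRingCat.of K))
    (a : KPt f) (D : CDiv A) : CDiv.pull (NMul.basePt t a).1 D = 1 := by
  apply CDiv.pull_of_const
  intro y
  show (t ≫ a.1) y = (t ≫ a.1) (genericPoint T)
  rw [Scheme.Hom.comp_apply, Scheme.Hom.comp_apply]
  exact congrArg a.1 (Subsingleton.elim _ _)

section Tau

variable [IsIntegral (XC (f := f) γ)] (D : CDiv A)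

/-- **the cube divisor** on `C × A × A` -/
def tau : CDiv (XC (f := f) γ) :=
  CDiv.pull (s123 G γ).1 D * CDiv.pull (gC γ).1 D * CDiv.pull (gW γ).1 D * CDiv.pull (gY γ).1 D /
    (CDiv.pull (s12 G γ).1 D * CDiv.pull (s13 G γ).1 D * CDiv.pull (s23 G γ).1 D)

/-- the pull-back of the cube divisor along any morphism -/
theorem pull_tau {T : Scheme.{u}} [IsIntegral T] (ψ : T ⟶ XC (f := f) γ) :
    CDiv.pull ψ (tau G γ D) =
      CDiv.pull (ψ ≫ (s123 G γ).1) D * CDiv.pull (ψ ≫ (gC γ).1) D *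
        CDiv.pull (ψ ≫ (gW γ).1) D * CDiv.pull (ψ ≫ (gY γ).1) D /
        (CDiv.pull (ψ ≫ (s12 G γ).1) D * CDiv.pull (ψ ≫ (s13 G γ).1) D *
          CDiv.pull (ψ ≫ (s23 G γ).1) D) := by
  simp only [tau, map_div, map_mul, CDiv.pull_comp]

end Tau

/-! ### the faces -/

section Faces

variable [IsIntegral C] [IsIntegral (XC (f := f) γ)] (D : CDiv A)

/-- the face `y = 0` -/
theorem pull_jL_tau_of_tY (t : KPt (f2 f)) (ht : tY t = G.one (𝟙 _)) :
    CDiv.pull (jL γ t) (tau G γ D) = 1 := by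
  have hone : NMul.basePt (γ ≫ f) (tY t) = G.one (γ ≫ f) := by
    rw [ht]; exact (NMul.one_eq_basePt G (γ ≫ f)).symm
  have e123 : jL γ t ≫ (s123 G γ).1 = jL γ t ≫ (s12 G γ).1 := by
    rw [comp_s123 G γ (pull_jL_gC γ t) (pull_jL_gW γ t) (pull_jL_gY γ t),
      comp_s12 G γ (pull_jL_gC γ t) (pull_jL_gW γ t), hone, G.mul_one]
  have e13 : jL γ t ≫ (s13 G γ).1 = jL γ t ≫ (gC γ).1 := by
    rw [comp_s13 G γ (pull_jL_gC γ t) (pull_jL_gY γ t), comp_s1 γ (pull_jL_gC γ t), hone,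
      G.mul_one]
  have e23 : jL γ t ≫ (s23 G γ).1 =
      (NMul.basePt (γ ≫ f) (G.mul (𝟙 _) (tW t) (tY t))).1 := by
    rw [comp_s23 G γ (pull_jL_gW γ t) (pull_jL_gY γ t), NMul.basePt_mul]
  have e2 : jL γ t ≫ (gW γ).1 = (NMul.basePt (γ ≫ f) (tW t)).1 := comp_s2 γ (pull_jL_gW γ t)
  have e3 : jL γ t ≫ (gY γ).1 = (NMul.basePt (γ ≫ f) (tY t)).1 := comp_s3 γ (pull_jL_gY γ t)
  rw [pull_tau, CDiv.pull_congr e123, CDiv.pull_congr e13, CDiv.pull_congr e23,
    CDiv.pull_congr e2, CDiv.pull_congr e3, cdivPull_basePt, cdivPull_basePt, cdivPull_basePt]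
  simp only [mul_one]
  rw [div_eq_one]

/-- the face `w = 0` -/
theorem pull_jL_tau_of_tW (t : KPt (f2 f)) (ht : tW t = G.one (𝟙 _)) :
    CDiv.pull (jL γ t) (tau G γ D) = 1 := by
  have hone : NMul.basePt (γ ≫ f) (tW t) = G.one (γ ≫ f) := by
    rw [ht]; exact (NMul.one_eq_basePt G (γ ≫ f)).symm
  have e123 : jL γ t ≫ (s123 G γ).1 = jL γ t ≫ (s13 G γ).1 := by
    rw [comp_s123 G γ (pull_jL_gC γ t) (pull_jL_gW γ t) (pull_jL_gY γ t),
      comp_s13 G γ (pull_jL_gC γ t) (pull_jL_gY γ t), hone, G.mul_one]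
  have e12 : jL γ t ≫ (s12 G γ).1 = jL γ t ≫ (gC γ).1 := by
    rw [comp_s12 G γ (pull_jL_gC γ t) (pull_jL_gW γ t), comp_s1 γ (pull_jL_gC γ t), hone,
      G.mul_one]
  have e23 : jL γ t ≫ (s23 G γ).1 =
      (NMul.basePt (γ ≫ f) (G.mul (𝟙 _) (tW t) (tY t))).1 := by
    rw [comp_s23 G γ (pull_jL_gW γ t) (pull_jL_gY γ t), NMul.basePt_mul]
  have e2 : jL γ t ≫ (gW γ).1 = (NMul.basePt (γ ≫ f) (tW t)).1 := comp_s2 γ (pull_jL_gW γ t)
  have e3 : jL γ t ≫ (gY γ).1 = (NMul.basePt (γ ≫ f) (tY t)).1 := comp_s3 γ (pull_jL_gY γ t)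
  rw [pull_tau, CDiv.pull_congr e123, CDiv.pull_congr e12, CDiv.pull_congr e23,
    CDiv.pull_congr e2, CDiv.pull_congr e3, cdivPull_basePt, cdivPull_basePt, cdivPull_basePt]
  simp only [mul_one]
  rw [div_eq_one]
  exact mul_comm _ _

end Faces

section FaceR

variable [IsIntegral (A2 f)] [IsIntegral (XC (f := f) γ)] (D : CDiv A)

/-- the face `c = c₀` (`γ c₀ = 0`) -/
theorem pull_jR_tau (c₀ : KPt (γ ≫ f)) (hc₀ : imgC γ c₀ = G.one (𝟙 _)) :
    CDiv.pull (jR γ c₀) (tau G γ D) = 1 := by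
  have hone : NMul.basePt (f2 f) (imgC γ c₀) = G.one (f2 f) := by
    rw [hc₀]; exact (NMul.one_eq_basePt G (f2 f)).symm
  have e123 : jR γ c₀ ≫ (s123 G γ).1 = jR γ c₀ ≫ (s23 G γ).1 := by
    rw [comp_s123 G γ (pull_jR_gC γ c₀) (pull_jR_gW γ c₀) (pull_jR_gY γ c₀),
      comp_s23 G γ (pull_jR_gW γ c₀) (pull_jR_gY γ c₀), hone, G.one_mul]
  have e12 : jR γ c₀ ≫ (s12 G γ).1 = jR γ c₀ ≫ (gW γ).1 := by
    rw [comp_s12 G γ (pull_jR_gC γ c₀) (pull_jR_gW γ c₀), comp_s2 γ (pull_jR_gW γ c₀), hone,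
      G.one_mul]
  have e13 : jR γ c₀ ≫ (s13 G γ).1 = jR γ c₀ ≫ (gY γ).1 := by
    rw [comp_s13 G γ (pull_jR_gC γ c₀) (pull_jR_gY γ c₀), comp_s3 γ (pull_jR_gY γ c₀), hone,
      G.one_mul]
  have e1 : jR γ c₀ ≫ (gC γ).1 = (NMul.basePt (f2 f) (imgC γ c₀)).1 :=
    comp_s1 γ (pull_jR_gC γ c₀)
  rw [pull_tau, CDiv.pull_congr e123, CDiv.pull_congr e12, CDiv.pull_congr e13,
    CDiv.pull_congr e1, cdivPull_basePt]
  simp only [mul_one]
  rw [div_eq_one, mul_assoc, mul_comm]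

end FaceR

/-! ### the slice `y ↦ (c, w, y)` -/

section Slice

variable [IsIntegral (XC (f := f) γ)] (D : CDiv A) (hc : G.IsCommutative)

include hc in
/-- **the cube divisor on the slice `{c} × {w} × A`** -/
theorem pull_kHom_tau (c : KPt (γ ≫ f)) (w : KPt f) :
    CDiv.pull (kHom γ c w) (tau G γ D) =
      CDiv.pull (NMul.transHom G (G.mul (𝟙 _) (imgC γ c) w)) D * CDiv.pull (𝟙 A) D /
        (CDiv.pull (NMul.transHom G (imgC γ c)) D * CDiv.pull (NMul.transHom G w) D) := by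
  have e123 : kHom γ c w ≫ (s123 G γ).1 = NMul.transHom G (G.mul (𝟙 _) (imgC γ c) w) := by
    rw [comp_s123 G γ (pull_kHom_gC γ c w) (pull_kHom_gW γ c w) (pull_kHom_gY γ c w),
      ← NMul.basePt_mul, hc f]
    rfl
  have e12 : kHom γ c w ≫ (s12 G γ).1 = (NMul.basePt f (G.mul (𝟙 _) (imgC γ c) w)).1 := by
    rw [comp_s12 G γ (pull_kHom_gC γ c w) (pull_kHom_gW γ c w), NMul.basePt_mul]
  have e13 : kHom γ c w ≫ (s13 G γ).1 = NMul.transHom G (imgC γ c) := by
    rw [comp_s13 G γ (pull_kHom_gC γ c w) (pull_kHom_gY γ c w), hc f]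
    rfl
  have e23 : kHom γ c w ≫ (s23 G γ).1 = NMul.transHom G w := by
    rw [comp_s23 G γ (pull_kHom_gW γ c w) (pull_kHom_gY γ c w), hc f]
    rfl
  have e1 : kHom γ c w ≫ (gC γ).1 = (NMul.basePt f (imgC γ c)).1 :=
    comp_s1 γ (pull_kHom_gC γ c w)
  have e2 : kHom γ c w ≫ (gW γ).1 = (NMul.basePt f w).1 := comp_s2 γ (pull_kHom_gW γ c w)
  have e3 : kHom γ c w ≫ (gY γ).1 = 𝟙 A := comp_s3 γ (pull_kHom_gY γ c w)
  rw [pull_tau, CDiv.pull_congr e123, CDiv.pull_congr e12, CDiv.pull_congr e13,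
    CDiv.pull_congr e23, CDiv.pull_congr e1, CDiv.pull_congr e2, CDiv.pull_congr e3,
    cdivPull_basePt, cdivPull_basePt, cdivPull_basePt]
  simp only [mul_one, one_mul]

end Slice

/-! ### the theorem of the square from the cube -/

section Output

open Fermat.Agent.S26lib.Weil Fermat.Agent.S26lib.Quad Fermat.Agent.S26lib.FinMap

variable [IsLocallyNoetherian A]

/-- units of the local ring of a prime divisor have order `0` -/
theorem ordZ_eq_zero_of_mem_stalkUnits (Y : PrimeDiv A) {q : (A.functionField)ˣ}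
    (hq : q ∈ stalkUnits A Y.1) : ordZ Y q = 0 := by
  obtain ⟨u, rfl⟩ := hq
  exact ordAt_toFF_unit Y u

/-- the Weil divisor of a Cartier divisor -/
def weilOf (D : CDiv A) (Y : PrimeDiv A) : ℤ := ordZ Y (D.t Y.1)

/-- the constant by which the normalised pull-back along a dominant map differs from the literal
one -/
def pullCst (ψ : A ⟶ A) [IsDominant ψ] (D : CDiv A) : (A.functionField)ˣ :=
  Units.map (FinMap.ffMap ψ).toMonoidHom (D.t (ψ (genericPoint A)))

/-- the order of the (normalised) pull-back of a Cartier divisor along an automorphism -/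
theorem ordZ_pull_t_of_isIso (ψ : A ⟶ A) [IsIso ψ] (D : CDiv A) (Y : PrimeDiv A) :
    ordZ Y ((CDiv.pull ψ D).t Y.1) = weilOf D (imgPt ψ Y) - ordZ Y (pullCst ψ D) := by
  have e : (CDiv.pull ψ D).t Y.1 =
      Units.map (FinMap.ffMap ψ).toMonoidHom (D.t (ψ Y.1)) / pullCst ψ D := by
    apply Units.ext
    rw [Units.val_div_eq_div_val]
    exact CDiv.pull_t_of_dominant ψ D Y.1
  rw [e, ordZ_div]
  congr 1
  exact ordAt_ffMap ψ Y _

instance isIso_transHom (a : KPt f) : IsIso (NMul.transHom G a) :=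
  (NMul.transIso G a).isIso_hom

variable [IsIntegral (XC (f := f) γ)]

/-- **the theorem of the square on the slices of the cube**: if the cube divisor of `D` on
`C × A × A` is principal, then `D_{x+w} + D - D_x - D_w` is principal for every `x = γ c`, `c` a
rational point of `C`, and every rational point `w` of `A`. (`D_a := t_a^* D`, i.e.
`D_a (Y) = D (Y + a)`; this is helper2's `ParaData.SqRel` for helper4's translation models.) -/
theorem sqRel_of_principal (hc : G.IsCommutative) (D : CDiv A)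
    (hτ : tau G γ D ∈ CDiv.principal (XC (f := f) γ)) (c : KPt (γ ≫ f)) (w : KPt f) :
    ∃ g : A.functionField, g ≠ 0 ∧ ∀ Y : PrimeDiv A,
      ordAt Y g =
        weilOf D (imgPt (NMul.transIso G (G.mul (𝟙 _) (imgC γ c) w)).hom Y) + weilOf D Y -
          weilOf D (imgPt (NMul.transIso G (imgC γ c)).hom Y) -
          weilOf D (imgPt (NMul.transIso G w).hom Y) := by
  have h1 := CDiv.pull_mem_principal (kHom γ c w) hτ
  rw [pull_kHom_tau G γ D hc c w] at h1
  obtain ⟨h, hh⟩ := CDiv.mem_principal_iff.1 h1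
  refine ⟨((h * pullCst (NMul.transHom G (G.mul (𝟙 _) (imgC γ c) w)) D *
      D.t (genericPoint A) /
      (pullCst (NMul.transHom G (imgC γ c)) D * pullCst (NMul.transHom G w) D) :
      (A.functionField)ˣ) : A.functionField), Units.ne_zero _, fun Y => ?_⟩
  have h0 := ordZ_eq_zero_of_mem_stalkUnits Y (hh Y.1)
  simp only [CDiv.div_t, CDiv.mul_t, CDiv.prin_t, ordZ_div, ordZ_mul, CDiv.pull_id] at h0
  rw [ordZ_pull_t_of_isIso, ordZ_pull_t_of_isIso, ordZ_pull_t_of_isIso] at h0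
  show ordZ Y _ = _
  simp only [ordZ_div, ordZ_mul]
  have e0 : ordZ Y (D.t Y.1) = weilOf D Y := rfl
  rw [e0] at h0
  have e1 : (imgPt (NMul.transIso G (G.mul (𝟙 _) (imgC γ c) w)).hom Y) =
      imgPt (NMul.transHom G (G.mul (𝟙 _) (imgC γ c) w)) Y := rfl
  have e2 : (imgPt (NMul.transIso G (imgC γ c)).hom Y) =
      imgPt (NMul.transHom G (imgC γ c)) Y := rfl
  have e3 : (imgPt (NMul.transIso G w).hom Y) = imgPt (NMul.transHom G w) Y := rfl
  rw [e1, e2, e3]
  linarith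

end Output

end Fermat.Agent.S26lib.Prod
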